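/-
PT / BR layer: explicit degree-2 calculus for "inflated" cochains.

Ambient group `Γ` acting on an additive commutative group `A`.  All cochains are plain
functions on `Γ` / `Γ × Γ`; a subgroup `M ≤ Γ` plays the role of the group whose cohomology is
computed (values outside `M` are junk), and `N ≤ M` (normal in `M`) is a "level": a cochain of `M`
is *inflated from `M/N`* when it is right-`N`-invariant with `N`-fixed values.
-/
import Mathlib

set_option autoImplicit false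

namespace Fermat.Agent.PT.Br

variable {Γ A : Type*} [Group Γ] [AddCommGroup A] [DistribMulAction Γ A]

/-- Inhomogeneous coboundary of a 1-cochain (same convention as Mathlib's `IsCoboundary₂`). -/
def d1 (x : Γ → A) : Γ × Γ → A := fun p => p.1 • x p.2 - x (p.1 * p.2) + x p.1

/-- Coboundary of a 0-cochain. -/
def d0 (a : A) : Γ → A := fun g => g • a - a

@[simp] lemma d1_apply (x : Γ → A) (g h : Γ) : d1 x (g, h) = g • x h - x (g * h) + x g := rfl

@[simp] lemma d0_apply (a : A) (g : Γ) : d0 a g = g • a - a := rfl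

lemma d1_d0 (a : A) (g h : Γ) : d1 (d0 a) (g, h) = 0 := by
  simp only [d1_apply, d0_apply, smul_sub, mul_smul]; abel

lemma d1_add (x y : Γ → A) (g h : Γ) : d1 (x + y) (g, h) = d1 x (g, h) + d1 y (g, h) := by
  simp only [d1_apply, Pi.add_apply, smul_add]; abel

lemma d1_sub (x y : Γ → A) (g h : Γ) : d1 (x - y) (g, h) = d1 x (g, h) - d1 y (g, h) := by
  simp only [d1_apply, Pi.sub_apply, smul_sub]; abel

lemma d1_neg (x : Γ → A) (g h : Γ) : d1 (-x) (g, h) = - d1 x (g, h) := by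
  simp only [d1_apply, Pi.neg_apply, smul_neg]; abel

lemma d1_zsmul (c : ℤ) (x : Γ → A) (g h : Γ) : d1 (c • x) (g, h) = c • d1 x (g, h) := by
  simp only [d1_apply, Pi.smul_apply, smul_sub, smul_add, smul_comm g c]

/-- `N` is a subgroup of `M`, normalised by `M`. -/
structure NormalIn (N M : Subgroup Γ) : Prop where
  le : N ≤ M
  conj : ∀ g ∈ M, ∀ n ∈ N, g * n * g⁻¹ ∈ N

lemma NormalIn.conj' {N M : Subgroup Γ} (h : NormalIn N M) {g n : Γ} (hg : g ∈ M) (hn : n ∈ N) :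
    g⁻¹ * n * g ∈ N := by
  simpa using h.conj g⁻¹ (M.inv_mem hg) n hn

lemma NormalIn.refl (M : Subgroup Γ) : NormalIn M M :=
  ⟨le_rfl, fun _ hg _ hn => M.mul_mem (M.mul_mem hg hn) (M.inv_mem hg)⟩

lemma NormalIn.bot (M : Subgroup Γ) : NormalIn ⊥ M :=
  ⟨bot_le, fun g _ n hn => by rw [Subgroup.mem_bot] at hn; simp [hn]⟩

lemma NormalIn.of_normal (N : Subgroup Γ) [N.Normal] : NormalIn N ⊤ :=
  ⟨le_top, fun g _ n hn => Subgroup.Normal.conj_mem inferInstance n hn g⟩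

lemma NormalIn.mono {N M M' : Subgroup Γ} (h : NormalIn N M) (hM : M' ≤ M) (hN : N ≤ M') :
    NormalIn N M' :=
  ⟨hN, fun g hg n hn => h.conj g (hM hg) n hn⟩

lemma NormalIn.inf {N N' M : Subgroup Γ} (h : NormalIn N M) (h' : NormalIn N' M) :
    NormalIn (N ⊓ N') M :=
  ⟨inf_le_left.trans h.le, fun g hg n hn => ⟨h.conj g hg n hn.1, h'.conj g hg n hn.2⟩⟩

/-- 2-cocycle condition on the subgroup `M` (Mathlib's convention). -/
def CocOn₂ (M : Subgroup Γ) (z : Γ × Γ → A) : Prop :=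
  ∀ g ∈ M, ∀ h ∈ M, ∀ j ∈ M, z (g * h, j) + z (g, h) = g • z (h, j) + z (g, h * j)

/-- 1-cocycle condition on the subgroup `M`. -/
def CocOn₁ (M : Subgroup Γ) (u : Γ → A) : Prop :=
  ∀ g ∈ M, ∀ h ∈ M, u (g * h) = g • u h + u g

/-- A 1-cochain of `M` inflated from `M/N`. -/
def InflOn₁ (M N : Subgroup Γ) (f : Γ → A) : Prop :=
  (∀ g ∈ M, ∀ n ∈ N, f (g * n) = f g) ∧ (∀ g ∈ M, ∀ n ∈ N, n • f g = f g)

/-- A 2-cochain of `M` inflated from `M/N`. -/
def InflOn₂ (M N : Subgroup Γ) (z : Γ × Γ → A) : Prop :=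
  (∀ g ∈ M, ∀ k ∈ M, ∀ n ∈ N, ∀ n' ∈ N, z (g * n, k * n') = z (g, k)) ∧
    (∀ g ∈ M, ∀ k ∈ M, ∀ n ∈ N, n • z (g, k) = z (g, k))

/-- `z` is, on `M`, the coboundary of a 1-cochain inflated from `M/N`. -/
def CobOn₂ (M N : Subgroup Γ) (z : Γ × Γ → A) : Prop :=
  ∃ f : Γ → A, InflOn₁ M N f ∧ ∀ g ∈ M, ∀ h ∈ M, z (g, h) = d1 f (g, h)

/-- "Hilbert 90 for `N` at level `N₀`": 1-cocycles of `N` that are right-`N₀`-invariant are
coboundaries. -/
def H90On (A : Type*) [AddCommGroup A] [DistribMulAction Γ A] (N N₀ : Subgroup Γ) : Prop :=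
  ∀ u : Γ → A, CocOn₁ N u → (∀ n ∈ N, ∀ s ∈ N₀, u (n * s) = u n) →
    ∃ a : A, ∀ n ∈ N, u n = n • a - a

section basic

variable {M N N' : Subgroup Γ}

lemma cocOn₂_d1 (M : Subgroup Γ) (x : Γ → A) : CocOn₂ M (d1 x) := by
  intro g _ h _ j _
  simp only [d1_apply, smul_sub, smul_add, mul_smul, mul_assoc]; abel

lemma CocOn₂.add {z z' : Γ × Γ → A} (h : CocOn₂ M z) (h' : CocOn₂ M z') : CocOn₂ M (z + z') := by
  intro g hg k hk j hj
  have e1 := h g hg k hk j hj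
  have e2 := h' g hg k hk j hj
  simp only [Pi.add_apply, smul_add]
  linear_combination (norm := abel) e1 + e2

lemma CocOn₂.neg {z : Γ × Γ → A} (h : CocOn₂ M z) : CocOn₂ M (-z) := by
  intro g hg k hk j hj
  have e1 := h g hg k hk j hj
  simp only [Pi.neg_apply, smul_neg]
  linear_combination (norm := abel) - e1

lemma CocOn₂.sub {z z' : Γ × Γ → A} (h : CocOn₂ M z) (h' : CocOn₂ M z') : CocOn₂ M (z - z') := by
  rw [sub_eq_add_neg]; exact h.add h'.neg

lemma CocOn₂.zsmul {z : Γ × Γ → A} (h : CocOn₂ M z) (c : ℤ) : CocOn₂ M (c • z) := by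
  intro g hg k hk j hj
  have e1 := h g hg k hk j hj
  simp only [Pi.smul_apply, smul_comm g c, ← smul_add, e1]

lemma CocOn₂.mono {z : Γ × Γ → A} (h : CocOn₂ M z) {M' : Subgroup Γ} (hM : M' ≤ M) :
    CocOn₂ M' z :=
  fun g hg k hk j hj => h g (hM hg) k (hM hk) j (hM hj)

lemma CocOn₂.congr {z z' : Γ × Γ → A} (h : CocOn₂ M z)
    (he : ∀ g ∈ M, ∀ k ∈ M, z' (g, k) = z (g, k)) : CocOn₂ M z' := by
  intro g hg k hk j hj
  rw [he _ (M.mul_mem hg hk) _ hj, he _ hg _ hk, he _ hk _ hj, he _ hg _ (M.mul_mem hk hj)]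
  exact h g hg k hk j hj

/-- `z (1, g) = z (1, 1)` for a cocycle. -/
lemma CocOn₂.map_one_fst {z : Γ × Γ → A} (h : CocOn₂ M z) {g : Γ} (hg : g ∈ M) :
    z (1, g) = z (1, 1) := by
  have e := h 1 M.one_mem 1 M.one_mem g hg
  simp only [one_mul, one_smul] at e
  linear_combination (norm := abel) - e

/-- `z (g, 1) = g • z (1, 1)` for a cocycle. -/
lemma CocOn₂.map_one_snd {z : Γ × Γ → A} (h : CocOn₂ M z) {g : Γ} (hg : g ∈ M) :
    z (g, 1) = g • z (1, 1) := by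
  have e := h g hg 1 M.one_mem 1 M.one_mem
  simp only [mul_one] at e
  linear_combination (norm := abel) e

lemma InflOn₁.mono {f : Γ → A} (h : InflOn₁ M N f) (hN : N' ≤ N) : InflOn₁ M N' f :=
  ⟨fun g hg n hn => h.1 g hg n (hN hn), fun g hg n hn => h.2 g hg n (hN hn)⟩

lemma InflOn₁.mono_left {f : Γ → A} (h : InflOn₁ M N f) {M' : Subgroup Γ} (hM : M' ≤ M) :
    InflOn₁ M' N f :=
  ⟨fun g hg n hn => h.1 g (hM hg) n hn, fun g hg n hn => h.2 g (hM hg) n hn⟩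

lemma InflOn₂.mono {z : Γ × Γ → A} (h : InflOn₂ M N z) (hN : N' ≤ N) : InflOn₂ M N' z :=
  ⟨fun g hg k hk n hn n' hn' => h.1 g hg k hk n (hN hn) n' (hN hn'),
    fun g hg k hk n hn => h.2 g hg k hk n (hN hn)⟩

lemma InflOn₂.mono_left {z : Γ × Γ → A} (h : InflOn₂ M N z) {M' : Subgroup Γ} (hM : M' ≤ M) :
    InflOn₂ M' N z :=
  ⟨fun g hg k hk n hn n' hn' => h.1 g (hM hg) k (hM hk) n hn n' hn',
    fun g hg k hk n hn => h.2 g (hM hg) k (hM hk) n hn⟩

lemma InflOn₁.add {f f' : Γ → A} (h : InflOn₁ M N f) (h' : InflOn₁ M N f') :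
    InflOn₁ M N (f + f') :=
  ⟨fun g hg n hn => by simp only [Pi.add_apply, h.1 g hg n hn, h'.1 g hg n hn],
    fun g hg n hn => by simp only [Pi.add_apply, smul_add, h.2 g hg n hn, h'.2 g hg n hn]⟩

lemma InflOn₁.neg {f : Γ → A} (h : InflOn₁ M N f) : InflOn₁ M N (-f) :=
  ⟨fun g hg n hn => by simp only [Pi.neg_apply, h.1 g hg n hn],
    fun g hg n hn => by simp only [Pi.neg_apply, smul_neg, h.2 g hg n hn]⟩

lemma InflOn₁.sub {f f' : Γ → A} (h : InflOn₁ M N f) (h' : InflOn₁ M N f') :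
    InflOn₁ M N (f - f') := by
  rw [sub_eq_add_neg]; exact h.add h'.neg

lemma InflOn₁.zsmul {f : Γ → A} (h : InflOn₁ M N f) (c : ℤ) : InflOn₁ M N (c • f) :=
  ⟨fun g hg n hn => by simp only [Pi.smul_apply, h.1 g hg n hn],
    fun g hg n hn => by simp only [Pi.smul_apply, smul_comm n c, h.2 g hg n hn]⟩

lemma InflOn₂.add {z z' : Γ × Γ → A} (h : InflOn₂ M N z) (h' : InflOn₂ M N z') :
    InflOn₂ M N (z + z') :=
  ⟨fun g hg k hk n hn n' hn' => by
      simp only [Pi.add_apply, h.1 g hg k hk n hn n' hn', h'.1 g hg k hk n hn n' hn'],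
    fun g hg k hk n hn => by
      simp only [Pi.add_apply, smul_add, h.2 g hg k hk n hn, h'.2 g hg k hk n hn]⟩

lemma InflOn₂.neg {z : Γ × Γ → A} (h : InflOn₂ M N z) : InflOn₂ M N (-z) :=
  ⟨fun g hg k hk n hn n' hn' => by simp only [Pi.neg_apply, h.1 g hg k hk n hn n' hn'],
    fun g hg k hk n hn => by simp only [Pi.neg_apply, smul_neg, h.2 g hg k hk n hn]⟩

lemma InflOn₂.sub {z z' : Γ × Γ → A} (h : InflOn₂ M N z) (h' : InflOn₂ M N z') :
    InflOn₂ M N (z - z') := by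
  rw [sub_eq_add_neg]; exact h.add h'.neg

lemma InflOn₂.zsmul {z : Γ × Γ → A} (h : InflOn₂ M N z) (c : ℤ) : InflOn₂ M N (c • z) :=
  ⟨fun g hg k hk n hn n' hn' => by simp only [Pi.smul_apply, h.1 g hg k hk n hn n' hn'],
    fun g hg k hk n hn => by simp only [Pi.smul_apply, smul_comm n c, h.2 g hg k hk n hn]⟩

lemma InflOn₂.congr {z z' : Γ × Γ → A} (h : InflOn₂ M N z) (hN : N ≤ M)
    (he : ∀ g ∈ M, ∀ k ∈ M, z' (g, k) = z (g, k)) : InflOn₂ M N z' :=
  ⟨fun g hg k hk n hn n' hn' => by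
      rw [he _ (M.mul_mem hg (hN hn)) _ (M.mul_mem hk (hN hn')), he _ hg _ hk]
      exact h.1 g hg k hk n hn n' hn',
    fun g hg k hk n hn => by rw [he _ hg _ hk]; exact h.2 g hg k hk n hn⟩

/-- Left `N`-invariance of an inflated 1-cochain. -/
lemma InflOn₁.left {f : Γ → A} (h : InflOn₁ M N f) (hN : NormalIn N M) {g n : Γ} (hg : g ∈ M)
    (hn : n ∈ N) : f (n * g) = f g := by
  have : n * g = g * (g⁻¹ * n * g) := by group
  rw [this]; exact h.1 g hg _ (hN.conj' hg hn)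

lemma InflOn₂.right₁ {z : Γ × Γ → A} (h : InflOn₂ M N z) {g k n : Γ} (hg : g ∈ M) (hk : k ∈ M)
    (hn : n ∈ N) : z (g * n, k) = z (g, k) := by
  simpa using h.1 g hg k hk n hn 1 N.one_mem

lemma InflOn₂.right₂ {z : Γ × Γ → A} (h : InflOn₂ M N z) {g k n : Γ} (hg : g ∈ M) (hk : k ∈ M)
    (hn : n ∈ N) : z (g, k * n) = z (g, k) := by
  simpa using h.1 g hg k hk 1 N.one_mem n hn

lemma InflOn₂.left₁ {z : Γ × Γ → A} (h : InflOn₂ M N z) (hN : NormalIn N M) {g k n : Γ}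
    (hg : g ∈ M) (hk : k ∈ M) (hn : n ∈ N) : z (n * g, k) = z (g, k) := by
  have : n * g = g * (g⁻¹ * n * g) := by group
  rw [this]; exact h.right₁ hg hk (hN.conj' hg hn)

lemma InflOn₂.left₂ {z : Γ × Γ → A} (h : InflOn₂ M N z) (hN : NormalIn N M) {g k n : Γ}
    (hg : g ∈ M) (hk : k ∈ M) (hn : n ∈ N) : z (g, n * k) = z (g, k) := by
  have : n * k = k * (k⁻¹ * n * k) := by group
  rw [this]; exact h.right₂ hg hk (hN.conj' hk hn)

/-- The coboundary of an inflated 1-cochain is inflated. -/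
lemma InflOn₁.d1 {f : Γ → A} (h : InflOn₁ M N f) (hN : NormalIn N M) : InflOn₂ M N (d1 f) := by
  refine ⟨fun g hg k hk n hn n' hn' => ?_, fun g hg k hk n hn => ?_⟩
  · have e1 : g * n * (k * n') = g * k * ((k⁻¹ * n * k) * n') := by group
    simp only [d1_apply]
    rw [e1, h.1 _ (M.mul_mem hg hk) _ (N.mul_mem (hN.conj' hk hn) hn'), h.1 g hg n hn,
      h.1 k hk n' hn', mul_smul, h.2 k hk n hn]
  · have e1 : n * g = g * (g⁻¹ * n * g) := by group
    simp only [d1_apply, smul_sub, smul_add]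
    rw [h.2 _ (M.mul_mem hg hk) n hn, h.2 g hg n hn, ← mul_smul, e1, mul_smul,
      h.2 k hk _ (hN.conj' hg hn)]

/-- **BR0 (a)**: a 2-cocycle of `M` that is right-`N`-invariant in both variables automatically
has `N`-fixed values. -/
lemma inflOn₂_of_rinv {z : Γ × Γ → A} (hN : NormalIn N M) (hz : CocOn₂ M z)
    (hr : ∀ g ∈ M, ∀ k ∈ M, ∀ n ∈ N, ∀ n' ∈ N, z (g * n, k * n') = z (g, k)) :
    InflOn₂ M N z := by
  refine ⟨hr, fun g hg k hk s hs => ?_⟩
  have hsM := hN.le hs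
  have e := hz s hsM g hg k hk
  have e1 : z (s * g, k) = z (g, k) := by
    have : s * g = g * (g⁻¹ * s * g) := by group
    rw [this]; simpa using hr g hg k hk _ (hN.conj' hg hs) 1 N.one_mem
  have e2 : z (s, g) = z (1, 1) := by
    have := hr 1 M.one_mem g hg s hs 1 N.one_mem
    simp only [one_mul, mul_one] at this
    rw [this, hz.map_one_fst hg]
  have e3 : z (s, g * k) = z (1, 1) := by
    have := hr 1 M.one_mem (g * k) (M.mul_mem hg hk) s hs 1 N.one_mem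
    simp only [one_mul, mul_one] at this
    rw [this, hz.map_one_fst (M.mul_mem hg hk)]
  rw [e1, e2, e3] at e
  linear_combination (norm := abel) - e

/-- **BR0 (b)**: if `d1 f` is right-`N`-invariant on `M` and `f` is right-`N`-invariant, then `f`
has `N`-fixed values. -/
lemma inflOn₁_of_rinv {f : Γ → A} (hN : NormalIn N M)
    (hf : ∀ g ∈ M, ∀ n ∈ N, f (g * n) = f g)
    (hr : ∀ g ∈ M, ∀ n ∈ N, d1 f (n, g) = d1 f (1, g)) :
    InflOn₁ M N f := by
  refine ⟨hf, fun g hg s hs => ?_⟩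
  have e := hr g hg s hs
  simp only [d1_apply, one_smul, one_mul] at e
  have e1 : f (s * g) = f g := by
    have : s * g = g * (g⁻¹ * s * g) := by group
    rw [this]; exact hf g hg _ (hN.conj' hg hs)
  have e2 : f s = f 1 := by simpa using hf 1 M.one_mem s hs
  rw [e1, e2] at e
  linear_combination (norm := abel) e

lemma CobOn₂.mono {z : Γ × Γ → A} (h : CobOn₂ M N z) (hN : N' ≤ N) : CobOn₂ M N' z := by
  obtain ⟨f, hf, he⟩ := h
  exact ⟨f, hf.mono hN, he⟩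

lemma CobOn₂.add {z z' : Γ × Γ → A} (h : CobOn₂ M N z) (h' : CobOn₂ M N z') :
    CobOn₂ M N (z + z') := by
  obtain ⟨f, hf, he⟩ := h
  obtain ⟨f', hf', he'⟩ := h'
  exact ⟨f + f', hf.add hf', fun g hg k hk => by
    rw [d1_add, Pi.add_apply, he g hg k hk, he' g hg k hk]⟩

lemma CobOn₂.neg {z : Γ × Γ → A} (h : CobOn₂ M N z) : CobOn₂ M N (-z) := by
  obtain ⟨f, hf, he⟩ := h
  exact ⟨-f, hf.neg, fun g hg k hk => by rw [d1_neg, Pi.neg_apply, he g hg k hk]⟩

lemma CobOn₂.sub {z z' : Γ × Γ → A} (h : CobOn₂ M N z) (h' : CobOn₂ M N z') :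
    CobOn₂ M N (z - z') := by
  rw [sub_eq_add_neg]; exact h.add h'.neg

lemma CobOn₂.zsmul {z : Γ × Γ → A} (h : CobOn₂ M N z) (c : ℤ) : CobOn₂ M N (c • z) := by
  obtain ⟨f, hf, he⟩ := h
  exact ⟨c • f, hf.zsmul c, fun g hg k hk => by rw [d1_zsmul, Pi.smul_apply, he g hg k hk]⟩

lemma cobOn₂_zero (M N : Subgroup Γ) : CobOn₂ M N (0 : Γ × Γ → A) :=
  ⟨0, ⟨fun _ _ _ _ => rfl, fun _ _ _ _ => by simp⟩, fun g _ h _ => by simp⟩

lemma CobOn₂.congr {z z' : Γ × Γ → A} (h : CobOn₂ M N z)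
    (he : ∀ g ∈ M, ∀ k ∈ M, z' (g, k) = z (g, k)) : CobOn₂ M N z' := by
  obtain ⟨f, hf, hz⟩ := h
  exact ⟨f, hf, fun g hg k hk => by rw [he g hg k hk, hz g hg k hk]⟩

lemma CobOn₂.mono_left {z : Γ × Γ → A} (h : CobOn₂ M N z) {M' : Subgroup Γ} (hM : M' ≤ M) :
    CobOn₂ M' N z := by
  obtain ⟨f, hf, hz⟩ := h
  exact ⟨f, hf.mono_left hM, fun g hg k hk => hz g (hM hg) k (hM hk)⟩

lemma H90On.mono {N N₀ N₁ : Subgroup Γ} (h : H90On A N N₁) (h10 : N₁ ≤ N₀) : H90On A N N₀ :=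
  fun u hu hr => h u hu (fun n hn s hs => hr n hn s (h10 hs))

/-- A transversal for the left cosets of `N`, normalised at the trivial coset. -/
lemma exists_transversal (N : Subgroup Γ) :
    ∃ τ : Γ → Γ, (∀ g, (τ g)⁻¹ * g ∈ N) ∧ (∀ g, ∀ n ∈ N, τ (g * n) = τ g) ∧
      (∀ n ∈ N, τ n = 1) := by
  classical
  refine ⟨fun g => if g ∈ N then 1 else (QuotientGroup.mk g : Γ ⧸ N).out, fun g => ?_,
    fun g n hn => ?_, fun n hn => ?_⟩
  · by_cases hg : g ∈ N
    · simp [hg]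
    · simp only [hg, if_false]
      obtain ⟨h, hh⟩ := QuotientGroup.mk_out_eq_mul N g
      rw [hh]
      simp
  · have hiff : g * n ∈ N ↔ g ∈ N := by
      constructor
      · intro h; simpa using N.mul_mem h (N.inv_mem hn)
      · intro h; exact N.mul_mem h hn
    have hq : (QuotientGroup.mk (g * n) : Γ ⧸ N) = QuotientGroup.mk g :=
      QuotientGroup.mk_mul_of_mem g hn
    simp only [hiff, hq]
  · simp [hn]

end basic

end Fermat.Agent.PT.Br
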