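/-
PT / BR layer: inflation is injective in degree 2 (BR1) and the inflation–restriction sequence is
exact at the middle in degree 2 (BR2), for a subgroup `N` normal in `M` with "Hilbert 90"
(`H90On`).  Explicit cochain proofs, no dimension shifting.
-/
import Fermat.Agent.PT.Br.Basic

set_option autoImplicit false

namespace Fermat.Agent.PT.Br

variable {Γ A : Type*} [Group Γ] [AddCommGroup A] [DistribMulAction Γ A]
variable {M N N₀ : Subgroup Γ}

/-- **BR1 (inflation is injective in degree 2).**  If `z` is inflated from `M/N` and is the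
coboundary on `M` of a cochain inflated from `M/N₀` (`N₀ ≤ N`), and Hilbert 90 holds for `N` at
level `N₀`, then `z` is the coboundary of a cochain inflated from `M/N`. -/
theorem cobOn₂_of_cobOn₂_of_inflOn₂ (hN : NormalIn N M)
    (hH : H90On A N N₀) {z : Γ × Γ → A} (hz : InflOn₂ M N z) (hc : CobOn₂ M N₀ z) :
    CobOn₂ M N z := by
  obtain ⟨f, hf, he⟩ := hc
  have hNM := hN.le
  have h11 : z (1, 1) = f 1 := by
    rw [he 1 M.one_mem 1 M.one_mem]; simp
  have hfix : ∀ n ∈ N, n • f 1 = f 1 := fun n hn => by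
    rw [← h11]; exact hz.2 1 M.one_mem 1 M.one_mem n hn
  -- `u n = f n - f 1` is a 1-cocycle on `N`
  have hu : CocOn₁ N (fun n => f n - f 1) := by
    intro n hn n' hn'
    have e1 := he n (hNM hn) n' (hNM hn')
    have e2 : z (n, n') = z (1, 1) := by
      simpa using hz.1 1 M.one_mem 1 M.one_mem n hn n' hn'
    rw [e2, h11] at e1
    simp only [d1_apply] at e1
    simp only [smul_sub, hfix n hn]
    linear_combination (norm := abel) e1
  obtain ⟨a, ha⟩ := hH _ hu (fun n hn s hs => by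
    simp only [hf.1 n (hNM hn) s hs])
  set f' : Γ → A := f - d0 a with hf'def
  have he' : ∀ g ∈ M, ∀ k ∈ M, z (g, k) = d1 f' (g, k) := fun g hg k hk => by
    rw [hf'def, d1_sub, d1_d0, sub_zero]; exact he g hg k hk
  have hf'N : ∀ n ∈ N, f' n = f 1 := fun n hn => by
    have := ha n hn
    simp only [hf'def, Pi.sub_apply, d0_apply]
    linear_combination (norm := abel) this
  have hf'1 : f' 1 = f 1 := hf'N 1 N.one_mem
  have hr : ∀ g ∈ M, ∀ n ∈ N, f' (g * n) = f' g := by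
    intro g hg n hn
    have e1 := he' g hg n (hNM hn)
    have e2 : z (g, n) = z (g, 1) := by simpa using hz.right₂ hg M.one_mem hn
    have e3 := he' g hg 1 M.one_mem
    rw [e2, e3] at e1
    simp only [d1_apply, mul_one, hf'N n hn, hf'1] at e1
    linear_combination (norm := abel) e1
  refine ⟨f', ⟨hr, fun g hg n hn => ?_⟩, he'⟩
  have e1 := he' n (hNM hn) g hg
  have e2 : z (n, g) = z (1, g) := by simpa using hz.right₁ M.one_mem hg hn
  have e3 := he' 1 M.one_mem g hg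
  rw [e2, e3] at e1
  have e4 : f' (n * g) = f' g := by
    have : n * g = g * (g⁻¹ * n * g) := by group
    rw [this]; exact hr g hg _ (hN.conj' hg hn)
  simp only [d1_apply, one_smul, one_mul, e4, hf'N n hn, hf'1] at e1
  linear_combination (norm := abel) - e1

/-- A cocycle on `M` vanishing on `N × M` and `M × N` is inflated from `M/N`. -/
lemma inflOn₂_of_vanish (hN : NormalIn N M) {z : Γ × Γ → A} (hz : CocOn₂ M z)
    (hl : ∀ n ∈ N, ∀ g ∈ M, z (n, g) = 0) (hr : ∀ g ∈ M, ∀ n ∈ N, z (g, n) = 0) :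
    InflOn₂ M N z := by
  have hNM := hN.le
  have r2 : ∀ g ∈ M, ∀ k ∈ M, ∀ n ∈ N, z (g, k * n) = z (g, k) := by
    intro g hg k hk n hn
    have e := hz g hg k hk n (hNM hn)
    rw [hr _ (M.mul_mem hg hk) n hn, hr k hk n hn, smul_zero] at e
    linear_combination (norm := abel) - e
  have l2 : ∀ g ∈ M, ∀ k ∈ M, ∀ n ∈ N, z (g, n * k) = z (g, k) := by
    intro g hg k hk n hn
    have : n * k = k * (k⁻¹ * n * k) := by group
    rw [this]; exact r2 g hg k hk _ (hN.conj' hk hn)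
  have r1 : ∀ g ∈ M, ∀ k ∈ M, ∀ n ∈ N, z (g * n, k) = z (g, k) := by
    intro g hg k hk n hn
    have e := hz g hg n (hNM hn) k hk
    rw [hr g hg n hn, hl n hn k hk, smul_zero, l2 g hg k hk n hn] at e
    linear_combination (norm := abel) e
  refine ⟨fun g hg k hk n hn n' hn' => ?_, fun g hg k hk n hn => ?_⟩
  · rw [r1 g hg _ (M.mul_mem hk (hNM hn')) n hn, r2 g hg k hk n' hn']
  · have e := hz n (hNM hn) g hg k hk
    have e1 : z (n * g, k) = z (g, k) := by
      have : n * g = g * (g⁻¹ * n * g) := by group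
      rw [this]; exact r1 g hg k hk _ (hN.conj' hg hn)
    rw [hl n hn g hg, hl n hn _ (M.mul_mem hg hk), e1] at e
    linear_combination (norm := abel) - e

/-- Step 2 of BR2: kill `z (g, n)` for `n ∈ N` using a transversal. -/
lemma exists_d1_vanish_right (hN : NormalIn N M) (h0N : N₀ ≤ N)
    {z : Γ × Γ → A} (hz : CocOn₂ M z) (hi : InflOn₂ M N₀ z)
    (hv : ∀ n ∈ N, ∀ n' ∈ N, z (n, n') = 0) :
    ∃ h : Γ → A, InflOn₁ M N₀ h ∧ ∀ g ∈ M, ∀ m ∈ N, (z + d1 h) (g, m) = 0 := by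
  have hNM := hN.le
  obtain ⟨τ, τ1, τ2, τ3⟩ := exists_transversal N
  have τM : ∀ g ∈ M, τ g ∈ M := fun g hg => by
    have : τ g = g * ((τ g)⁻¹ * g)⁻¹ := by group
    rw [this]; exact M.mul_mem hg (M.inv_mem (hNM (τ1 g)))
  have hz11 : z (1, 1) = 0 := hv 1 N.one_mem 1 N.one_mem
  refine ⟨fun g => z (τ g, (τ g)⁻¹ * g), ⟨fun g hg s hs => ?_, fun g hg s hs => ?_⟩,
    fun g hg m hm => ?_⟩
  · simp only [τ2 g s (h0N hs)]
    rw [← mul_assoc]
    exact hi.right₂ (τM g hg) (hNM (τ1 g)) hs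
  · exact hi.2 _ (τM g hg) _ (hNM (τ1 g)) s hs
  · simp only [Pi.add_apply, d1_apply]
    have e1 : z (τ m, (τ m)⁻¹ * m) = 0 := by
      rw [τ3 m hm]; simp only [inv_one, one_mul]
      rw [hz.map_one_fst (hNM hm), hz11]
    have e2 : τ (g * m) = τ g := τ2 g m hm
    have e3 := hz (τ g) (τM g hg) ((τ g)⁻¹ * g) (hNM (τ1 g)) m (hNM hm)
    rw [hv _ (τ1 g) m hm, smul_zero, mul_inv_cancel_left] at e3
    rw [e1, e2, smul_zero]
    have e4 : (τ g)⁻¹ * (g * m) = (τ g)⁻¹ * g * m := by group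
    rw [e4]
    linear_combination (norm := abel) e3

/-- Step 3 of BR2: kill `z (n, g)` for `n ∈ N` using Hilbert 90 for `N`. -/
lemma exists_d1_vanish_left (hN : NormalIn N M) (h0N : N₀ ≤ N)
    (hH : H90On A N N₀) {z : Γ × Γ → A} (hz : CocOn₂ M z) (hi : InflOn₂ M N₀ z)
    (hv : ∀ g ∈ M, ∀ m ∈ N, z (g, m) = 0) :
    ∃ h : Γ → A, InflOn₁ M N₀ h ∧ (∀ n ∈ N, ∀ g ∈ M, (z - d1 h) (n, g) = 0) ∧
      (∀ g ∈ M, ∀ m ∈ N, (z - d1 h) (g, m) = 0) := by
  have hNM := hN.le
  obtain ⟨τ, τ1, τ2, τ3⟩ := exists_transversal N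
  have τM : ∀ g ∈ M, τ g ∈ M := fun g hg => by
    have : τ g = g * ((τ g)⁻¹ * g)⁻¹ := by group
    rw [this]; exact M.mul_mem hg (M.inv_mem (hNM (τ1 g)))
  have ττ : ∀ g, τ (τ g) = τ g := fun g => by
    have : τ g = g * ((τ g)⁻¹ * g)⁻¹ := by group
    conv_lhs => rw [this]
    exact τ2 g _ (N.inv_mem (τ1 g))
  have hz11 : z (1, 1) = 0 := hv 1 M.one_mem 1 N.one_mem
  -- (b) `z (n, g * m) = z (n, g)`
  have hb : ∀ n ∈ N, ∀ g ∈ M, ∀ m ∈ N, z (n, g * m) = z (n, g) := by
    intro n hn g hg m hm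
    have e := hz n (hNM hn) g hg m (hNM hm)
    rw [hv _ (M.mul_mem (hNM hn) hg) m hm, hv g hg m hm, smul_zero] at e
    linear_combination (norm := abel) - e
  -- (a) cocycle in the first variable
  have ha : ∀ g ∈ M, CocOn₁ N (fun n => z (n, g)) := by
    intro g hg n hn n' hn'
    have e := hz n (hNM hn) n' (hNM hn') g hg
    have e1 : z (n, n' * g) = z (n, g) := by
      have : n' * g = g * (g⁻¹ * n' * g) := by group
      rw [this]; exact hb n hn g hg _ (hN.conj' hg hn')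
    rw [hv n (hNM hn) n' hn', e1] at e
    linear_combination (norm := abel) e
  have hex : ∀ g, ∃ a : A, g ∈ M → ∀ n ∈ N, z (n, τ g) = n • a - a := by
    intro g
    by_cases hg : g ∈ M
    · obtain ⟨a, ha'⟩ := hH _ (ha (τ g) (τM g hg)) (fun n hn s hs =>
        hi.right₁ (hNM hn) (τM g hg) hs)
      exact ⟨a, fun _ => ha'⟩
    · exact ⟨0, fun h => absurd h hg⟩
  choose a ha' using hex
  have hτ1 : τ 1 = 1 := τ3 1 N.one_mem
  have ha1 : ∀ n ∈ N, n • a 1 - a 1 = 0 := fun n hn => by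
    have := ha' 1 M.one_mem n hn
    rw [hτ1, hz.map_one_snd (hNM hn), hz11, smul_zero] at this
    exact this.symm
  -- the normalised choice
  have hprop : ∀ g ∈ M, ∀ n ∈ N, z (n, τ g) = n • (a (τ g) - a 1) - (a (τ g) - a 1) := by
    intro g hg n hn
    have e := ha' (τ g) (τM g hg) n hn
    rw [ττ] at e
    have e1 := ha1 n hn
    simp only [smul_sub]
    linear_combination (norm := abel) e + e1
  have hh2N : ∀ n ∈ N, a (τ n) - a 1 = 0 := fun n hn => by rw [τ3 n hn, sub_self]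
  have hinfl : InflOn₁ M N₀ (fun g => a (τ g) - a 1) := by
    refine ⟨fun g hg s hs => by simp only [τ2 g s (h0N hs)], fun g hg s hs => ?_⟩
    have e := hprop g hg s (h0N hs)
    have e1 : z (s, τ g) = 0 := by
      have := hi.right₁ M.one_mem (τM g hg) hs
      rw [one_mul] at this
      rw [this, hz.map_one_fst (τM g hg), hz11]
    rw [e1] at e
    simp only [smul_sub] at e ⊢
    linear_combination (norm := abel) - e
  refine ⟨fun g => a (τ g) - a 1, hinfl, fun n hn g hg => ?_, fun g hg m hm => ?_⟩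
  · simp only [Pi.sub_apply, d1_apply]
    have e1 : τ (n * g) = τ g := by
      have : n * g = g * (g⁻¹ * n * g) := by group
      rw [this]; exact τ2 g _ (hN.conj' hg hn)
    have e2 : z (n, g) = z (n, τ g) := by
      have : g = τ g * ((τ g)⁻¹ * g) := by group
      conv_lhs => rw [this]
      exact hb n hn (τ g) (τM g hg) _ (τ1 g)
    rw [e1, hh2N n hn, e2, hprop g hg n hn]
    abel
  · simp only [Pi.sub_apply, d1_apply]
    rw [hh2N m hm, τ2 g m hm, hv g hg m hm, smul_zero]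
    abel

/-- **BR2 (inflation–restriction, exactness at the middle in degree 2).**  Let `N₀ ≤ N` be normal
in `M`, with Hilbert 90 for `N` at level `N₀`.  A 2-cocycle `z` of `M` inflated from `M/N₀` whose
restriction to `N` is a coboundary (at level `N₀`) is cohomologous, through a cochain inflated from
`M/N₀`, to a cocycle inflated from `M/N`. -/
theorem exists_inflOn₂_sub_d1 (hN : NormalIn N M) (hN₀ : NormalIn N₀ M) (h0N : N₀ ≤ N)
    (hH : H90On A N N₀) {z : Γ × Γ → A} (hz : CocOn₂ M z) (hi : InflOn₂ M N₀ z)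
    (hres : CobOn₂ N N₀ z) :
    ∃ h : Γ → A, InflOn₁ M N₀ h ∧ InflOn₂ M N (z - d1 h) ∧ CocOn₂ M (z - d1 h) := by
  classical
  have hNM := hN.le
  obtain ⟨f₀, hf₀, he₀⟩ := hres
  -- extend `f₀` by zero outside `N`
  set f : Γ → A := fun g => if g ∈ N then f₀ g else 0 with hfdef
  have hfN : ∀ n ∈ N, f n = f₀ n := fun n hn => by simp [hfdef, hn]
  have hf : InflOn₁ M N₀ f := by
    refine ⟨fun g hg s hs => ?_, fun g hg s hs => ?_⟩
    · have hiff : g * s ∈ N ↔ g ∈ N := by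
        constructor
        · intro h; simpa using N.mul_mem h (N.inv_mem (h0N hs))
        · intro h; exact N.mul_mem h (h0N hs)
      by_cases hgN : g ∈ N
      · simp only [hfdef, hiff, hgN, if_true]; exact hf₀.1 g hgN s hs
      · simp only [hfdef, hiff, hgN, if_false]
    · by_cases hgN : g ∈ N
      · simp only [hfdef, hgN, if_true]; exact hf₀.2 g hgN s hs
      · simp only [hfdef, hgN, if_false, smul_zero]
  have hz1 : CocOn₂ M (z - d1 f) := hz.sub (cocOn₂_d1 M f)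
  have hi1 : InflOn₂ M N₀ (z - d1 f) := hi.sub (hf.d1 hN₀)
  have hv1 : ∀ n ∈ N, ∀ n' ∈ N, (z - d1 f) (n, n') = 0 := by
    intro n hn n' hn'
    simp only [Pi.sub_apply, d1_apply, hfN n hn, hfN n' hn', hfN _ (N.mul_mem hn hn')]
    rw [he₀ n hn n' hn']; simp
  obtain ⟨h₁, hh₁, hv2⟩ := exists_d1_vanish_right hN h0N hz1 hi1 hv1
  have hz2 : CocOn₂ M (z - d1 f + d1 h₁) := hz1.add (cocOn₂_d1 M h₁)
  have hi2 : InflOn₂ M N₀ (z - d1 f + d1 h₁) := hi1.add (hh₁.d1 hN₀)
  obtain ⟨h₂, hh₂, hv3, hv4⟩ := exists_d1_vanish_left hN h0N hH hz2 hi2 hv2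
  have hz3 : CocOn₂ M (z - d1 f + d1 h₁ - d1 h₂) := hz2.sub (cocOn₂_d1 M h₂)
  have hfin := inflOn₂_of_vanish hN hz3 hv3 hv4
  have heq : z - d1 (f - h₁ + h₂) = z - d1 f + d1 h₁ - d1 h₂ := by
    funext ⟨g, k⟩
    simp only [Pi.sub_apply, Pi.add_apply, d1_add, d1_sub]
    abel
  exact ⟨f - h₁ + h₂, (hf.sub hh₁).add hh₂, heq ▸ hfin, heq ▸ hz3⟩

end Fermat.Agent.PT.Br
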