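/-
PT / BR layer: cyclic quotients (BR3).  `M/N` cyclic of order `m` generated by `σ`:
* the "carry" cocycle `carryCoc m e a` attached to an `M`-fixed element `a`;
* it is a coboundary (inflated from `M/N`) iff `a` is a norm from `A^N`;
* every 2-cocycle of `M` inflated from `M/N` is cohomologous to a carry cocycle.
-/
import Fermat.Agent.PT.Br.InfRes

set_option autoImplicit false

namespace Fermat.Agent.PT.Br

open Finset

variable {Γ A : Type*} [Group Γ] [AddCommGroup A] [DistribMulAction Γ A]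

/-- `M/N` is cyclic of order `m`, generated by the class of `σ`; `e g ∈ [0, m)` is the exponent
of `g ∈ M`. -/
structure CycData (M N : Subgroup Γ) (m : ℕ) (σ : Γ) (e : Γ → ℕ) : Prop where
  normal : NormalIn N M
  one_lt : 1 < m
  σ_mem : σ ∈ M
  e_lt : ∀ g ∈ M, e g < m
  e_spec : ∀ g ∈ M, (σ ^ e g)⁻¹ * g ∈ N
  e_mul : ∀ g ∈ M, ∀ h ∈ M, e (g * h) = (e g + e h) % m
  e_σ : e σ = 1
  e_N : ∀ n ∈ N, e n = 0

/-- The carry of the addition of exponents. -/
def carry (m : ℕ) (e : Γ → ℕ) (g h : Γ) : ℕ := (e g + e h) / m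

/-- The carry ("cyclic algebra") cocycle attached to `a`. -/
def carryCoc (m : ℕ) (e : Γ → ℕ) (a : A) : Γ × Γ → A := fun p => carry m e p.1 p.2 • a

/-- Partial norms `∑_{i<k} σ^i • b`; the norm is `partialNm σ m b`. -/
def partialNm (σ : Γ) (k : ℕ) (b : A) : A := ∑ i ∈ range k, σ ^ i • b

@[simp] lemma carryCoc_apply (m : ℕ) (e : Γ → ℕ) (a : A) (g h : Γ) :
    carryCoc m e a (g, h) = carry m e g h • a := rfl

lemma carryCoc_add (m : ℕ) (e : Γ → ℕ) (a b : A) :
    carryCoc m e (a + b) = carryCoc m e a + carryCoc m e b := by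
  funext ⟨g, h⟩; simp [carryCoc, smul_add]

lemma carryCoc_zsmul (m : ℕ) (e : Γ → ℕ) (c : ℤ) (a : A) :
    carryCoc m e (c • a) = c • carryCoc m e a := by
  funext ⟨g, h⟩
  simp only [carryCoc_apply, Pi.smul_apply]
  rw [smul_comm]

lemma carryCoc_neg (m : ℕ) (e : Γ → ℕ) (a : A) :
    carryCoc m e (-a) = - carryCoc m e a := by
  funext ⟨g, h⟩; simp [carryCoc]

lemma carryCoc_sub (m : ℕ) (e : Γ → ℕ) (a b : A) :
    carryCoc m e (a - b) = carryCoc m e a - carryCoc m e b := by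
  funext ⟨g, h⟩; simp [carryCoc, smul_sub]

lemma partialNm_add (σ : Γ) (a b : ℕ) (x : A) :
    partialNm σ (a + b) x = partialNm σ a x + σ ^ a • partialNm σ b x := by
  simp only [partialNm, sum_range_add, smul_sum, pow_add, mul_smul]

lemma partialNm_zero (σ : Γ) (x : A) : partialNm σ 0 x = 0 := by simp [partialNm]

lemma partialNm_add_elt (σ : Γ) (k : ℕ) (x y : A) :
    partialNm σ k (x + y) = partialNm σ k x + partialNm σ k y := by
  simp only [partialNm, smul_add, sum_add_distrib]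

lemma partialNm_neg (σ : Γ) (k : ℕ) (x : A) : partialNm σ k (-x) = - partialNm σ k x := by
  simp only [partialNm, smul_neg, sum_neg_distrib]

lemma partialNm_zsmul (σ : Γ) (k : ℕ) (c : ℤ) (x : A) :
    partialNm σ k (c • x) = c • partialNm σ k x := by
  simp only [partialNm, smul_sum, smul_comm _ c]

namespace CycData

variable {M N : Subgroup Γ} {m : ℕ} {σ : Γ} {e : Γ → ℕ}

lemma pow_mem (h : CycData M N m σ e) (i : ℕ) : σ ^ i ∈ M := M.pow_mem h.σ_mem i

lemma e_one (h : CycData M N m σ e) : e 1 = 0 := h.e_N 1 N.one_mem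

lemma e_pow (h : CycData M N m σ e) (i : ℕ) : e (σ ^ i) = i % m := by
  induction i with
  | zero => simp [h.e_one]
  | succ i ih =>
    rw [pow_succ, h.e_mul _ (h.pow_mem i) _ h.σ_mem, ih, h.e_σ]
    simp [Nat.add_mod]

lemma pow_m_mem (h : CycData M N m σ e) : σ ^ m ∈ N := by
  have := h.e_spec _ (h.pow_mem m)
  rw [h.e_pow, Nat.mod_self] at this
  simpa using this

lemma e_mul_right (h : CycData M N m σ e) {g n : Γ} (hg : g ∈ M) (hn : n ∈ N) :
    e (g * n) = e g := by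
  rw [h.e_mul g hg n (h.normal.le hn), h.e_N n hn, add_zero, Nat.mod_eq_of_lt (h.e_lt g hg)]

lemma e_add (h : CycData M N m σ e) {g k : Γ} (hg : g ∈ M) (hk : k ∈ M) :
    e g + e k = e (g * k) + m * carry m e g k := by
  rw [h.e_mul g hg k hk, carry]; exact (Nat.mod_add_div _ _).symm

lemma carry_assoc (h : CycData M N m σ e) {g k j : Γ} (hg : g ∈ M) (hk : k ∈ M) (hj : j ∈ M) :
    carry m e (g * k) j + carry m e g k = carry m e k j + carry m e g (k * j) := by
  have e1 := h.e_add hg hk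
  have e2 := h.e_add (M.mul_mem hg hk) hj
  have e3 := h.e_add hk hj
  have e4 := h.e_add hg (M.mul_mem hk hj)
  rw [mul_assoc] at e2
  have hm : 0 < m := lt_trans Nat.zero_lt_one h.one_lt
  apply Nat.eq_of_mul_eq_mul_left hm
  rw [mul_add, mul_add]
  omega

lemma carry_mul_right (h : CycData M N m σ e) {g k n n' : Γ} (hg : g ∈ M) (hk : k ∈ M)
    (hn : n ∈ N) (hn' : n' ∈ N) : carry m e (g * n) (k * n') = carry m e g k := by
  rw [carry, carry, h.e_mul_right hg hn, h.e_mul_right hk hn']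

/-- `g ∈ M` acts on `N`-fixed elements as `σ ^ e g`. -/
lemma smul_eq (h : CycData M N m σ e) {x : A} (hx : ∀ n ∈ N, n • x = x) {g : Γ} (hg : g ∈ M) :
    g • x = σ ^ e g • x := by
  have : g = σ ^ e g * ((σ ^ e g)⁻¹ * g) := by group
  conv_lhs => rw [this, mul_smul, hx _ (h.e_spec g hg)]

lemma fix_smul (h : CycData M N m σ e) {x : A} (hx : ∀ n ∈ N, n • x = x) {g : Γ} (hg : g ∈ M) :
    ∀ n ∈ N, n • g • x = g • x := by
  intro n hn
  have : n * g = g * (g⁻¹ * n * g) := by group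
  rw [← mul_smul, this, mul_smul, hx _ (h.normal.conj' hg hn)]

lemma fix_partialNm (h : CycData M N m σ e) {x : A} (hx : ∀ n ∈ N, n • x = x) (k : ℕ) :
    ∀ n ∈ N, n • partialNm σ k x = partialNm σ k x := by
  intro n hn
  simp only [partialNm, smul_sum]
  exact sum_congr rfl fun i _ => h.fix_smul hx (h.pow_mem i) n hn

lemma pow_m_smul (h : CycData M N m σ e) {x : A} (hx : ∀ n ∈ N, n • x = x) : σ ^ m • x = x :=
  hx _ h.pow_m_mem

lemma smul_Nm (h : CycData M N m σ e) {x : A} (hx : ∀ n ∈ N, n • x = x) :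
    σ • partialNm σ m x = partialNm σ m x := by
  have e1 : partialNm σ (1 + m) x = partialNm σ 1 x + σ ^ 1 • partialNm σ m x :=
    partialNm_add σ 1 m x
  have e2 : partialNm σ (m + 1) x = partialNm σ m x + σ ^ m • partialNm σ 1 x :=
    partialNm_add σ m 1 x
  have e3 : partialNm σ 1 x = x := by simp [partialNm]
  rw [add_comm 1 m, e2, e3, h.pow_m_smul hx, pow_one] at e1
  linear_combination (norm := abel) - e1

lemma pow_smul_Nm (h : CycData M N m σ e) {x : A} (hx : ∀ n ∈ N, n • x = x) (i : ℕ) :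
    σ ^ i • partialNm σ m x = partialNm σ m x := by
  induction i with
  | zero => simp
  | succ i ih => rw [pow_succ, mul_smul, h.smul_Nm hx, ih]

/-- The norm of an `N`-fixed element is `M`-fixed. -/
lemma fix_Nm (h : CycData M N m σ e) {x : A} (hx : ∀ n ∈ N, n • x = x) :
    ∀ g ∈ M, g • partialNm σ m x = partialNm σ m x := by
  intro g hg
  rw [h.smul_eq (h.fix_partialNm hx m) hg, h.pow_smul_Nm hx]

lemma partialNm_add_mul (h : CycData M N m σ e) {x : A} (hx : ∀ n ∈ N, n • x = x) (K c : ℕ) :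
    partialNm σ (K + m * c) x = partialNm σ K x + c • partialNm σ m x := by
  induction c with
  | zero => simp
  | succ c ih =>
    have : K + m * (c + 1) = (K + m * c) + m := by ring
    rw [this, partialNm_add, ih, h.pow_smul_Nm hx, succ_nsmul]
    abel

/-- **(C1)** the carry cocycle of an `M`-fixed element is a 2-cocycle on `M`. -/
lemma cocOn₂_carryCoc (h : CycData M N m σ e) {a : A} (ha : ∀ g ∈ M, g • a = a) :
    CocOn₂ M (carryCoc m e a) := by
  intro g hg k hk j hj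
  simp only [carryCoc_apply]
  rw [smul_comm g, ha g hg, ← add_smul, ← add_smul, h.carry_assoc hg hk hj]

lemma inflOn₂_carryCoc (h : CycData M N m σ e) {a : A} (ha : ∀ g ∈ M, g • a = a) :
    InflOn₂ M N (carryCoc m e a) := by
  refine ⟨fun g hg k hk n hn n' hn' => ?_, fun g hg k hk n hn => ?_⟩
  · simp only [carryCoc_apply, h.carry_mul_right hg hk hn hn']
  · simp only [carryCoc_apply]
    rw [smul_comm n, ha n (h.normal.le hn)]

lemma inflOn₁_partialNm (h : CycData M N m σ e) {b : A} (hb : ∀ n ∈ N, n • b = b) :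
    InflOn₁ M N (fun g => partialNm σ (e g) b) :=
  ⟨fun g hg n hn => by simp only [h.e_mul_right hg hn],
    fun g _ n hn => h.fix_partialNm hb _ n hn⟩

/-- **(C2)** the carry cocycle of a norm is a coboundary. -/
lemma carryCoc_Nm_eq_d1 (h : CycData M N m σ e) {b : A} (hb : ∀ n ∈ N, n • b = b) :
    ∀ g ∈ M, ∀ k ∈ M, carryCoc m e (partialNm σ m b) (g, k) =
      d1 (fun g => partialNm σ (e g) b) (g, k) := by
  intro g hg k hk
  simp only [carryCoc_apply, d1_apply]
  rw [h.smul_eq (h.fix_partialNm hb _) hg]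
  have e1 := partialNm_add σ (e g) (e k) b
  rw [h.e_add hg hk, h.partialNm_add_mul hb] at e1
  linear_combination (norm := abel) e1

lemma cobOn₂_carryCoc_Nm (h : CycData M N m σ e) {b : A} (hb : ∀ n ∈ N, n • b = b) :
    CobOn₂ M N (carryCoc m e (partialNm σ m b)) :=
  ⟨_, h.inflOn₁_partialNm hb, h.carryCoc_Nm_eq_d1 hb⟩

/-- **(C3)** if the carry cocycle of `a` is the coboundary of a cochain inflated from `M/N`,
then `a` is a norm. -/
lemma eq_Nm_of_carryCoc_eq_d1 (h : CycData M N m σ e) {a : A} {f : Γ → A}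
    (hf : InflOn₁ M N f) (he : ∀ g ∈ M, ∀ k ∈ M, carryCoc m e a (g, k) = d1 f (g, k)) :
    a = partialNm σ m (f σ) ∧ ∀ n ∈ N, n • f σ = f σ := by
  refine ⟨?_, hf.2 σ h.σ_mem⟩
  have hsum : ∑ i ∈ range m, carryCoc m e a (σ ^ i, σ) = ∑ i ∈ range m, d1 f (σ ^ i, σ) :=
    sum_congr rfl fun i _ => he _ (h.pow_mem i) _ h.σ_mem
  have hL : ∑ i ∈ range m, carryCoc m e a (σ ^ i, σ) = a := by
    obtain ⟨m', rfl⟩ : ∃ m', m = m' + 1 := ⟨m - 1, by have := h.one_lt; omega⟩
    rw [sum_range_succ]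
    have h0 : ∑ i ∈ range m', carryCoc (m' + 1) e a (σ ^ i, σ) = 0 := by
      apply sum_eq_zero
      intro i hi
      rw [mem_range] at hi
      simp only [carryCoc_apply, carry, h.e_pow, h.e_σ]
      rw [Nat.mod_eq_of_lt (by omega), Nat.div_eq_of_lt (by omega), zero_smul]
    rw [h0, zero_add]
    simp only [carryCoc_apply, carry, h.e_pow, h.e_σ]
    rw [Nat.mod_eq_of_lt (by omega), Nat.div_self (by omega), one_smul]
  have hR : ∑ i ∈ range m, d1 f (σ ^ i, σ) = partialNm σ m (f σ) := by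
    simp only [d1_apply]
    have htel : ∑ i ∈ range m, (f (σ ^ (i + 1)) - f (σ ^ i)) = f (σ ^ m) - f (σ ^ 0) :=
      sum_range_sub (fun i => f (σ ^ i)) m
    have hfm : f (σ ^ m) = f 1 := by
      simpa using hf.1 1 M.one_mem _ h.pow_m_mem
    rw [hfm, pow_zero, sub_self] at htel
    have : ∑ i ∈ range m, (σ ^ i • f σ - f (σ ^ i * σ) + f (σ ^ i)) =
        ∑ i ∈ range m, σ ^ i • f σ - ∑ i ∈ range m, (f (σ ^ (i + 1)) - f (σ ^ i)) := by
      rw [← sum_sub_distrib]
      refine sum_congr rfl fun i _ => ?_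
      rw [pow_succ]; abel
    rw [this, htel, sub_zero, partialNm]
  rw [← hL, hsum, hR]

/-- Sum of a periodic function over a shifted period. -/
lemma sum_range_shift_periodic {B : Type*} [AddCommGroup B] (φ : ℕ → B) (m : ℕ)
    (hφ : ∀ l, φ (l + m) = φ l) (k : ℕ) :
    ∑ l ∈ range m, φ (k + l) = ∑ l ∈ range m, φ l := by
  induction k with
  | zero => simp
  | succ k ih =>
    have e1 : ∑ l ∈ range (m + 1), φ (k + l) = ∑ l ∈ range m, φ (k + l) + φ (k + m) :=
      sum_range_succ _ _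
    have e2 : ∑ l ∈ range (m + 1), φ (k + l) = ∑ l ∈ range m, φ (k + (l + 1)) + φ (k + 0) :=
      sum_range_succ' _ _
    have e3 : ∑ l ∈ range m, φ (k + 1 + l) = ∑ l ∈ range m, φ (k + (l + 1)) :=
      sum_congr rfl fun l _ => by congr 1; ring
    rw [e3, ← ih]
    rw [e1, hφ k, add_zero] at e2
    linear_combination (norm := abel) - e2

/-- **(C4)** every 2-cocycle of `M` inflated from the cyclic quotient `M/N` is cohomologous to a
carry cocycle. -/
lemma exists_carryCoc_cohomologous (h : CycData M N m σ e) {z : Γ × Γ → A} (hz : CocOn₂ M z)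
    (hi : InflOn₂ M N z) :
    ∃ a : A, (∀ g ∈ M, g • a = a) ∧ CobOn₂ M N (z - carryCoc m e a) := by
  have hNM := h.normal.le
  set Fp : ℕ → A := fun k => ∑ l ∈ range k, z (σ ^ l, σ) with hFp
  have hFp_succ : ∀ k, Fp (k + 1) = Fp k + z (σ ^ k, σ) := fun k => sum_range_succ _ _
  have hFp0 : Fp 0 = 0 := by simp [hFp]
  -- (★)
  have hstar : ∀ i j, Fp (i + j) - Fp i + z (σ ^ i, 1) = σ ^ i • Fp j + z (σ ^ i, σ ^ j) := by
    intro i j
    induction j with
    | zero => simp [hFp0]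
    | succ j ih =>
      have ec := hz _ (h.pow_mem i) _ (h.pow_mem j) _ h.σ_mem
      rw [← pow_add, ← pow_succ] at ec
      rw [← add_assoc, hFp_succ, hFp_succ, smul_add]
      linear_combination (norm := abel) ih + ec
  have hper : ∀ l, z (σ ^ (l + m), σ) = z (σ ^ l, σ) := fun l => by
    rw [pow_add]; exact hi.right₁ (h.pow_mem l) h.σ_mem h.pow_m_mem
  have hFp_add : ∀ K, Fp (K + m) = Fp K + Fp m := by
    intro K
    have e1 : Fp (K + m) = Fp K + ∑ l ∈ range m, z (σ ^ (K + l), σ) := sum_range_add _ _ _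
    rw [e1, sum_range_shift_periodic (fun l => z (σ ^ l, σ)) m hper K]
  have hFp_mul : ∀ K c, Fp (K + m * c) = Fp K + c • Fp m := by
    intro K c
    induction c with
    | zero => simp
    | succ c ih =>
      have : K + m * (c + 1) = (K + m * c) + m := by ring
      rw [this, hFp_add, ih, succ_nsmul]; abel
  have hFpfix : ∀ k, ∀ n ∈ N, n • Fp k = Fp k := by
    intro k n hn
    simp only [hFp, smul_sum]
    exact sum_congr rfl fun l _ => hi.2 _ (h.pow_mem l) _ h.σ_mem n hn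
  have hc0fix : ∀ n ∈ N, n • z (1, 1) = z (1, 1) := fun n hn =>
    hi.2 1 M.one_mem 1 M.one_mem n hn
  -- the cochain
  have hinfl : InflOn₁ M N (fun g => z (1, 1) - Fp (e g)) := by
    refine ⟨fun g hg n hn => by simp only [h.e_mul_right hg hn], fun g hg n hn => ?_⟩
    rw [smul_sub, hc0fix n hn, hFpfix _ n hn]
  have hmain : ∀ g ∈ M, ∀ k ∈ M, (z - carryCoc m e (Fp m)) (g, k) =
      d1 (fun g => z (1, 1) - Fp (e g)) (g, k) := by
    intro g hg k hk
    have hg' : σ ^ e g * ((σ ^ e g)⁻¹ * g) = g := by group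
    have hk' : σ ^ e k * ((σ ^ e k)⁻¹ * k) = k := by group
    have e1 := hi.1 _ (h.pow_mem (e g)) _ (h.pow_mem (e k)) _ (h.e_spec g hg) _ (h.e_spec k hk)
    rw [hg', hk'] at e1
    have e2 := hstar (e g) (e k)
    rw [hz.map_one_snd (h.pow_mem (e g)), h.e_add hg hk, hFp_mul, ← e1,
      ← h.smul_eq hc0fix hg, ← h.smul_eq (hFpfix (e k)) hg] at e2
    simp only [Pi.sub_apply, carryCoc_apply, d1_apply, smul_sub]
    linear_combination (norm := abel) - e2
  -- `Fp m` is fixed by `σ`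
  have hcoc : CocOn₂ M (carryCoc m e (Fp m)) := by
    have h1 : CocOn₂ M (z - d1 (fun g => z (1, 1) - Fp (e g))) := hz.sub (cocOn₂_d1 M _)
    refine h1.congr fun g hg k hk => ?_
    have := hmain g hg k hk
    simp only [Pi.sub_apply] at this ⊢
    linear_combination (norm := abel) - this
  have hσfix : σ • Fp m = Fp m := by
    have ec := hcoc σ h.σ_mem (σ ^ (m - 1)) (h.pow_mem _) σ h.σ_mem
    have hm := h.one_lt
    have e1 : σ * σ ^ (m - 1) = σ ^ m := by rw [← pow_succ']; congr 1; omega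
    have e2 : σ ^ (m - 1) * σ = σ ^ m := by rw [← pow_succ]; congr 1; omega
    rw [e1, e2] at ec
    simp only [carryCoc_apply, carry, h.e_pow, h.e_σ, Nat.mod_self] at ec
    rw [Nat.mod_eq_of_lt (by omega : m - 1 < m)] at ec
    have d1' : (0 + 1) / m = 0 := Nat.div_eq_of_lt (by omega)
    have d2 : (1 + (m - 1)) / m = 1 := by
      rw [show 1 + (m - 1) = m by omega]; exact Nat.div_self (by omega)
    have d3 : (m - 1 + 1) / m = 1 := by
      rw [show m - 1 + 1 = m by omega]; exact Nat.div_self (by omega)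
    simp only [d1', d2, d3, zero_smul, one_smul, zero_add, add_zero] at ec
    exact ec.symm
  have hpow : ∀ i : ℕ, σ ^ i • Fp m = Fp m := by
    intro i
    induction i with
    | zero => simp
    | succ i ih => rw [pow_succ, mul_smul, hσfix, ih]
  refine ⟨Fp m, fun g hg => ?_, _, hinfl, hmain⟩
  rw [h.smul_eq (hFpfix m) hg, hpow]

/-- **BR3, kernel of restriction.**  If `M/N` is cyclic, Hilbert 90 holds for `N` at level `N₀`,
and the 2-cocycle `z` of `M` (inflated from `M/N₀`) restricts to a coboundary on `N`, then `z` is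
cohomologous to the carry cocycle of some `M`-fixed `a`. -/
theorem exists_carryCoc_of_res_cob {N₀ : Subgroup Γ} (h : CycData M N m σ e)
    (hN₀ : NormalIn N₀ M) (h0N : N₀ ≤ N) (hH : H90On A N N₀) {z : Γ × Γ → A}
    (hz : CocOn₂ M z) (hi : InflOn₂ M N₀ z) (hres : CobOn₂ N N₀ z) :
    ∃ a : A, (∀ g ∈ M, g • a = a) ∧ CobOn₂ M N₀ (z - carryCoc m e a) := by
  obtain ⟨h₀, hh₀, hinf, hcoc⟩ := exists_inflOn₂_sub_d1 h.normal hN₀ h0N hH hz hi hres
  obtain ⟨a, ha, hcob⟩ := h.exists_carryCoc_cohomologous hcoc hinf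
  refine ⟨a, ha, ?_⟩
  have h1 : CobOn₂ M N₀ (d1 h₀) := ⟨h₀, hh₀, fun _ _ _ _ => rfl⟩
  have h2 := (hcob.mono h0N).add h1
  refine h2.congr fun g _ k _ => ?_
  simp only [Pi.sub_apply, Pi.add_apply]; abel

/-- **BR3, norm criterion.**  The carry cocycle of an `M`-fixed `a` is a coboundary at level
`N₀ ≤ N` iff `a` is a norm from `A^N`. -/
theorem cobOn₂_carryCoc_iff {N₀ : Subgroup Γ} (h : CycData M N m σ e) (h0N : N₀ ≤ N)
    (hH : H90On A N N₀) {a : A} (ha : ∀ g ∈ M, g • a = a) :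
    CobOn₂ M N₀ (carryCoc m e a) ↔ ∃ b : A, (∀ n ∈ N, n • b = b) ∧ a = partialNm σ m b := by
  constructor
  · intro hc
    obtain ⟨f, hf, he⟩ := cobOn₂_of_cobOn₂_of_inflOn₂ h.normal hH (h.inflOn₂_carryCoc ha) hc
    obtain ⟨h1, h2⟩ := h.eq_Nm_of_carryCoc_eq_d1 hf he
    exact ⟨f σ, h2, h1⟩
  · rintro ⟨b, hb, rfl⟩
    exact (h.cobOn₂_carryCoc_Nm hb).mono h0N

/-- Construction of the exponent function from "`M/N` is generated by `σ`, of order `m`". -/
theorem exists_of_gen (hN : NormalIn N M) (hσ : σ ∈ M) (hm : 1 < m)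
    (hgen : ∀ g ∈ M, ∃ i : ℕ, (σ ^ i)⁻¹ * g ∈ N) (hord : ∀ i : ℕ, σ ^ i ∈ N ↔ m ∣ i) :
    ∃ e : Γ → ℕ, CycData M N m σ e := by
  classical
  have hm0 : 0 < m := lt_trans Nat.zero_lt_one hm
  have hmul : ∀ c : ℕ, σ ^ (m * c) ∈ N := fun c => (hord _).2 (dvd_mul_right m c)
  have hmod : ∀ (s : ℕ) (x : Γ), (σ ^ s)⁻¹ * x ∈ N → (σ ^ (s % m))⁻¹ * x ∈ N := by
    intro s x hx
    have e1 : σ ^ s = σ ^ (s % m) * σ ^ (m * (s / m)) := by
      rw [← pow_add, Nat.mod_add_div]
    have e2 : (σ ^ (s % m))⁻¹ * x = σ ^ (m * (s / m)) * ((σ ^ s)⁻¹ * x) := by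
      rw [e1]; group
    rw [e2]; exact N.mul_mem (hmul _) hx
  have key : ∀ g, ∃ i : ℕ, g ∈ M → (i < m ∧ (σ ^ i)⁻¹ * g ∈ N) := by
    intro g
    by_cases hg : g ∈ M
    · obtain ⟨i, hi⟩ := hgen g hg
      exact ⟨i % m, fun _ => ⟨Nat.mod_lt _ hm0, hmod i g hi⟩⟩
    · exact ⟨0, fun h => absurd h hg⟩
  choose e he using key
  have huniq : ∀ g ∈ M, ∀ j < m, (σ ^ j)⁻¹ * g ∈ N → e g = j := by
    intro g hg j hj hjg
    obtain ⟨hi, hig⟩ := he g hg
    by_cases hle : j ≤ e g
    · have h1 : σ ^ (e g - j) ∈ N := by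
        have e1 : σ ^ (e g - j) = ((σ ^ j)⁻¹ * g) * ((σ ^ e g)⁻¹ * g)⁻¹ := by
          have : σ ^ e g = σ ^ j * σ ^ (e g - j) := by rw [← pow_add]; congr 1; omega
          rw [this]; group
        rw [e1]; exact N.mul_mem hjg (N.inv_mem hig)
      have h2 := (hord _).1 h1
      have h3 : e g - j = 0 := Nat.eq_zero_of_dvd_of_lt h2 (by omega)
      omega
    · have h1 : σ ^ (j - e g) ∈ N := by
        have e1 : σ ^ (j - e g) = ((σ ^ e g)⁻¹ * g) * ((σ ^ j)⁻¹ * g)⁻¹ := by
          have : σ ^ j = σ ^ e g * σ ^ (j - e g) := by rw [← pow_add]; congr 1; omega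
          rw [this]; group
        rw [e1]; exact N.mul_mem hig (N.inv_mem hjg)
      have h2 := (hord _).1 h1
      have h3 : j - e g = 0 := Nat.eq_zero_of_dvd_of_lt h2 (by omega)
      omega
  refine ⟨e, ⟨hN, hm, hσ, fun g hg => (he g hg).1, fun g hg => (he g hg).2, fun g hg k hk => ?_,
    ?_, fun n hn => ?_⟩⟩
  · apply huniq _ (M.mul_mem hg hk) _ (Nat.mod_lt _ hm0)
    apply hmod
    have e1 : (σ ^ (e g + e k))⁻¹ * (g * k) =
        ((σ ^ e k)⁻¹ * ((σ ^ e g)⁻¹ * g) * σ ^ e k) * ((σ ^ e k)⁻¹ * k) := by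
      rw [pow_add]; group
    rw [e1]
    exact N.mul_mem (hN.conj' (M.pow_mem hσ _) (he g hg).2) (he k hk).2
  · exact huniq σ hσ 1 hm (by simp)
  · exact huniq n (hN.le hn) 0 hm0 (by simpa using hn)

end CycData

end Fermat.Agent.PT.Br
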