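/-
PT / BR layer: Kummer theory in degree 2 (BR4).

* `exists_torsion_cochain` : an `A[p]`-valued 2-cocycle of `M` which is the coboundary of a level
  cochain with values in `A` is the coboundary of a level cochain with values in `A[p]`
  (`H²(M, μ_p) ↪ H²(M, A)`), given Hilbert 90 for `M`, `p`-divisibility and smoothness.
* `cupCoc` : the cup product cocycle `χ ∪ κ(a)` of a character (given by `CycData`) with the
  Kummer class of `a = p • α`; `cobOn₂_carryCoc_sub_cupCoc` : it is cohomologous to the carry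
  cocycle of `a` (the "symbol formula").
* `cupCoc_cob_iff` : `χ ∪ κ(a)` is a coboundary iff `a` is a norm.
-/
import Fermat.Agent.PT.Br.Cyclic

set_option autoImplicit false

namespace Fermat.Agent.PT.Br

variable {Γ A : Type*} [Group Γ] [AddCommGroup A] [DistribMulAction Γ A]

/-- **BR4 (a), Kummer injectivity.**  Let `z` be a 2-cochain with `p • z = 0` on `M` which is
the coboundary on `M` of a cochain `f` inflated from `M/N₀`.  If Hilbert 90 holds for `M` at level
`N₀`, `β = p • γ` is solvable and `γ` is fixed by the level `N₁ ≤ N₀` (whatever `β` is), then `z`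
is the coboundary of a cochain inflated from `M/N₁` with values killed by `p`. -/
theorem exists_torsion_cochain {M N₀ : Subgroup Γ} (p : ℕ)
    (hH : H90On A M N₀)
    (hdiv : ∀ β : A, ∃ (γ : A) (N₁ : Subgroup Γ), p • γ = β ∧ NormalIn N₁ M ∧ N₁ ≤ N₀ ∧
      ∀ n ∈ N₁, n • γ = γ)
    {z : Γ × Γ → A} (hz : ∀ g ∈ M, ∀ h ∈ M, p • z (g, h) = 0) (hc : CobOn₂ M N₀ z) :
    ∃ (N₁ : Subgroup Γ) (f₁ : Γ → A), NormalIn N₁ M ∧ N₁ ≤ N₀ ∧ InflOn₁ M N₁ f₁ ∧
      (∀ g ∈ M, p • f₁ g = 0) ∧ ∀ g ∈ M, ∀ h ∈ M, z (g, h) = d1 f₁ (g, h) := by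
  obtain ⟨f, hf, he⟩ := hc
  have hu : CocOn₁ M (fun g => p • f g) := by
    intro g hg h hh
    have e1 := hz g hg h hh
    rw [he g hg h hh, d1_apply, smul_add, smul_sub] at e1
    show p • f (g * h) = g • p • f h + p • f g
    rw [smul_comm g p]
    linear_combination (norm := abel) - e1
  obtain ⟨β, hβ⟩ := hH _ hu (fun g hg s hs => by simp only [hf.1 g hg s hs])
  obtain ⟨γ, N₁, hγ, hN₁, h10, hfix⟩ := hdiv β
  refine ⟨N₁, f - d0 γ, hN₁, h10, ⟨fun g hg s hs => ?_, fun g hg s hs => ?_⟩,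
    fun g hg => ?_, fun g hg h hh => ?_⟩
  · simp only [Pi.sub_apply, d0_apply, mul_smul, hfix s hs, hf.1 g hg s (h10 hs)]
  · have e1 : s * g = g * (g⁻¹ * s * g) := by group
    simp only [Pi.sub_apply, d0_apply, smul_sub, hf.2 g hg s (h10 hs), hfix s hs]
    rw [← mul_smul, e1, mul_smul, hfix _ (hN₁.conj' hg hs)]
  · have := hβ g hg
    simp only [Pi.sub_apply, d0_apply, smul_sub]
    rw [this, smul_comm p g, hγ]
    abel
  · rw [d1_sub, d1_d0, sub_zero]; exact he g hg h hh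

/-- The cup product cocycle `χ ∪ κ(a)`, `a = p • α`: `(g, h) ↦ e g • (g • h • α - g • α)`. -/
def cupCoc (e : Γ → ℕ) (α : A) : Γ × Γ → A := fun x => e x.1 • (x.1 • x.2 • α - x.1 • α)

@[simp] lemma cupCoc_apply (e : Γ → ℕ) (α : A) (g h : Γ) :
    cupCoc e α (g, h) = e g • (g • h • α - g • α) := rfl

section symbol

variable {M N : Subgroup Γ} {m : ℕ} {σ : Γ} {e : Γ → ℕ}

/-- The cup product cocycle has values killed by `m` when `m • α` is fixed by `M`. -/
lemma smul_cupCoc_eq_zero {α : A} (hα : ∀ g ∈ M, g • (m • α) = m • α) {g h : Γ} (hg : g ∈ M)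
    (hh : h ∈ M) : m • cupCoc e α (g, h) = 0 := by
  have a1 : m • (g • h • α) = m • α := by
    rw [smul_comm m g, smul_comm m h, hα h hh, hα g hg]
  have a2 : m • (g • α) = m • α := by rw [smul_comm m g, hα g hg]
  have e1 : m • (g • h • α - g • α) = 0 := by rw [smul_sub, a1, a2, sub_self]
  rw [cupCoc_apply, smul_comm, e1, smul_zero]

/-- **BR4 (b), the symbol formula.**  For a character of `M` with kernel `N` (given by `CycData`)
and `a = m • α` fixed by `M`, with `α` fixed by the level `N₁ ≤ N`: the carry cocycle of `a`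
minus the cup product cocycle is the coboundary of `g ↦ e g • g • α`. -/
lemma carryCoc_sub_cupCoc_eq_d1 (h : CycData M N m σ e) {α : A}
    (hα : ∀ g ∈ M, g • (m • α) = m • α) :
    ∀ g ∈ M, ∀ k ∈ M, (carryCoc m e (m • α) - cupCoc e α) (g, k) =
      d1 (fun g => e g • g • α) (g, k) := by
  intro g hg k hk
  simp only [Pi.sub_apply, carryCoc_apply, cupCoc_apply, d1_apply, mul_smul]
  have a1 : m • (g • k • α) = m • α := by
    rw [smul_comm m g, smul_comm m k, hα k hk, hα g hg]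
  have e1 : carry m e g k • m • α = m • carry m e g k • g • k • α := by
    rw [smul_comm m (carry m e g k), a1]
  have e2 : (e g + e k) • g • k • α = (e (g * k) + m * carry m e g k) • g • k • α := by
    rw [h.e_add hg hk]
  rw [add_smul, add_smul, mul_smul] at e2
  rw [smul_comm g (e k), smul_sub]
  linear_combination (norm := abel) e1 - e2

lemma inflOn₁_symbolCochain (h : CycData M N m σ e) {N₁ : Subgroup Γ} (hN₁ : NormalIn N₁ M)
    (h1N : N₁ ≤ N) {α : A} (hfix : ∀ n ∈ N₁, n • α = α) :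
    InflOn₁ M N₁ (fun g => e g • g • α) := by
  refine ⟨fun g hg s hs => ?_, fun g hg s hs => ?_⟩
  · simp only [h.e_mul_right hg (h1N hs), mul_smul, hfix s hs]
  · have e1 : s * g = g * (g⁻¹ * s * g) := by group
    rw [smul_comm s, ← mul_smul, e1, mul_smul, hfix _ (hN₁.conj' hg hs)]

/-- The cup product cocycle is cohomologous to the carry cocycle. -/
lemma cobOn₂_carryCoc_sub_cupCoc (h : CycData M N m σ e) {N₁ : Subgroup Γ}
    (hN₁ : NormalIn N₁ M) (h1N : N₁ ≤ N) {α : A} (hα : ∀ g ∈ M, g • (m • α) = m • α)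
    (hfix : ∀ n ∈ N₁, n • α = α) :
    CobOn₂ M N₁ (carryCoc m e (m • α) - cupCoc e α) :=
  ⟨_, inflOn₁_symbolCochain h hN₁ h1N hfix, carryCoc_sub_cupCoc_eq_d1 h hα⟩

/-- The cup product cocycle is a 2-cocycle on `M`. -/
lemma cocOn₂_cupCoc (h : CycData M N m σ e) {α : A} (hα : ∀ g ∈ M, g • (m • α) = m • α) :
    CocOn₂ M (cupCoc e α) := by
  have h1 : CocOn₂ M (carryCoc m e (m • α) - d1 (fun g => e g • g • α)) :=
    (h.cocOn₂_carryCoc hα).sub (cocOn₂_d1 M _)
  refine h1.congr fun g hg k hk => ?_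
  have := carryCoc_sub_cupCoc_eq_d1 h hα g hg k hk
  simp only [Pi.sub_apply] at this ⊢
  linear_combination (norm := abel) - this

/-- The cup product cocycle is inflated from `M/N₁` when `α` is fixed by `N₁ ≤ N`. -/
lemma inflOn₂_cupCoc (h : CycData M N m σ e) {N₁ : Subgroup Γ} (hN₁ : NormalIn N₁ M)
    (h1N : N₁ ≤ N) {α : A} (hα : ∀ g ∈ M, g • (m • α) = m • α) (hfix : ∀ n ∈ N₁, n • α = α) :
    InflOn₂ M N₁ (cupCoc e α) := by
  have h1 : InflOn₂ M N₁ (carryCoc m e (m • α) - d1 (fun g => e g • g • α)) :=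
    ((h.inflOn₂_carryCoc hα).mono h1N).sub ((inflOn₁_symbolCochain h hN₁ h1N hfix).d1 hN₁)
  refine h1.congr hN₁.le fun g hg k hk => ?_
  have := carryCoc_sub_cupCoc_eq_d1 h hα g hg k hk
  simp only [Pi.sub_apply] at this ⊢
  linear_combination (norm := abel) - this

/-- **(L3), abstract form.**  `χ ∪ κ(a)` is a level coboundary in `A` iff `a` is a norm from
`A^N`.  (`N₁ ≤ N` a level fixing `α`, Hilbert 90 for `N` at level `N₁`.) -/
theorem cobOn₂_cupCoc_iff (h : CycData M N m σ e) {N₁ : Subgroup Γ} (hN₁ : NormalIn N₁ M)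
    (h1N : N₁ ≤ N) (hH : H90On A N N₁) {α : A} (hα : ∀ g ∈ M, g • (m • α) = m • α)
    (hfix : ∀ n ∈ N₁, n • α = α) :
    CobOn₂ M N₁ (cupCoc e α) ↔ ∃ b : A, (∀ n ∈ N, n • b = b) ∧ m • α = partialNm σ m b := by
  rw [← h.cobOn₂_carryCoc_iff h1N hH hα]
  have hs := cobOn₂_carryCoc_sub_cupCoc h hN₁ h1N hα hfix
  constructor
  · intro hc
    refine (hs.add hc).congr fun g _ k _ => ?_
    simp only [Pi.add_apply, Pi.sub_apply]; abel
  · intro hc
    refine (hc.sub hs).congr fun g _ k _ => ?_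
    simp only [Pi.sub_apply]; abel

end symbol

end Fermat.Agent.PT.Br
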