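/-
PT / BR layer: from the ambient degree-2 calculus to `finrank H² = 1` for level complexes.

`Γ` an ambient group acting on `A`, `Δ ≤ Γ` a subgroup carrying a level system `L` (in the sense
of `PT/Coh/LevelCx.lean`), `T` an `𝔽_p`-representation of `Δ` embedded in `A` with image `A[p]`.

* `IsLev Δ L N` : `N ≤ Δ` is (the image in `Γ` of) a level of `L`.
* `ext₁`, `ext₂` : extension by zero of cochains of `Δ` to cochains of `Γ` with values in `A`.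
* `finrank_H2_eq_one` : `H²` of the level complex of `T` is one-dimensional, given Hilbert 90 and
  divisibility for `A`, the "Lines" dependence statement for `p`-torsion level 2-cocycles with
  values in `A`, and one `p`-torsion level 2-cocycle which is not a level coboundary.
-/
import Fermat.Agent.PT.Br.Kummer
import Fermat.Agent.PT.Bridge

set_option autoImplicit false
set_option linter.unusedSectionVars false

namespace Fermat.Agent.PT.Br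

open Fermat.Agent.PT Fermat.Agent.PT.Bridge

variable {Γ : Type} {A : Type*} [Group Γ] [AddCommGroup A] [DistribMulAction Γ A]

/-- Variant of `exists_torsion_cochain` carrying a predicate `P` on the new level. -/
theorem exists_torsion_cochain_of {M N₀ : Subgroup Γ} (p : ℕ) (P : Subgroup Γ → Prop)
    (hH : H90On A M N₀)
    (hdiv : ∀ β : A, ∃ (γ : A) (N₁ : Subgroup Γ), p • γ = β ∧ P N₁ ∧ NormalIn N₁ M ∧ N₁ ≤ N₀ ∧
      ∀ n ∈ N₁, n • γ = γ)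
    {z : Γ × Γ → A} (hz : ∀ g ∈ M, ∀ h ∈ M, p • z (g, h) = 0) (hc : CobOn₂ M N₀ z) :
    ∃ (N₁ : Subgroup Γ) (f₁ : Γ → A), P N₁ ∧ NormalIn N₁ M ∧ N₁ ≤ N₀ ∧ InflOn₁ M N₁ f₁ ∧
      (∀ g ∈ M, p • f₁ g = 0) ∧ ∀ g ∈ M, ∀ h ∈ M, z (g, h) = d1 f₁ (g, h) := by
  obtain ⟨f, hf, he⟩ := hc
  have hu : CocOn₁ M (fun g => p • f g) := by
    intro g hg h hh
    have e1 := hz g hg h hh
    rw [he g hg h hh, d1_apply, smul_add, smul_sub] at e1
    show p • f (g * h) = g • p • f h + p • f g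
    rw [smul_comm g p]
    linear_combination (norm := abel) - e1
  obtain ⟨β, hβ⟩ := hH _ hu (fun g hg s hs => by simp only [hf.1 g hg s hs])
  obtain ⟨γ, N₁, hγ, hP, hN₁, h10, hfix⟩ := hdiv β
  refine ⟨N₁, f - d0 γ, hP, hN₁, h10, ⟨fun g hg s hs => ?_, fun g hg s hs => ?_⟩,
    fun g hg => ?_, fun g hg h hh => ?_⟩
  · simp only [Pi.sub_apply, d0_apply, mul_smul, hfix s hs, hf.1 g hg s (h10 hs)]
  · have e1 : s * g = g * (g⁻¹ * s * g) := by group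
    simp only [Pi.sub_apply, d0_apply, smul_sub, hf.2 g hg s (h10 hs), hfix s hs]
    rw [← mul_smul, e1, mul_smul, hfix _ (hN₁.conj' hg hs)]
  · have := hβ g hg
    simp only [Pi.sub_apply, d0_apply, smul_sub]
    rw [this, smul_comm p g, hγ]
    abel
  · rw [d1_sub, d1_d0, sub_zero]; exact he g hg h hh

section Final

variable (Δ : Subgroup Γ) (L : LevelSys Δ)

/-- Ambient form of a level: a subgroup of `Δ` whose trace on `Δ` is a level of `L`. -/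
def IsLev (N : Subgroup Γ) : Prop := N ≤ Δ ∧ N.subgroupOf Δ ∈ L.lev

variable {Δ L}

lemma IsLev.normalIn {N : Subgroup Γ} (h : IsLev Δ L N) : NormalIn N Δ := by
  refine ⟨h.1, fun g hg n hn => ?_⟩
  have hnorm := L.normal _ h.2
  have h1 : (⟨g, hg⟩ : Δ) * ⟨n, h.1 hn⟩ * (⟨g, hg⟩ : Δ)⁻¹ ∈ N.subgroupOf Δ :=
    hnorm.conj_mem _ (Subgroup.mem_subgroupOf.2 hn) _
  exact Subgroup.mem_subgroupOf.1 h1

lemma isLev_map {N' : Subgroup Δ} (h : N' ∈ L.lev) : IsLev Δ L (N'.map Δ.subtype) := by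
  refine ⟨Subgroup.map_subtype_le N', ?_⟩
  have : (N'.map Δ.subtype).subgroupOf Δ = N' :=
    Subgroup.comap_map_eq_self_of_injective (Subgroup.subtype_injective Δ) N'
  rw [this]
  exact h

lemma IsLev.exists_le {N₁ N₂ : Subgroup Γ} (h₁ : IsLev Δ L N₁) (h₂ : IsLev Δ L N₂) :
    ∃ N₃, IsLev Δ L N₃ ∧ N₃ ≤ N₁ ∧ N₃ ≤ N₂ := by
  obtain ⟨N', hN', hle⟩ := L.inter _ h₁.2 _ h₂.2
  refine ⟨N'.map Δ.subtype, isLev_map hN', ?_, ?_⟩
  · rintro _ ⟨y, hy, rfl⟩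
    exact Subgroup.mem_subgroupOf.1 (hle hy).1
  · rintro _ ⟨y, hy, rfl⟩
    exact Subgroup.mem_subgroupOf.1 (hle hy).2

lemma mem_map_subtype_iff {N' : Subgroup Δ} (g : Δ) : (g : Γ) ∈ N'.map Δ.subtype ↔ g ∈ N' := by
  constructor
  · rintro ⟨y, hy, he⟩
    have : y = g := Subtype.ext he
    rwa [← this]
  · intro h
    exact ⟨g, h, rfl⟩

variable {T : Type} [AddCommGroup T] (φ : T →+ A)

open Classical in
variable (Δ) in
/-- Extension by zero to `Γ` of a 1-cochain of `Δ`, pushed to `A` along `φ`. -/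
noncomputable def ext₁ (y : Δ → T) : Γ → A := fun g =>
  if h : g ∈ Δ then φ (y ⟨g, h⟩) else 0

open Classical in
variable (Δ) in
/-- Extension by zero to `Γ × Γ` of a 2-cochain of `Δ`, pushed to `A` along `φ`. -/
noncomputable def ext₂ (z : Δ × Δ → T) : Γ × Γ → A := fun q =>
  if h : q.1 ∈ Δ ∧ q.2 ∈ Δ then φ (z (⟨q.1, h.1⟩, ⟨q.2, h.2⟩)) else 0

@[simp] lemma ext₁_coe (y : Δ → T) (g : Δ) : ext₁ Δ φ y (g : Γ) = φ (y g) := by
  simp [ext₁]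

@[simp] lemma ext₂_coe (z : Δ × Δ → T) (g h : Δ) : ext₂ Δ φ z ((g : Γ), (h : Γ)) = φ (z (g, h)) := by
  simp [ext₂]

section rep

variable {k : Type} [CommRing k] [Module k T] (ρ : Representation k Δ T)

/-- the 2-cocycle identity for a cochain in dictionary form -/
lemma dLin_to₂_eq_zero_iff (z : Δ × Δ → T) :
    dLin ρ 2 (to₂ z) = 0 ↔ ∀ g h j : Δ,
      ρ g (z (h, j)) - z (g * h, j) + z (g, h * j) - z (g, h) = 0 := by
  rw [dLin_to₂]
  constructor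
  · intro h g h' j
    exact congrFun (congrArg from₃ h) (g, h', j)
  · intro h
    funext x
    exact h (x 0) (x 1) (x 2)

/-- the coboundary identity in dictionary form -/
lemma dLin_to₁_eq_to₂_iff (y : Δ → T) (z : Δ × Δ → T) :
    dLin ρ 1 (to₁ y) = to₂ z ↔ ∀ g h : Δ, ρ g (y h) - y (g * h) + y g = z (g, h) := by
  rw [dLin_to₁]
  constructor
  · intro h g h'
    exact congrFun (to₂_injective h) (g, h')
  · intro h
    congr 1
    funext x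
    exact h x.1 x.2

variable {φ ρ}

lemma cocOn₂_ext₂ (hφ : ∀ (g : Δ) (t : T), (g : Γ) • φ t = φ (ρ g t)) {z : Δ × Δ → T}
    (hz : dLin ρ 2 (to₂ z) = 0) : CocOn₂ Δ (ext₂ Δ φ z) := by
  rw [dLin_to₂_eq_zero_iff] at hz
  intro g hg h hh j hj
  lift g to Δ using hg
  lift h to Δ using hh
  lift j to Δ using hj
  have e := congrArg φ (hz g h j)
  simp only [map_sub, map_add, map_zero, ← hφ] at e
  rw [← Subgroup.coe_mul, ← Subgroup.coe_mul, ext₂_coe, ext₂_coe, ext₂_coe, ext₂_coe]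
  linear_combination (norm := abel) - e

lemma isLevelConst_to₂_iff (z : Δ × Δ → T) :
    L.IsLevelConst (to₂ z) ↔ ∃ N' ∈ L.lev, ∀ g h n n' : Δ, n ∈ N' → n' ∈ N' →
      z (g * n, h * n') = z (g, h) := by
  constructor
  · rintro ⟨N', hN', hc⟩
    refine ⟨N', hN', fun g h n n' hn hn' => ?_⟩
    have := hc ![g, h] ![g * n, h * n'] (by
      intro i
      fin_cases i
      · simpa using hn
      · simpa using hn')
    exact this.symm
  · rintro ⟨N', hN', hc⟩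
    refine ⟨N', hN', fun g g' hgg' => ?_⟩
    have h0 := hgg' 0
    have h1 := hgg' 1
    have := hc (g 0) (g 1) _ _ h0 h1
    simp only [mul_inv_cancel_left] at this
    exact this.symm

lemma isLevelConst_to₁_iff (y : Δ → T) :
    L.IsLevelConst (to₁ y) ↔ ∃ N' ∈ L.lev, ∀ g n : Δ, n ∈ N' → y (g * n) = y g := by
  constructor
  · rintro ⟨N', hN', hc⟩
    refine ⟨N', hN', fun g n hn => ?_⟩
    have := hc ![g] ![g * n] (by
      intro i
      fin_cases i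
      simpa using hn)
    exact this.symm
  · rintro ⟨N', hN', hc⟩
    refine ⟨N', hN', fun g g' hgg' => ?_⟩
    have h0 := hgg' 0
    have := hc (g 0) _ h0
    simp only [mul_inv_cancel_left] at this
    exact this.symm

lemma exists_inflOn₂_ext₂ (hφ : ∀ (g : Δ) (t : T), (g : Γ) • φ t = φ (ρ g t)) {z : Δ × Δ → T}
    (hz : dLin ρ 2 (to₂ z) = 0) (hl : L.IsLevelConst (to₂ z)) :
    ∃ N, IsLev Δ L N ∧ InflOn₂ Δ N (ext₂ Δ φ z) := by
  obtain ⟨N', hN', hc⟩ := (isLevelConst_to₂_iff z).1 hl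
  refine ⟨N'.map Δ.subtype, isLev_map hN',
    inflOn₂_of_rinv (isLev_map hN').normalIn (cocOn₂_ext₂ hφ hz) ?_⟩
  intro g hg k hk n hn n' hn'
  have hnΔ := Subgroup.map_subtype_le N' hn
  have hn'Δ := Subgroup.map_subtype_le N' hn'
  lift g to Δ using hg
  lift k to Δ using hk
  lift n to Δ using hnΔ
  lift n' to Δ using hn'Δ
  rw [mem_map_subtype_iff] at hn hn'
  rw [← Subgroup.coe_mul, ← Subgroup.coe_mul, ext₂_coe, ext₂_coe, hc g k n n' hn hn']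

/-- easy direction: a level coboundary of the complex is an ambient level coboundary -/
lemma exists_cobOn₂_of_dLin (hφ : ∀ (g : Δ) (t : T), (g : Γ) • φ t = φ (ρ g t)) {y : Δ → T}
    {z : Δ × Δ → T} (hy : L.IsLevelConst (to₁ y)) (hz : L.IsLevelConst (to₂ z))
    (h : dLin ρ 1 (to₁ y) = to₂ z) : ∃ N, IsLev Δ L N ∧ CobOn₂ Δ N (ext₂ Δ φ z) := by
  have hcz : dLin ρ 2 (to₂ z) = 0 := by rw [← h, dLin_dLin]
  obtain ⟨N₂, hN₂, hi⟩ := exists_inflOn₂_ext₂ (φ := φ) hφ hcz hz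
  obtain ⟨N', hN', hc⟩ := (isLevelConst_to₁_iff y).1 hy
  obtain ⟨N, hN, hle₂, hle₁⟩ := hN₂.exists_le (isLev_map hN')
  rw [dLin_to₁_eq_to₂_iff] at h
  have hd : ∀ g ∈ Δ, ∀ k ∈ Δ, ext₂ Δ φ z (g, k) = d1 (ext₁ Δ φ y) (g, k) := by
    intro g hg k hk
    lift g to Δ using hg
    lift k to Δ using hk
    rw [d1_apply, ← Subgroup.coe_mul, ext₂_coe, ext₁_coe, ext₁_coe, ext₁_coe, ← h g k, hφ]
    simp only [map_sub, map_add]
  refine ⟨N, hN, ext₁ Δ φ y, inflOn₁_of_rinv hN.normalIn ?_ ?_, hd⟩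
  · intro g hg n hn
    have hnΔ := hN.1 hn
    have hn' := hle₁ hn
    lift g to Δ using hg
    lift n to Δ using hnΔ
    rw [mem_map_subtype_iff] at hn'
    rw [← Subgroup.coe_mul, ext₁_coe, ext₁_coe, hc g n hn']
  · intro g hg n hn
    rw [← hd n (hN.1 hn) g hg, ← hd 1 Δ.one_mem g hg]
    have := (hi.mono hle₂).right₁ Δ.one_mem hg hn
    rwa [one_mul] at this

end rep

section torsion

variable (p : ℕ) [Fact p.Prime] [Module (ZMod p) T] (ρ : Representation (ZMod p) Δ T)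

lemma nsmul_map_eq_zero (t : T) : p • φ t = 0 := by
  rw [← map_nsmul, ← Nat.cast_smul_eq_nsmul (ZMod p), ZMod.natCast_self, zero_smul, map_zero]

variable {φ ρ}

/-- hard direction (Kummer): an ambient level coboundary with values in `A` comes from a level
cochain with values in `T`. -/
lemma exists_level_cochain_of_cobOn₂ (hφ : ∀ (g : Δ) (t : T), (g : Γ) • φ t = φ (ρ g t))
    (hinj : Function.Injective φ) (hsurj : ∀ a : A, p • a = 0 → ∃ t, φ t = a)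
    (hH : ∀ N, IsLev Δ L N → H90On A Δ N)
    (hdiv : ∀ β : A, ∃ (γ : A) (N : Subgroup Γ), p • γ = β ∧ IsLev Δ L N ∧ ∀ n ∈ N, n • γ = γ)
    {z : Δ × Δ → T} {N : Subgroup Γ} (hN : IsLev Δ L N) (hc : CobOn₂ Δ N (ext₂ Δ φ z)) :
    ∃ y : Δ → T, L.IsLevelConst (to₁ y) ∧ dLin ρ 1 (to₁ y) = to₂ z := by
  have hz : ∀ g ∈ Δ, ∀ h ∈ Δ, p • ext₂ Δ φ z (g, h) = 0 := by
    intro g hg h hh
    lift g to Δ using hg
    lift h to Δ using hh
    rw [ext₂_coe, nsmul_map_eq_zero]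
  obtain ⟨N₁, f₁, hN₁, -, -, hf₁, hp, he⟩ :=
    exists_torsion_cochain_of p (IsLev Δ L) (hH N hN) (fun β => by
      obtain ⟨γ, N₁, hγ, hN₁, hfix⟩ := hdiv β
      obtain ⟨N₂, hN₂, h21, h2N⟩ := hN₁.exists_le hN
      exact ⟨γ, N₂, hγ, hN₂, hN₂.normalIn, h2N, fun n hn => hfix n (h21 hn)⟩) hz hc
  have hex : ∀ g : Δ, ∃ t, φ t = f₁ g := fun g => hsurj _ (hp g g.2)
  choose y hy using hex
  refine ⟨y, (isLevelConst_to₁_iff y).2 ⟨_, hN₁.2, fun g n hn => ?_⟩, ?_⟩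
  · apply hinj
    rw [hy, hy, Subgroup.coe_mul]
    exact hf₁.1 g g.2 n (Subgroup.mem_subgroupOf.1 hn)
  · rw [dLin_to₁_eq_to₂_iff]
    intro g h
    apply hinj
    have := he g g.2 h h.2
    rw [ext₂_coe, d1_apply] at this
    rw [this, map_add, map_sub, ← hφ, hy, hy, hy, Subgroup.coe_mul]

/-- a `p`-torsion ambient level cocycle comes from a level cocycle with values in `T` -/
lemma exists_level_cocycle (hφ : ∀ (g : Δ) (t : T), (g : Γ) • φ t = φ (ρ g t))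
    (hinj : Function.Injective φ) (hsurj : ∀ a : A, p • a = 0 → ∃ t, φ t = a)
    {z₀ : Γ × Γ → A} {N₀ : Subgroup Γ} (hN₀ : IsLev Δ L N₀) (hc : CocOn₂ Δ z₀)
    (hi : InflOn₂ Δ N₀ z₀) (ht : ∀ g ∈ Δ, ∀ h ∈ Δ, p • z₀ (g, h) = 0) :
    ∃ z : Δ × Δ → T, L.IsLevelConst (to₂ z) ∧ dLin ρ 2 (to₂ z) = 0 ∧
      ∀ g h : Δ, φ (z (g, h)) = z₀ (g, h) := by
  have hex : ∀ x : Δ × Δ, ∃ t, φ t = z₀ (x.1, x.2) := fun x => hsurj _ (ht _ x.1.2 _ x.2.2)
  choose z hz using hex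
  refine ⟨z, (isLevelConst_to₂_iff z).2 ⟨_, hN₀.2, fun g h n n' hn hn' => ?_⟩, ?_,
    fun g h => hz (g, h)⟩
  · apply hinj
    rw [hz, hz]
    exact hi.1 g g.2 h h.2 n (Subgroup.mem_subgroupOf.1 hn) n' (Subgroup.mem_subgroupOf.1 hn')
  · rw [dLin_to₂_eq_zero_iff]
    intro g h j
    apply hinj
    have := hc g g.2 h h.2 j j.2
    rw [map_zero, map_sub, map_add, map_sub, ← hφ, hz, hz, hz, hz]
    simp only [Subgroup.coe_mul]
    linear_combination (norm := abel) - this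

end torsion

end Final

/-- linear combinations of classes -/
lemma smul_cls_add_smul_cls {k : Type} [CommRing k] (C : Cx k) (n : ℕ) (a b : k) (x y : C.X n)
    (hx : C.d n x = 0) (hy : C.d n y = 0) :
    a • C.cls n x hx + b • C.cls n y hy = C.cls n (a • x + b • y)
      (by rw [map_add, map_smul, map_smul, hx, hy, smul_zero, smul_zero, add_zero]) := by
  simp only [Cx.cls, ← map_smul, ← map_add]
  rfl

section main

variable {Δ : Subgroup Γ} {L : LevelSys Δ} {T : Type} [AddCommGroup T]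
variable (p : ℕ) [Fact p.Prime] [Module (ZMod p) T] (ρ : Representation (ZMod p) Δ T)

/-- **Local `H²` is one-dimensional (abstract assembly).**  `T` an `𝔽_p`-representation of `Δ`
identified by `φ` with the `p`-torsion of the ambient module `A`.  Given Hilbert 90 and
`p`-divisibility (with levels) for `A`, the dependence of any two `p`-torsion level 2-cocycles
with values in `A` modulo level coboundaries (`hLines`) and a `p`-torsion level 2-cocycle which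
is not a level coboundary (`hne`), the degree-2 cohomology of the level complex of `T` has
dimension one. -/
theorem finrank_H2_eq_one (hρ : L.IsSmooth ρ) (φ : T →+ A)
    (hφ : ∀ (g : Δ) (t : T), (g : Γ) • φ t = φ (ρ g t))
    (hinj : Function.Injective φ) (hsurj : ∀ a : A, p • a = 0 → ∃ t, φ t = a)
    (hH : ∀ N, IsLev Δ L N → H90On A Δ N)
    (hdiv : ∀ β : A, ∃ (γ : A) (N : Subgroup Γ), p • γ = β ∧ IsLev Δ L N ∧ ∀ n ∈ N, n • γ = γ)
    (hLines : ∀ (z₁ z₂ : Γ × Γ → A) (N₀ : Subgroup Γ), IsLev Δ L N₀ → CocOn₂ Δ z₁ →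
      CocOn₂ Δ z₂ → InflOn₂ Δ N₀ z₁ → InflOn₂ Δ N₀ z₂ →
      (∀ g ∈ Δ, ∀ h ∈ Δ, p • z₁ (g, h) = 0) → (∀ g ∈ Δ, ∀ h ∈ Δ, p • z₂ (g, h) = 0) →
      ∃ c₁ c₂ : ℤ, ¬ ((p : ℤ) ∣ c₁ ∧ (p : ℤ) ∣ c₂) ∧
        ∃ N, IsLev Δ L N ∧ CobOn₂ Δ N (c₁ • z₁ + c₂ • z₂))
    (hne : ∃ (z₀ : Γ × Γ → A) (N₀ : Subgroup Γ), IsLev Δ L N₀ ∧ CocOn₂ Δ z₀ ∧
      InflOn₂ Δ N₀ z₀ ∧ (∀ g ∈ Δ, ∀ h ∈ Δ, p • z₀ (g, h) = 0) ∧
      ∀ N, IsLev Δ L N → ¬ CobOn₂ Δ N z₀) :
    Module.finrank (ZMod p) ((L.cx ρ hρ).H 2) = 1 := by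
  rw [finrank_eq_one_iff']
  obtain ⟨z₀, N₀, hN₀, hc₀, hi₀, ht₀, hnc₀⟩ := hne
  obtain ⟨ζ₀, hl₀, hd₀, he₀⟩ := exists_level_cocycle p (ρ := ρ) hφ hinj hsurj hN₀ hc₀ hi₀ ht₀
  have hZ₀ : (L.cx ρ hρ).d 2 ⟨to₂ ζ₀, hl₀⟩ = 0 := Subtype.ext hd₀
  have hv : (L.cx ρ hρ).cls 2 ⟨to₂ ζ₀, hl₀⟩ hZ₀ ≠ 0 := by
    intro h0
    rw [Cx.cls_eq_zero_iff, Cx.mem_B_succ] at h0
    obtain ⟨Y, hY⟩ := h0
    have hY' : dLin ρ 1 (to₁ (from₁ Y.1)) = to₂ ζ₀ := by
      rw [to₁_from₁]; exact congrArg Subtype.val hY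
    obtain ⟨N, hN, hcob⟩ := exists_cobOn₂_of_dLin (φ := φ) hφ
      (by rw [to₁_from₁]; exact Y.2) hl₀ hY'
    refine hnc₀ N hN (hcob.congr fun g hg k hk => ?_)
    lift g to Δ using hg
    lift k to Δ using hk
    rw [ext₂_coe, he₀]
  refine ⟨_, hv, fun w => ?_⟩
  obtain ⟨Z₁, hZ₁, rfl⟩ := (L.cx ρ hρ).exists_cls w
  have hζ₁' : to₂ (from₂ Z₁.1) = Z₁.1 := to₂_from₂ _
  have hd₁ : dLin ρ 2 (to₂ (from₂ Z₁.1)) = 0 := by
    rw [hζ₁']; exact congrArg Subtype.val hZ₁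
  have hl₁ : L.IsLevelConst (to₂ (from₂ Z₁.1)) := by rw [hζ₁']; exact Z₁.2
  obtain ⟨N₁, hN₁, hi₁⟩ := exists_inflOn₂_ext₂ (φ := φ) hφ hd₁ hl₁
  obtain ⟨N₀', hN₀', hi₀'⟩ := exists_inflOn₂_ext₂ (φ := φ) hφ hd₀ hl₀
  obtain ⟨N₂, hN₂, h21, h20⟩ := hN₁.exists_le hN₀'
  have htor : ∀ (ζ : Δ × Δ → T), ∀ g ∈ Δ, ∀ h ∈ Δ, p • ext₂ Δ φ ζ (g, h) = 0 := by
    intro ζ g hg h hh
    lift g to Δ using hg
    lift h to Δ using hh
    rw [ext₂_coe, nsmul_map_eq_zero]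
  obtain ⟨c₀, c₁, hcc, N, hN, hcob⟩ := hLines (ext₂ Δ φ ζ₀) (ext₂ Δ φ (from₂ Z₁.1)) N₂ hN₂
    (cocOn₂_ext₂ hφ hd₀) (cocOn₂_ext₂ hφ hd₁) (hi₀'.mono h20) (hi₁.mono h21) (htor _) (htor _)
  have hcomb : CobOn₂ Δ N (ext₂ Δ φ
      (fun x => (c₀ : ZMod p) • ζ₀ x + (c₁ : ZMod p) • from₂ Z₁.1 x)) := by
    refine hcob.congr fun g hg k hk => ?_
    lift g to Δ using hg
    lift k to Δ using hk
    rw [ext₂_coe, Pi.add_apply, Pi.smul_apply, Pi.smul_apply, ext₂_coe, ext₂_coe, map_add,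
      Int.cast_smul_eq_zsmul, Int.cast_smul_eq_zsmul, map_zsmul, map_zsmul]
  obtain ⟨y, hyl, hyd⟩ := exists_level_cochain_of_cobOn₂ p (ρ := ρ) hφ hinj hsurj hH hdiv hN hcomb
  have hB : (c₀ : ZMod p) • (L.cx ρ hρ).cls 2 ⟨to₂ ζ₀, hl₀⟩ hZ₀ +
      (c₁ : ZMod p) • (L.cx ρ hρ).cls 2 Z₁ hZ₁ = 0 := by
    rw [smul_cls_add_smul_cls, Cx.cls_eq_zero_iff, Cx.mem_B_succ]
    refine ⟨⟨to₁ y, hyl⟩, Subtype.ext ?_⟩
    show dLin ρ 1 (to₁ y) = (c₀ : ZMod p) • to₂ ζ₀ + (c₁ : ZMod p) • Z₁.1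
    rw [hyd, ← hζ₁']
    rfl
  have hc₁ : (c₁ : ZMod p) ≠ 0 := by
    intro h1
    rw [h1, zero_smul, add_zero] at hB
    have h0 : (c₀ : ZMod p) ≠ 0 := by
      intro h0
      exact hcc ⟨(ZMod.intCast_zmod_eq_zero_iff_dvd c₀ p).1 h0,
        (ZMod.intCast_zmod_eq_zero_iff_dvd c₁ p).1 h1⟩
    exact hv ((smul_eq_zero.1 hB).resolve_left h0)
  refine ⟨-(c₁ : ZMod p)⁻¹ * (c₀ : ZMod p), ?_⟩
  have h2 : (c₁ : ZMod p) • (L.cx ρ hρ).cls 2 Z₁ hZ₁ =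
      -((c₀ : ZMod p) • (L.cx ρ hρ).cls 2 ⟨to₂ ζ₀, hl₀⟩ hZ₀) := by
    rw [eq_neg_iff_add_eq_zero, add_comm]; exact hB
  have h3 := congrArg (fun x => (c₁ : ZMod p)⁻¹ • x) h2
  simp only [smul_smul, inv_mul_cancel₀ hc₁, one_smul, smul_neg] at h3
  rw [h3, neg_mul, neg_smul]

end main

end Fermat.Agent.PT.Br
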