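import Fermat.Agent.PT.Br.SylowOn

/-!
# PT / BR layer: the "lines" theorem (local `H²` has `p`-rank at most one)

Ambient group `Γ` acting on `A`; `D ≤ Γ` the top (local) group, `lev` a directed set of subgroups
normal and of finite index in `D` (the levels).  A subgroup `U ≤ D` is *open* when it contains a
level.  Under

* Hilbert 90 for all open subgroups (`LineHyp.h90`),
* norm index `p` for every cyclic step `U ⊇ V` of degree `p` of open subgroups (`LineHyp.normIdx`),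
* every `a ∈ A^U` which is not in `p • A^U` is a norm from some cyclic step of degree `p`
  (`LineHyp.kummer`; Kummer theory, `p` odd),

any two `p`-torsion level 2-classes of an open subgroup `M₀` are linearly dependent modulo `p`
(`LineHyp.lines_main`).
-/

set_option autoImplicit false
set_option linter.style.haveILetI false

namespace Fermat.Agent.PT.Br

open Finset

variable {Γ A : Type*} [Group Γ] [AddCommGroup A] [DistribMulAction Γ A]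

section grp

/-- Subgroups of `U/N` lift to subgroups between `N` and `U`. -/
lemma exists_lift_subgroup {U N : Subgroup Γ} (hNU : N ≤ U) [(N.subgroupOf U).Normal]
    (K : Subgroup (↥U ⧸ N.subgroupOf U)) :
    ∃ V : Subgroup Γ, N ≤ V ∧ V ≤ U ∧ V.relIndex U = K.index ∧ (K.Normal → NormalIn V U) := by
  refine ⟨(K.comap (QuotientGroup.mk' (N.subgroupOf U))).map U.subtype, ?_,
    Subgroup.map_subtype_le _, ?_, ?_⟩
  · intro n hn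
    refine Subgroup.mem_map.mpr ⟨⟨n, hNU hn⟩, ?_, rfl⟩
    rw [Subgroup.mem_comap]
    have : QuotientGroup.mk' (N.subgroupOf U) ⟨n, hNU hn⟩ = 1 :=
      (QuotientGroup.eq_one_iff _).mpr (Subgroup.mem_subgroupOf.mpr hn)
    rw [this]
    exact K.one_mem
  · have h1 : ((K.comap (QuotientGroup.mk' (N.subgroupOf U))).map U.subtype).subgroupOf U =
        K.comap (QuotientGroup.mk' (N.subgroupOf U)) :=
      Subgroup.comap_map_eq_self_of_injective U.subtype_injective _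
    rw [Subgroup.relIndex, h1]
    exact Subgroup.index_comap_of_surjective _ (QuotientGroup.mk'_surjective _)
  · intro hK
    refine ⟨Subgroup.map_subtype_le _, fun g hg v hv => ?_⟩
    obtain ⟨x, hx, rfl⟩ := Subgroup.mem_map.mp hv
    refine Subgroup.mem_map.mpr ⟨⟨g, hg⟩ * x * ⟨g, hg⟩⁻¹, ?_, rfl⟩
    haveI := hK
    exact (Subgroup.Normal.comap hK (QuotientGroup.mk' (N.subgroupOf U))).conj_mem x hx ⟨g, hg⟩

/-- In a `p`-group quotient `U/N` of order `p^(n+2)` there is an intermediate normal subgroup of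
index `p`. -/
lemma exists_between_of_index_prime_pow {U N : Subgroup Γ} (hNU : NormalIn N U) {p : ℕ}
    (hp : p.Prime) {n : ℕ} (hidx : N.relIndex U = p ^ (n + 2)) :
    ∃ V : Subgroup Γ, N ≤ V ∧ NormalIn V U ∧ V.relIndex U = p ∧ N.relIndex V = p ^ (n + 1) := by
  haveI : Fact p.Prime := ⟨hp⟩
  haveI := hNU.subgroupOf_normal
  have hcard : Nat.card (↥U ⧸ N.subgroupOf U) = p ^ (n + 2) := hidx
  haveI : Finite (↥U ⧸ N.subgroupOf U) :=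
    Nat.finite_of_card_ne_zero (by rw [hcard]; exact pow_ne_zero _ hp.ne_zero)
  obtain ⟨K, hK⟩ := Sylow.exists_subgroup_card_pow_prime (G := ↥U ⧸ N.subgroupOf U) p
    (n := n + 1) (by rw [hcard]; exact pow_dvd_pow p (by omega))
  have hKidx : K.index = p := by
    have h1 := K.card_mul_index
    rw [hK, hcard, pow_succ p (n + 1)] at h1
    exact Nat.eq_of_mul_eq_mul_left (pow_pos hp.pos _) h1
  have hKn : K.Normal := by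
    apply Subgroup.normal_of_index_eq_minFac_card
    rw [hKidx, hcard, hp.pow_minFac (by omega)]
  obtain ⟨V, hNV, hVU, hVidx, hVn⟩ := exists_lift_subgroup hNU.le K
  refine ⟨V, hNV, hVn hKn, by rw [hVidx, hKidx], ?_⟩
  have h2 := Subgroup.relIndex_mul_relIndex N V U hNV hVU
  rw [hidx, hVidx, hKidx, pow_succ p (n + 1)] at h2
  exact Nat.eq_of_mul_eq_mul_right hp.pos h2

/-- A "Sylow" subgroup between `N` and `U`. -/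
lemma exists_sylow_between {U N : Subgroup Γ} (hNU : NormalIn N U) {p : ℕ} (hp : p.Prime)
    (hfin : N.relIndex U ≠ 0) :
    ∃ (P : Subgroup Γ) (n : ℕ), N ≤ P ∧ P ≤ U ∧ N.relIndex P = p ^ n ∧
      Nat.Coprime p (P.relIndex U) := by
  haveI : Fact p.Prime := ⟨hp⟩
  haveI := hNU.subgroupOf_normal
  have hcard : Nat.card (↥U ⧸ N.subgroupOf U) = N.relIndex U := rfl
  haveI : Finite (↥U ⧸ N.subgroupOf U) := Nat.finite_of_card_ne_zero (by rw [hcard]; exact hfin)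
  obtain ⟨P⟩ : Nonempty (Sylow p (↥U ⧸ N.subgroupOf U)) := inferInstance
  obtain ⟨V, hNV, hVU, hVidx, -⟩ := exists_lift_subgroup hNU.le (P : Subgroup (↥U ⧸ N.subgroupOf U))
  have hnd : ¬ p ∣ (P : Subgroup (↥U ⧸ N.subgroupOf U)).index := P.not_dvd_index
  have hi0 : (P : Subgroup (↥U ⧸ N.subgroupOf U)).index ≠ 0 := fun h0 => hnd (h0 ▸ dvd_zero p)
  refine ⟨V, (Nat.card (↥U ⧸ N.subgroupOf U)).factorization p, hNV, hVU, ?_, ?_⟩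
  · have h2 := Subgroup.relIndex_mul_relIndex N V U hNV hVU
    have h1 := (P : Subgroup (↥U ⧸ N.subgroupOf U)).card_mul_index
    rw [← hcard, ← h1, hVidx] at h2
    rw [← P.card_eq_multiplicity]
    exact Nat.eq_of_mul_eq_mul_right (Nat.pos_of_ne_zero hi0) h2
  · rw [hVidx]
    exact (Nat.Prime.coprime_iff_not_dvd hp).mpr hnd

end grp

/-- `z` is a level coboundary on `U`. -/
def LevCob (lev : Set (Subgroup Γ)) (U : Subgroup Γ) (z : Γ × Γ → A) : Prop :=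
  ∃ N ∈ lev, N ≤ U ∧ CobOn₂ U N z

/-- `z` is inflated from some level on `U`. -/
def LevInfl (lev : Set (Subgroup Γ)) (U : Subgroup Γ) (z : Γ × Γ → A) : Prop :=
  ∃ N ∈ lev, N ≤ U ∧ InflOn₂ U N z

/-- The hypotheses of the "lines" theorem. -/
structure LineHyp (A : Type*) [AddCommGroup A] [DistribMulAction Γ A] (p : ℕ) (D : Subgroup Γ)
    (lev : Set (Subgroup Γ)) : Prop where
  normal : ∀ N ∈ lev, NormalIn N D
  fin : ∀ N ∈ lev, N.relIndex D ≠ 0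
  directed : ∀ N ∈ lev, ∀ N' ∈ lev, ∃ N'' ∈ lev, N'' ≤ N ⊓ N'
  h90 : ∀ N ∈ lev, ∀ U : Subgroup Γ, N ≤ U → U ≤ D → H90On A U N
  normIdx : ∀ (U V : Subgroup Γ) (σ : Γ) (e : Γ → ℕ), U ≤ D → (∃ N ∈ lev, N ≤ V) →
    CycData U V p σ e →
    ∃ a₀ ∈ fixG A U, a₀ ∉ normG A σ p V ∧
      fixG A U ≤ AddSubgroup.zmultiples a₀ ⊔ normG A σ p V
  kummer : ∀ U : Subgroup Γ, U ≤ D → (∃ N ∈ lev, N ≤ U) → ∀ a ∈ fixG A U,
    (∀ b ∈ fixG A U, a ≠ p • b) →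
    ∃ (V : Subgroup Γ) (σ : Γ) (e : Γ → ℕ), (∃ N ∈ lev, N ≤ V) ∧ CycData U V p σ e ∧
      a ∈ normG A σ p V

namespace LineHyp

variable {p : ℕ} {D : Subgroup Γ} {lev : Set (Subgroup Γ)}

lemma exists_le₂ (H : LineHyp A p D lev) {N N' : Subgroup Γ} (hN : N ∈ lev) (hN' : N' ∈ lev) :
    ∃ N'' ∈ lev, N'' ≤ N ∧ N'' ≤ N' := by
  obtain ⟨N'', h, hle⟩ := H.directed N hN N' hN'
  exact ⟨N'', h, hle.trans inf_le_left, hle.trans inf_le_right⟩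

lemma exists_le₃ (H : LineHyp A p D lev) {N₁ N₂ N₃ : Subgroup Γ} (h₁ : N₁ ∈ lev) (h₂ : N₂ ∈ lev)
    (h₃ : N₃ ∈ lev) : ∃ N ∈ lev, N ≤ N₁ ∧ N ≤ N₂ ∧ N ≤ N₃ := by
  obtain ⟨N', h', h1, h2⟩ := H.exists_le₂ h₁ h₂
  obtain ⟨N, h, h3, h4⟩ := H.exists_le₂ h' h₃
  exact ⟨N, h, h3.trans h1, h3.trans h2, h4⟩

lemma exists_le₄ (H : LineHyp A p D lev) {N₁ N₂ N₃ N₄ : Subgroup Γ} (h₁ : N₁ ∈ lev)
    (h₂ : N₂ ∈ lev) (h₃ : N₃ ∈ lev) (h₄ : N₄ ∈ lev) :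
    ∃ N ∈ lev, N ≤ N₁ ∧ N ≤ N₂ ∧ N ≤ N₃ ∧ N ≤ N₄ := by
  obtain ⟨N', h', h1, h2, h3⟩ := H.exists_le₃ h₁ h₂ h₃
  obtain ⟨N, h, h5, h6⟩ := H.exists_le₂ h' h₄
  exact ⟨N, h, h5.trans h1, h5.trans h2, h5.trans h3, h6⟩

lemma normalIn (H : LineHyp A p D lev) {N U : Subgroup Γ} (hN : N ∈ lev) (hNU : N ≤ U)
    (hU : U ≤ D) : NormalIn N U :=
  (H.normal N hN).mono hU hNU

end LineHyp

lemma LevCob.res {p : ℕ} {D : Subgroup Γ} {lev : Set (Subgroup Γ)} {U V : Subgroup Γ}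
    {z : Γ × Γ → A} (h : LevCob lev U z) (H : LineHyp A p D lev) (hVU : V ≤ U)
    (hV : ∃ N ∈ lev, N ≤ V) : LevCob lev V z := by
  obtain ⟨N, hN, -, hc⟩ := h
  obtain ⟨N', hN', hN'V⟩ := hV
  obtain ⟨N'', hN'', h1, h2⟩ := H.exists_le₂ hN hN'
  exact ⟨N'', hN'', h2.trans hN'V, (hc.mono h1).mono_left hVU⟩

lemma LevInfl.res {p : ℕ} {D : Subgroup Γ} {lev : Set (Subgroup Γ)} {U V : Subgroup Γ}
    {z : Γ × Γ → A} (h : LevInfl lev U z) (H : LineHyp A p D lev) (hVU : V ≤ U)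
    (hV : ∃ N ∈ lev, N ≤ V) : LevInfl lev V z := by
  obtain ⟨N, hN, -, hc⟩ := h
  obtain ⟨N', hN', hN'V⟩ := hV
  obtain ⟨N'', hN'', h1, h2⟩ := H.exists_le₂ hN hN'
  exact ⟨N'', hN'', h2.trans hN'V, (hc.mono h1).mono_left hVU⟩

/-- A cocycle inflated from `N₀` restricts to a coboundary on `N₀`. -/
lemma cobOn₂_self_of_inflOn₂ {M N₀ : Subgroup Γ} {z : Γ × Γ → A}
    (hi : InflOn₂ M N₀ z) : CobOn₂ N₀ N₀ z := by
  refine ⟨fun _ => z (1, 1), ⟨fun _ _ _ _ => rfl, fun _ _ n hn => hi.2 1 M.one_mem 1 M.one_mem n hn⟩,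
    fun g hg k hk => ?_⟩
  have h1 := hi.1 1 M.one_mem 1 M.one_mem g hg k hk
  rw [one_mul, one_mul] at h1
  rw [h1, d1_apply, hi.2 1 M.one_mem 1 M.one_mem g hg]
  abel

namespace LineHyp

variable {p : ℕ} {D : Subgroup Γ} {lev : Set (Subgroup Γ)}

/-- Key lemma + norm descent, generator-free: a `p`-torsion class of `M` split by `N₁ ⊓ N₂` is
split by `N₁` when the norm group of `N₁` is not contained in that of `N₂`. -/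
theorem key (hp : p.Prime) (H : LineHyp A p D lev) {M N₁ N₂ N₀ : Subgroup Γ} {σ₁ σ₂ : Γ}
    {e₁ e₂ : Γ → ℕ} (hM : M ≤ D) (hN₀ : N₀ ∈ lev) (h0 : N₀ ≤ N₁ ⊓ N₂)
    (h₁ : CycData M N₁ p σ₁ e₁) (h₂ : CycData M N₂ p σ₂ e₂)
    (hne : ¬ normG A σ₁ p N₁ ≤ normG A σ₂ p N₂)
    {z : Γ × Γ → A} (hz : CocOn₂ M z) (hi : InflOn₂ M N₀ z)
    (hres : CobOn₂ (N₁ ⊓ N₂) N₀ z) (hpz : CobOn₂ M N₀ ((p : ℤ) • z)) : CobOn₂ N₁ N₀ z := by
  have hN₁M := h₁.normal.le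
  have hN₂M := h₂.normal.le
  have hN12 : N₁ ≠ N₂ := by
    rintro rfl
    exact hne (le_of_eq (h₂.normG_indep h₁ hp))
  obtain ⟨τ₁, hτ₁N₂, hτ₁⟩ := h₁.exists_mem_not_mem h₂ hp hN12
  obtain ⟨τ₂, hτ₂N₁, hτ₂⟩ := h₂.exists_mem_not_mem h₁ hp (Ne.symm hN12)
  obtain ⟨e₁', h₁'⟩ := h₁.exists_of_not_mem hp (hN₂M hτ₁N₂) hτ₁
  obtain ⟨e₂', h₂'⟩ := h₂.exists_of_not_mem hp (hN₁M hτ₂N₁) hτ₂
  have hne' : ¬ normG A τ₁ p N₁ ≤ normG A τ₂ p N₂ := by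
    rw [h₁.normG_indep h₁' hp, h₂.normG_indep h₂' hp]
    exact hne
  have hc : CycData N₁ (N₁ ⊓ N₂) p τ₂ e₂' := h₂'.restrict N₁ hN₁M hτ₂N₁
  obtain ⟨a₀, ha₀, -, hI⟩ := H.normIdx N₁ (N₁ ⊓ N₂) τ₂ e₂' (hN₁M.trans hM) ⟨N₀, hN₀, h0⟩ hc
  have hNorm := norm_descent hp h₁' h₂' hτ₁N₂ hτ₂N₁ ha₀ hI hne'
  exact cobOn₂_of_split_inf h₁' h₂' hτ₁N₂ hτ₂N₁
    (H.normalIn hN₀ (h0.trans (inf_le_left.trans hN₁M)) hM) h0
    (H.h90 N₀ hN₀ _ h0 ((inf_le_left.trans hN₁M).trans hM))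
    (H.h90 N₀ hN₀ _ (h0.trans inf_le_right) (hN₂M.trans hM)) hNorm hz hi hres hpz

/-- Norm groups of cyclic steps of degree `p` are maximal. -/
lemma normG_le_of_le (hp : p.Prime) (H : LineHyp A p D lev) {M N₁ N₂ : Subgroup Γ} {σ₁ σ₂ : Γ}
    {e₁ e₂ : Γ → ℕ} (hM : M ≤ D) (hl₁ : ∃ N ∈ lev, N ≤ N₁) (hl₂ : ∃ N ∈ lev, N ≤ N₂)
    (h₁ : CycData M N₁ p σ₁ e₁) (h₂ : CycData M N₂ p σ₂ e₂)
    (hle : normG A σ₁ p N₁ ≤ normG A σ₂ p N₂) : normG A σ₂ p N₂ ≤ normG A σ₁ p N₁ := by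
  obtain ⟨a₁, ha₁, -, hI₁⟩ := H.normIdx M N₁ σ₁ e₁ hM hl₁ h₁
  obtain ⟨a₂, ha₂, ha₂n, -⟩ := H.normIdx M N₂ σ₂ e₂ hM hl₂ h₂
  have key := inf_le_of_index_prime (B := fixG A M) (𝒩 := normG A σ₁ p N₁)
    (X := normG A σ₂ p N₂) hp (fun a ha => h₁.nsmul_mem_normG ha) ha₁ hI₁ hle
    (fun hB => ha₂n (hB ha₂))
  intro x hx
  exact key ⟨hx, h₂.normG_le_fixG hx⟩

/-- **All cyclic steps of degree `p` of `M` split the same classes.** -/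
theorem step_indep (hp : p.Prime) (H : LineHyp A p D lev) {M N₁ N₂ : Subgroup Γ} {σ₁ σ₂ : Γ}
    {e₁ e₂ : Γ → ℕ} (hM : M ≤ D) (h₁ : CycData M N₁ p σ₁ e₁) (h₂ : CycData M N₂ p σ₂ e₂)
    (hl₂ : ∃ N ∈ lev, N ≤ N₂) {z : Γ × Γ → A} (hz : CocOn₂ M z) (hi : LevInfl lev M z)
    (hres : LevCob lev N₁ z) : LevCob lev N₂ z := by
  obtain ⟨Na, hNa, hNaN₁, hca⟩ := hres
  obtain ⟨Nz, hNz, hNzM, hiz⟩ := hi
  obtain ⟨Nb, hNb, hNbN₂⟩ := hl₂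
  obtain ⟨N₀, hN₀, h0a, h0z, h0b⟩ := H.exists_le₃ hNa hNz hNb
  have h01 : N₀ ≤ N₁ := h0a.trans hNaN₁
  have h02 : N₀ ≤ N₂ := h0b.trans hNbN₂
  have hN₁M := h₁.normal.le
  have hN₂M := h₂.normal.le
  have h0M : N₀ ≤ M := h01.trans hN₁M
  have hn0 : NormalIn N₀ M := H.normalIn hN₀ h0M hM
  have hi0 : InflOn₂ M N₀ z := hiz.mono h0z
  have hc0 : CobOn₂ N₁ N₀ z := hca.mono h0a
  -- `p • z` is a coboundary
  have hpz : ∀ N : Subgroup Γ, N ≤ N₀ → CobOn₂ M N ((p : ℤ) • z) := by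
    intro N hNN₀
    obtain ⟨a, ha, hcob⟩ := h₁.exists_carryCoc_of_res_cob hn0 h01
      (H.h90 N₀ hN₀ N₁ h01 (hN₁M.trans hM)) hz hi0 hc0
    have h3 : CobOn₂ M N₀ (carryCoc p e₁ (partialNm σ₁ p a)) :=
      (h₁.cobOn₂_carryCoc_Nm (fun n hn => ha n (hN₁M hn))).mono h01
    refine (((hcob.zsmul p).add h3).mono hNN₀).congr fun g hg k hk => ?_
    rw [partialNm_of_fixed σ₁ p (ha σ₁ h₁.σ_mem)]
    simp only [Pi.add_apply, Pi.smul_apply, Pi.sub_apply, carryCoc_apply, smul_sub, natCast_zsmul]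
    have : carry p e₁ g k • p • a = p • carry p e₁ g k • a := by
      rw [← mul_smul, ← mul_smul, mul_comm]
    rw [this]
    abel
  by_cases hcase : normG A σ₂ p N₂ ≤ normG A σ₁ p N₁
  swap
  · exact ⟨N₀, hN₀, h02, H.key hp hM hN₀ (le_inf h02 h01) h₂ h₁ hcase hz hi0
      (hc0.mono_left inf_le_right) (hpz N₀ le_rfl)⟩
  · obtain ⟨a₁, ha₁, ha₁n, -⟩ := H.normIdx M N₁ σ₁ e₁ hM ⟨N₀, hN₀, h01⟩ h₁
    obtain ⟨N₃, σ₃, e₃, ⟨Nc, hNc, hNcN₃⟩, h₃, ha₁3⟩ := H.kummer M hM ⟨N₀, hN₀, h0M⟩ a₁ ha₁ (by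
      intro b hb hab
      exact ha₁n (hab ▸ h₁.nsmul_mem_normG hb))
    obtain ⟨N₀', hN₀', h00, h0c⟩ := H.exists_le₂ hN₀ hNc
    have h03 : N₀' ≤ N₃ := h0c.trans hNcN₃
    have hne31 : ¬ normG A σ₃ p N₃ ≤ normG A σ₁ p N₁ := fun hle => ha₁n (hle ha₁3)
    have hc3 : CobOn₂ N₃ N₀' z := H.key hp hM hN₀' (le_inf h03 (h00.trans h01)) h₃ h₁ hne31 hz
      (hi0.mono h00) ((hc0.mono h00).mono_left inf_le_right) (hpz N₀' h00)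
    have hne23 : ¬ normG A σ₂ p N₂ ≤ normG A σ₃ p N₃ := by
      intro hle
      have h32 := H.normG_le_of_le hp hM ⟨N₀, hN₀, h02⟩ ⟨N₀', hN₀', h03⟩ h₂ h₃ hle
      exact ha₁n (hcase (h32 ha₁3))
    exact ⟨N₀', hN₀', h00.trans h02, H.key hp hM hN₀' (le_inf (h00.trans h02) h03) h₂ h₃ hne23 hz
      (hi0.mono h00) (hc3.mono_left inf_le_right) (hpz N₀' h00)⟩

/-- **Two-step lemma.**  A `p`-torsion class of `U` split by the bottom of a two-step tower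
`U ⊇ U₁ ⊇ U₂` is split by `U₁`. -/
theorem two_step (hp : p.Prime) (H : LineHyp A p D lev) {U U₁ U₂ : Subgroup Γ} {σ₁ σ₂ : Γ}
    {e₁ e₂ : Γ → ℕ} (hU : U ≤ D) (h₁ : CycData U U₁ p σ₁ e₁) (h₂ : CycData U₁ U₂ p σ₂ e₂)
    (hl : ∃ N ∈ lev, N ≤ U₂) {z : Γ × Γ → A} (hz : CocOn₂ U z) (hi : LevInfl lev U z)
    (hpz : LevCob lev U ((p : ℤ) • z)) (hres : LevCob lev U₂ z) : LevCob lev U₁ z := by
  have hU₁U := h₁.normal.le
  have hU₂U₁ := h₂.normal.le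
  obtain ⟨Nl, hNl, hNlU₂⟩ := hl
  have hl₁ : ∃ N ∈ lev, N ≤ U₁ := ⟨Nl, hNl, hNlU₂.trans hU₂U₁⟩
  obtain ⟨a₁, ha₁, ha₁n, -⟩ := H.normIdx U U₁ σ₁ e₁ hU hl₁ h₁
  obtain ⟨N₃, σ₃, e₃, ⟨Nc, hNc, hNcN₃⟩, h₃, ha₁3⟩ :=
    H.kummer U hU ⟨Nl, hNl, (hNlU₂.trans hU₂U₁).trans hU₁U⟩ a₁ ha₁ (by
      intro b hb hab
      exact ha₁n (hab ▸ h₁.nsmul_mem_normG hb))
  have hl₃ : ∃ N ∈ lev, N ≤ N₃ := ⟨Nc, hNc, hNcN₃⟩
  have hne31 : ¬ normG A σ₃ p N₃ ≤ normG A σ₁ p U₁ := fun hle => ha₁n (hle ha₁3)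
  have hne13 : ¬ normG A σ₁ p U₁ ≤ normG A σ₃ p N₃ :=
    fun hle => hne31 (H.normG_le_of_le hp hU hl₁ hl₃ h₁ h₃ hle)
  have hN31 : N₃ ≠ U₁ := by
    rintro rfl
    exact hne31 (le_of_eq (h₁.normG_indep h₃ hp))
  obtain ⟨τ, hτU₁, hτN₃⟩ := h₃.exists_mem_not_mem h₁ hp hN31
  obtain ⟨e₃', h₃'⟩ := h₃.exists_of_not_mem hp (hU₁U hτU₁) hτN₃
  have hc : CycData U₁ (U₁ ⊓ N₃) p τ e₃' := h₃'.restrict U₁ hU₁U hτU₁
  obtain ⟨Nd, hNd, hd1, hd2⟩ := H.exists_le₂ hNl hNc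
  have hl13 : ∃ N ∈ lev, N ≤ U₁ ⊓ N₃ :=
    ⟨Nd, hNd, le_inf (hd1.trans (hNlU₂.trans hU₂U₁)) (hd2.trans hNcN₃)⟩
  have hi₁ : LevInfl lev U₁ z := hi.res H hU₁U hl₁
  have hs : LevCob lev (U₁ ⊓ N₃) z :=
    H.step_indep hp (hU₁U.trans hU) h₂ hc hl13 (hz.mono hU₁U) hi₁ hres
  obtain ⟨Ns, hNs, hNs13, hcs⟩ := hs
  obtain ⟨Nz, hNz, hNzU, hiz⟩ := hi
  obtain ⟨Np, hNp, hNpU, hcp⟩ := hpz
  obtain ⟨N₀, hN₀, h0s, h0z, h0p⟩ := H.exists_le₃ hNs hNz hNp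
  refine ⟨N₀, hN₀, (h0s.trans hNs13).trans inf_le_left, ?_⟩
  exact H.key hp hU hN₀ (h0s.trans hNs13) h₁ h₃ hne13 hz (hiz.mono h0z) (hcs.mono h0s)
    (hcp.mono h0p)

/-- **Towers.**  If `[U : N₀] = p^(n+1)` and the `p`-torsion class `z` of `U` is split by `N₀`,
it is split by some cyclic step of `U`. -/
theorem exists_step (hp : p.Prime) (H : LineHyp A p D lev) (n : ℕ) :
    ∀ {U N₀ : Subgroup Γ}, U ≤ D → N₀ ∈ lev → N₀ ≤ U → N₀.relIndex U = p ^ (n + 1) →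
    ∀ {z : Γ × Γ → A}, CocOn₂ U z → LevInfl lev U z → LevCob lev U ((p : ℤ) • z) →
    LevCob lev N₀ z →
    ∃ (V : Subgroup Γ) (σ : Γ) (e : Γ → ℕ), N₀ ≤ V ∧ CycData U V p σ e ∧ LevCob lev V z := by
  induction n with
  | zero =>
    intro U N₀ hU hN₀ h0 hidx z hz hi hpz hres
    obtain ⟨σ, e, h⟩ := exists_cycData_of_relIndex_prime (H.normalIn hN₀ h0 hU) hp
      (by simpa using hidx)
    exact ⟨N₀, σ, e, le_rfl, h, hres⟩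
  | succ n ih =>
    intro U N₀ hU hN₀ h0 hidx z hz hi hpz hres
    obtain ⟨V, hNV, hVn, hVidx, hNVidx⟩ :=
      exists_between_of_index_prime_pow (H.normalIn hN₀ h0 hU) hp hidx
    obtain ⟨σ, e, h⟩ := exists_cycData_of_relIndex_prime hVn hp hVidx
    have hVU := hVn.le
    have hlV : ∃ N ∈ lev, N ≤ V := ⟨N₀, hN₀, hNV⟩
    obtain ⟨W, σ', e', hNW, h', hW⟩ := ih (hVU.trans hU) hN₀ hNV hNVidx (hz.mono hVU)
      (hi.res H hVU hlV) (hpz.res H hVU hlV) hres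
    exact ⟨V, σ, e, hNV, h, H.two_step hp hU h h' ⟨N₀, hN₀, hNW⟩ hz hi hpz hW⟩

/-- **The lines theorem.**  Two `p`-torsion level 2-classes of an open subgroup `M₀` are linearly
dependent modulo `p`. -/
theorem lines_main (hp : p.Prime) (H : LineHyp A p D lev) {M₀ : Subgroup Γ} (hM₀ : M₀ ≤ D)
    {z₁ z₂ : Γ × Γ → A} (hz₁ : CocOn₂ M₀ z₁) (hz₂ : CocOn₂ M₀ z₂)
    (hi₁ : LevInfl lev M₀ z₁) (hi₂ : LevInfl lev M₀ z₂)
    (hp₁ : LevCob lev M₀ ((p : ℤ) • z₁)) (hp₂ : LevCob lev M₀ ((p : ℤ) • z₂)) :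
    ∃ c₁ c₂ : ℤ, ¬ ((p : ℤ) ∣ c₁ ∧ (p : ℤ) ∣ c₂) ∧ LevCob lev M₀ (c₁ • z₁ + c₂ • z₂) := by
  have hp1 : ¬ (p : ℤ) ∣ 1 := by
    intro h
    have h1 : p ∣ 1 := Int.natCast_dvd_natCast.mp (by simpa using h)
    exact hp.one_lt.ne' (Nat.dvd_one.mp h1)
  obtain ⟨Na, hNa, hNaM, hia⟩ := id hi₁
  obtain ⟨Nb, hNb, hNbM, hib⟩ := id hi₂
  obtain ⟨N₀, hN₀, h0a, h0b⟩ := H.exists_le₂ hNa hNb
  have h0M : N₀ ≤ M₀ := h0a.trans hNaM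
  have hn0 : NormalIn N₀ M₀ := H.normalIn hN₀ h0M hM₀
  have hfin : N₀.relIndex M₀ ≠ 0 :=
    fun h0 => H.fin N₀ hN₀ (Subgroup.relIndex_eq_zero_of_le_right hM₀ h0)
  obtain ⟨P, n, h0P, hPM, hPidx, hcop⟩ := exists_sylow_between hn0 hp hfin
  have hPD : P ≤ D := hPM.trans hM₀
  have hlP : ∃ N ∈ lev, N ≤ P := ⟨N₀, hN₀, h0P⟩
  -- Sylow step
  have finish : ∀ c₁ c₂ : ℤ, LevCob lev P (c₁ • z₁ + c₂ • z₂) →
      LevCob lev M₀ (c₁ • z₁ + c₂ • z₂) := by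
    intro c₁ c₂ hP
    obtain ⟨N₁, hN₁, hN₁P, hc₁⟩ := hP
    obtain ⟨Np₁, hNp₁, -, hcp₁⟩ := hp₁
    obtain ⟨Np₂, hNp₂, -, hcp₂⟩ := hp₂
    obtain ⟨N', hN', h1, h2, h3, h4⟩ := H.exists_le₄ hN₁ hNp₁ hNp₂ hN₀
    have hN'M : N' ≤ M₀ := h4.trans h0M
    refine ⟨N', hN', hN'M, ?_⟩
    refine cobOn₂_of_res_of_coprime (H.normalIn hN' hN'M hM₀) (h1.trans hN₁P) hPM
      ((hz₁.zsmul c₁).add (hz₂.zsmul c₂))
      ((((hia.mono h0a).zsmul c₁).add ((hib.mono h0b).zsmul c₂)).mono h4) (hc₁.mono h1) p ?_ hcop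
    refine (((hcp₁.mono h2).zsmul c₁).add ((hcp₂.mono h3).zsmul c₂)).congr fun g _ k _ => ?_
    simp only [Pi.smul_apply, Pi.add_apply, smul_add]
    rw [smul_comm (p : ℤ) c₁, smul_comm (p : ℤ) c₂]
  have hres₁ : LevCob lev N₀ z₁ := ⟨N₀, hN₀, le_rfl, cobOn₂_self_of_inflOn₂ (hia.mono h0a)⟩
  have hres₂ : LevCob lev N₀ z₂ := ⟨N₀, hN₀, le_rfl, cobOn₂_self_of_inflOn₂ (hib.mono h0b)⟩
  cases n with
  | zero =>
    rw [pow_zero, Subgroup.relIndex_eq_one] at hPidx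
    refine ⟨1, 0, fun h => hp1 h.1, finish 1 0 ?_⟩
    obtain ⟨N, hN, hNN₀, hc⟩ := hres₁
    refine ⟨N, hN, hNN₀.trans h0P, (hc.mono_left hPidx).congr fun g _ k _ => ?_⟩
    simp
  | succ m =>
    obtain ⟨V₁, σ₁, e₁, h0V₁, h₁, hW₁⟩ := H.exists_step hp m hPD hN₀ h0P hPidx (hz₁.mono hPM)
      (hi₁.res H hPM hlP) (hp₁.res H hPM hlP) hres₁
    obtain ⟨V₂, σ₂, e₂, h0V₂, h₂, hW₂'⟩ := H.exists_step hp m hPD hN₀ h0P hPidx (hz₂.mono hPM)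
      (hi₂.res H hPM hlP) (hp₂.res H hPM hlP) hres₂
    have hlV₁ : ∃ N ∈ lev, N ≤ V₁ := ⟨N₀, hN₀, h0V₁⟩
    have hW₂ : LevCob lev V₁ z₂ :=
      H.step_indep hp hPD h₂ h₁ hlV₁ (hz₂.mono hPM) (hi₂.res H hPM hlP) hW₂'
    obtain ⟨Nc₁, hNc₁, hNc₁V, hc₁⟩ := hW₁
    obtain ⟨Nc₂, hNc₂, hNc₂V, hc₂⟩ := hW₂
    obtain ⟨N', hN', h1, h2, h3⟩ := H.exists_le₃ hNc₁ hNc₂ hN₀
    have hN'V : N' ≤ V₁ := h1.trans hNc₁V
    have hV₁P := h₁.normal.le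
    have hN'P : N' ≤ P := hN'V.trans hV₁P
    have hn' : NormalIn N' P := H.normalIn hN' hN'P hPD
    have hH : H90On A V₁ N' := H.h90 N' hN' V₁ hN'V (hV₁P.trans hPD)
    obtain ⟨a₁, ha₁, hcob₁⟩ := h₁.exists_carryCoc_of_res_cob hn' hN'V hH (hz₁.mono hPM)
      (((hia.mono h0a).mono h3).mono_left hPM) (hc₁.mono h1)
    obtain ⟨a₂, ha₂, hcob₂⟩ := h₁.exists_carryCoc_of_res_cob hn' hN'V hH (hz₂.mono hPM)
      (((hib.mono h0b).mono h3).mono_left hPM) (hc₂.mono h2)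
    obtain ⟨a₀, ha₀, -, hI⟩ := H.normIdx P V₁ σ₁ e₁ hPD hlV₁ h₁
    obtain ⟨y₁, hy₁, n₁, hn₁, hsum₁⟩ := AddSubgroup.mem_sup.mp (hI ha₁)
    obtain ⟨k₁, rfl⟩ := AddSubgroup.mem_zmultiples_iff.mp hy₁
    obtain ⟨y₂, hy₂, n₂, hn₂, hsum₂⟩ := AddSubgroup.mem_sup.mp (hI ha₂)
    obtain ⟨k₂, rfl⟩ := AddSubgroup.mem_zmultiples_iff.mp hy₂
    have core : ∀ c₁ c₂ : ℤ, (p : ℤ) ∣ c₁ * k₁ + c₂ * k₂ →
        LevCob lev P (c₁ • z₁ + c₂ • z₂) := by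
      intro c₁ c₂ hdvd
      have hmem : c₁ • a₁ + c₂ • a₂ ∈ normG A σ₁ p V₁ := by
        obtain ⟨t, ht⟩ := hdvd
        have e1 : c₁ • a₁ + c₂ • a₂ = t • (p • a₀) + (c₁ • n₁ + c₂ • n₂) := by
          rw [← hsum₁, ← hsum₂, ← natCast_zsmul a₀ p, ← mul_smul, mul_comm t, ← ht]
          simp only [smul_add, add_smul, mul_smul]
          abel
        rw [e1]
        exact add_mem (zsmul_mem (h₁.nsmul_mem_normG ha₀) t)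
          (add_mem (zsmul_mem hn₁ c₁) (zsmul_mem hn₂ c₂))
      obtain ⟨b, hb, hbe⟩ := mem_normG.mp hmem
      have h5 : CobOn₂ P N' (carryCoc p e₁ (c₁ • a₁ + c₂ • a₂)) := by
        rw [hbe]
        exact (h₁.cobOn₂_carryCoc_Nm hb).mono hN'V
      refine ⟨N', hN', hN'P, (((hcob₁.zsmul c₁).add (hcob₂.zsmul c₂)).add h5).congr
        fun g _ k _ => ?_⟩
      rw [carryCoc_add, carryCoc_zsmul, carryCoc_zsmul]
      simp only [Pi.add_apply, Pi.smul_apply, Pi.sub_apply, smul_sub]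
      abel
    by_cases hk₁ : (p : ℤ) ∣ k₁
    · refine ⟨1, 0, fun h => hp1 h.1, finish 1 0 (core 1 0 ?_)⟩
      simpa using hk₁
    · refine ⟨k₂, -k₁, fun h => hk₁ ((dvd_neg).mp h.2), finish k₂ (-k₁) (core k₂ (-k₁) ?_)⟩
      have : k₂ * k₁ + -k₁ * k₂ = 0 := by ring
      rw [this]
      exact dvd_zero _

/-- Existence of a non-trivial `p`-torsion level class on an open subgroup having a cyclic step
of degree `p`. -/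
theorem exists_nontrivial (H : LineHyp A p D lev) {M₀ V : Subgroup Γ} (hM₀ : M₀ ≤ D)
    {σ : Γ} {e : Γ → ℕ} (hV : ∃ N ∈ lev, N ≤ V) (h : CycData M₀ V p σ e) :
    ∃ z : Γ × Γ → A, CocOn₂ M₀ z ∧ LevInfl lev M₀ z ∧ LevCob lev M₀ ((p : ℤ) • z) ∧
      ¬ LevCob lev M₀ z := by
  obtain ⟨a₀, ha₀, ha₀n, -⟩ := H.normIdx M₀ V σ e hM₀ hV h
  obtain ⟨N, hN, hNV⟩ := hV
  have hVM := h.normal.le
  refine ⟨carryCoc p e a₀, h.cocOn₂_carryCoc ha₀,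
    ⟨N, hN, hNV.trans hVM, (h.inflOn₂_carryCoc ha₀).mono hNV⟩, ?_, ?_⟩
  · refine ⟨N, hN, hNV.trans hVM, ?_⟩
    have h3 : CobOn₂ M₀ N (carryCoc p e (partialNm σ p a₀)) :=
      (h.cobOn₂_carryCoc_Nm (fun n hn => ha₀ n (hVM hn))).mono hNV
    refine h3.congr fun g _ k _ => ?_
    rw [partialNm_of_fixed σ p (ha₀ σ h.σ_mem)]
    simp only [Pi.smul_apply, carryCoc_apply, natCast_zsmul]
    rw [← mul_smul, ← mul_smul, mul_comm]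
  · rintro ⟨N', hN', -, hc⟩
    obtain ⟨N'', hN'', h1, h2⟩ := H.exists_le₂ hN' hN
    have h4 := (h.cobOn₂_carryCoc_iff (h2.trans hNV)
      (H.h90 N'' hN'' V (h2.trans hNV) (hVM.trans hM₀)) ha₀).mp (hc.mono h1)
    exact ha₀n (mem_normG.mpr h4)

end LineHyp

end Fermat.Agent.PT.Br
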