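/-
PT / BR layer: the results of `Br/InfRes` and `Br/Cyclic` restated in Mathlib's multiplicative
low-degree vocabulary (`IsMulCocycle₂`, `IsMulCoboundary₂`, `IsMulCocycle₁`, `IsMulCoboundary₁`)
for a group `G` acting on a commutative group `A` (`MulDistribMulAction G A`) and a normal
subgroup `N` — the finite-level form used for `G = Gal(L/K)`, `A = Lˣ`.
-/
import Fermat.Agent.PT.Br.Cyclic

set_option autoImplicit false

namespace Fermat.Agent.PT.Br

open groupCohomology Finset

namespace MulBridge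

variable {G A : Type*} [Group G] [CommGroup A] [MulDistribMulAction G A]

/-- The additive action on `Additive A` induced by a `MulDistribMulAction`. -/
@[reducible] def additiveAction : DistribMulAction G (Additive A) where
  smul g a := Additive.ofMul (g • a.toMul)
  one_smul a := by change Additive.ofMul ((1 : G) • a.toMul) = a; rw [one_smul]; rfl
  mul_smul g h a := by
    change Additive.ofMul ((g * h) • a.toMul) = Additive.ofMul (g • (h • a.toMul))
    rw [mul_smul]
  smul_zero g := by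
    change Additive.ofMul (g • (1 : A)) = Additive.ofMul 1
    rw [smul_one]
  smul_add g a b := by
    change Additive.ofMul (g • (a.toMul * b.toMul)) =
      Additive.ofMul (g • a.toMul * g • b.toMul)
    rw [smul_mul']

attribute [local instance] additiveAction

lemma smul_ofMul (g : G) (a : A) : g • Additive.ofMul a = Additive.ofMul (g • a) := rfl

/-- Additive version of a multiplicative 2-cochain. -/
def toAdd₂ (c : G × G → A) : G × G → Additive A := fun x => Additive.ofMul (c x)

lemma cocOn₂_toAdd₂ {c : G × G → A} (hc : IsMulCocycle₂ c) : CocOn₂ (⊤ : Subgroup G) (toAdd₂ c) := by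
  intro g _ h _ j _
  change Additive.ofMul (c (g * h, j) * c (g, h)) = Additive.ofMul (g • c (h, j) * c (g, h * j))
  rw [hc g h j]

lemma isMulCocycle₂_of_cocOn₂ {c : G × G → A} (hc : CocOn₂ (⊤ : Subgroup G) (toAdd₂ c)) :
    IsMulCocycle₂ c := by
  intro g h j
  have := hc g trivial h trivial j trivial
  exact Additive.ofMul.injective this

lemma isMulCoboundary₂_iff_cobOn₂ {c : G × G → A} :
    IsMulCoboundary₂ c ↔ CobOn₂ (⊤ : Subgroup G) ⊥ (toAdd₂ c) := by
  constructor
  · rintro ⟨x, hx⟩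
    refine ⟨fun g => Additive.ofMul (x g), ⟨fun g _ n hn => ?_, fun g _ n hn => ?_⟩,
      fun g _ h _ => ?_⟩
    · rw [Subgroup.mem_bot] at hn; rw [hn, mul_one]
    · rw [Subgroup.mem_bot] at hn; rw [hn, one_smul]
    · change Additive.ofMul (c (g, h)) = Additive.ofMul (g • x h / x (g * h) * x g)
      rw [hx g h]
  · rintro ⟨f, -, hf⟩
    refine ⟨fun g => (f g).toMul, fun g h => ?_⟩
    have := hf g trivial h trivial
    exact (Additive.ofMul.injective this).symm

/-- Hilbert 90 for `N` in Mathlib's vocabulary gives `H90On` at the trivial level. -/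
lemma h90On_of_mul (N : Subgroup G)
    (hH : ∀ u : N → A, IsMulCocycle₁ u → IsMulCoboundary₁ u) :
    H90On (Additive A) N ⊥ := by
  intro u hu _
  have h1 : IsMulCocycle₁ (fun n : N => (u (n : G)).toMul) := by
    intro g h
    have := hu g g.2 h h.2
    exact congrArg Additive.toMul this
  obtain ⟨x, hx⟩ := hH _ h1
  refine ⟨Additive.ofMul x, fun n hn => ?_⟩
  have := hx ⟨n, hn⟩
  exact (congrArg Additive.ofMul this).symm

lemma cobOn₂_of_res_mul (N : Subgroup G) {c : G × G → A}
    (hres : IsMulCoboundary₂ (fun x : N × N => c ((x.1 : G), (x.2 : G)))) :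
    CobOn₂ N ⊥ (toAdd₂ c) := by
  classical
  obtain ⟨x, hx⟩ := hres
  refine ⟨fun g => if h : g ∈ N then Additive.ofMul (x ⟨g, h⟩) else 0,
    ⟨fun g _ n hn => ?_, fun g _ n hn => ?_⟩, fun g hg h hh => ?_⟩
  · rw [Subgroup.mem_bot] at hn; subst hn; simp
  · rw [Subgroup.mem_bot] at hn; subst hn; simp
  · have := hx ⟨g, hg⟩ ⟨h, hh⟩
    simp only [d1_apply, dif_pos hg, dif_pos hh, dif_pos (N.mul_mem hg hh)]
    exact (congrArg Additive.ofMul this).symm

/-- **BR2 in Mathlib's vocabulary.**  `N` normal in `G` with Hilbert 90; a 2-cocycle `c` of `G`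
whose restriction to `N` is a coboundary is cohomologous to a cocycle `c'` inflated from `G/N`
(right-`N`-invariant in both variables, with `N`-fixed values). -/
theorem exists_inflated_of_res_coboundary (N : Subgroup G) [N.Normal]
    (hH : ∀ u : N → A, IsMulCocycle₁ u → IsMulCoboundary₁ u)
    (c : G × G → A) (hc : IsMulCocycle₂ c)
    (hres : IsMulCoboundary₂ (fun x : N × N => c ((x.1 : G), (x.2 : G)))) :
    ∃ c' : G × G → A, IsMulCocycle₂ c' ∧ IsMulCoboundary₂ (fun x => c x / c' x) ∧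
      (∀ g k : G, ∀ n ∈ N, ∀ n' ∈ N, c' (g * n, k * n') = c' (g, k)) ∧
      (∀ g k : G, ∀ n ∈ N, n • c' (g, k) = c' (g, k)) := by
  have hN : NormalIn N (⊤ : Subgroup G) := NormalIn.of_normal N
  have hi : InflOn₂ (⊤ : Subgroup G) ⊥ (toAdd₂ c) :=
    inflOn₂_of_rinv (NormalIn.bot _) (cocOn₂_toAdd₂ hc) (fun g _ k _ n hn n' hn' => by
      rw [Subgroup.mem_bot] at hn hn'; rw [hn, hn', mul_one, mul_one])
  obtain ⟨h, hh, hinf, hcoc⟩ := exists_inflOn₂_sub_d1 hN (NormalIn.bot _) bot_le
    (h90On_of_mul N hH) (cocOn₂_toAdd₂ hc) hi (cobOn₂_of_res_mul N hres)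
  refine ⟨fun x => ((toAdd₂ c - d1 h) x).toMul, isMulCocycle₂_of_cocOn₂ hcoc, ?_,
    fun g k n hn n' hn' => ?_, fun g k n hn => ?_⟩
  · refine ⟨fun g => (h g).toMul, fun g k => ?_⟩
    apply Additive.ofMul.injective
    change d1 h (g, k) = toAdd₂ c (g, k) - (toAdd₂ c - d1 h) (g, k)
    simp only [Pi.sub_apply]; abel
  · exact congrArg Additive.toMul (hinf.1 g trivial k trivial n hn n' hn')
  · exact congrArg Additive.toMul (hinf.2 g trivial k trivial n hn)

/-- **BR2 + BR3 in Mathlib's vocabulary.**  `G/N` cyclic of order `m` generated by `σ`, Hilbert 90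
for `N`; a 2-cocycle `c` of `G` whose restriction to `N` is a coboundary is cohomologous to the
carry cocycle `a ^ ((e g + e h) / m)` of a `G`-fixed element `a`. -/
theorem exists_carry_of_res_coboundary (N : Subgroup G) [N.Normal] (σ : G) (m : ℕ) (hm : 1 < m)
    (hgen : ∀ g : G, ∃ i : ℕ, (σ ^ i)⁻¹ * g ∈ N) (hord : ∀ i : ℕ, σ ^ i ∈ N ↔ m ∣ i)
    (hH : ∀ u : N → A, IsMulCocycle₁ u → IsMulCoboundary₁ u)
    (c : G × G → A) (hc : IsMulCocycle₂ c)
    (hres : IsMulCoboundary₂ (fun x : N × N => c ((x.1 : G), (x.2 : G)))) :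
    ∃ (e : G → ℕ) (a : A), CycData (⊤ : Subgroup G) N m σ e ∧ (∀ g : G, g • a = a) ∧
      IsMulCoboundary₂ (fun x : G × G => c x / a ^ carry m e x.1 x.2) := by
  have hN : NormalIn N (⊤ : Subgroup G) := NormalIn.of_normal N
  obtain ⟨e, he⟩ := CycData.exists_of_gen hN (Subgroup.mem_top σ) hm (fun g _ => hgen g) hord
  have hi : InflOn₂ (⊤ : Subgroup G) ⊥ (toAdd₂ c) :=
    inflOn₂_of_rinv (NormalIn.bot _) (cocOn₂_toAdd₂ hc) (fun g _ k _ n hn n' hn' => by
      rw [Subgroup.mem_bot] at hn hn'; rw [hn, hn', mul_one, mul_one])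
  obtain ⟨a, ha, hcob⟩ := he.exists_carryCoc_of_res_cob (NormalIn.bot _) bot_le
    (h90On_of_mul N hH) (cocOn₂_toAdd₂ hc) hi (cobOn₂_of_res_mul N hres)
  refine ⟨e, a.toMul, he, fun g => congrArg Additive.toMul (ha g trivial), ?_⟩
  rw [isMulCoboundary₂_iff_cobOn₂]
  refine hcob.congr fun g _ k _ => ?_
  change Additive.ofMul (c (g, k) / a.toMul ^ carry m e g k) =
    toAdd₂ c (g, k) - carry m e g k • a
  rw [ofMul_div, ofMul_pow]; rfl

/-- The carry cocycle of a norm is a coboundary (Mathlib's vocabulary). -/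
theorem isMulCoboundary₂_carry_norm {N : Subgroup G} {σ : G} {m : ℕ} {e : G → ℕ}
    (he : CycData (⊤ : Subgroup G) N m σ e) {b : A} (hb : ∀ n ∈ N, n • b = b) :
    IsMulCoboundary₂ (fun x : G × G => (∏ i ∈ range m, σ ^ i • b) ^ carry m e x.1 x.2) := by
  rw [isMulCoboundary₂_iff_cobOn₂]
  have hb' : ∀ n ∈ N, n • Additive.ofMul b = Additive.ofMul b := fun n hn =>
    congrArg Additive.ofMul (hb n hn)
  refine ((he.cobOn₂_carryCoc_Nm hb').mono bot_le).congr fun g _ k _ => ?_
  change Additive.ofMul ((∏ i ∈ range m, σ ^ i • b) ^ carry m e g k) =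
    carry m e g k • partialNm σ m (Additive.ofMul b)
  rw [ofMul_pow, partialNm, ofMul_prod]; rfl

/-- Conversely, if the carry cocycle of a `G`-fixed `a` is a coboundary (and Hilbert 90 holds for
`N`), then `a` is a norm of an `N`-fixed element. -/
theorem exists_norm_of_isMulCoboundary₂_carry {N : Subgroup G} {σ : G} {m : ℕ} {e : G → ℕ}
    (he : CycData (⊤ : Subgroup G) N m σ e)
    (hH : ∀ u : N → A, IsMulCocycle₁ u → IsMulCoboundary₁ u) {a : A} (ha : ∀ g : G, g • a = a)
    (hc : IsMulCoboundary₂ (fun x : G × G => a ^ carry m e x.1 x.2)) :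
    ∃ b : A, (∀ n ∈ N, n • b = b) ∧ a = ∏ i ∈ range m, σ ^ i • b := by
  rw [isMulCoboundary₂_iff_cobOn₂] at hc
  have ha' : ∀ g ∈ (⊤ : Subgroup G), g • Additive.ofMul a = Additive.ofMul a := fun g _ =>
    congrArg Additive.ofMul (ha g)
  have hc' : CobOn₂ (⊤ : Subgroup G) ⊥ (carryCoc m e (Additive.ofMul a)) :=
    hc.congr fun g _ k _ => by
      change carry m e g k • Additive.ofMul a = Additive.ofMul (a ^ carry m e g k)
      rw [ofMul_pow]
  obtain ⟨b, hb, hab⟩ := (he.cobOn₂_carryCoc_iff bot_le (h90On_of_mul N hH) ha').1 hc'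
  refine ⟨b.toMul, fun n hn => congrArg Additive.toMul (hb n hn), ?_⟩
  have := congrArg Additive.toMul hab
  rw [partialNm, toMul_sum] at this
  exact this

end MulBridge

end Fermat.Agent.PT.Br
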