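/-
PT / BR layer: the concrete instance `Γ = G_ℚ = Gal(ℚ̄/ℚ)`, `A = Additive ℚ̄ˣ`.

* the action (`MulBridge.additiveAction`), `smul_ofMul_val`;
* `h90On_fixingSubgroup`, `h90On_of_isClosed` : Hilbert 90 (`H90On`) for closed subgroups, at every
  finite level (from `Kummer.hilbert90_units`);
* `isClosed_of_between` : a subgroup between `Δ ⊓ G_F` and a closed `Δ` is closed;
* `isLev_levD_iff` : the ambient levels of `Bridge.levD Δ` are the `Δ ⊓ G_F`, `F/ℚ` finite Galois;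
* `exists_root_level` : `p`-divisibility of `ℚ̄ˣ` with levels;
* `zetaHom` : `ℤ/p → A`, `c ↦ ζ ^ c`; injective, onto `A[p]`, equivariant for the cyclotomic
  character.
-/
import Fermat.Agent.PT.Br.Final
import Fermat.Agent.PT.Br.Lines
import Fermat.Agent.PT.Br.MulBridge
import Fermat.Agent.PT.G.KumH90
import Fermat.Agent.PT.G.DecompBasic
import Fermat.Agent.CFT.Red.CycloExp

set_option autoImplicit false
set_option linter.unusedSectionVars false

namespace Fermat.Agent.PT.Br.Conc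

open Fermat.Agent.PT Fermat.Agent.PT.Bridge Fermat.Agent.PT.Br ExtCitation

local notation "Qb" => AlgebraicClosure ℚ
local notation "GQ" => (AlgebraicClosure ℚ ≃ₐ[ℚ] AlgebraicClosure ℚ)

attribute [local instance] MulBridge.additiveAction
attribute [local instance] Fermat.Agent.Lib.GalQbar.isAlgClosure_rat
  Fermat.Agent.Lib.GalQbar.isGalois_rat Fermat.Agent.Lib.GalQbar.isAlgebraic_rat

/-! ### The action -/

lemma smul_ofMul (g : GQ) (a : Qbˣ) :
    g • (Additive.ofMul a : Additive Qbˣ) = Additive.ofMul (g • a) := rfl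

lemma toMul_smul (g : GQ) (a : Additive Qbˣ) : (g • a).toMul = g • a.toMul := rfl

lemma val_smul (g : GQ) (a : Qbˣ) : ((g • a : Qbˣ) : Qb) = g (a : Qb) := rfl

/-- an element of `A` is fixed by `g` iff the underlying element of `ℚ̄` is -/
lemma smul_eq_iff (g : GQ) (a : Additive Qbˣ) : g • a = a ↔ g (a.toMul : Qb) = (a.toMul : Qb) := by
  constructor
  · intro h
    have := congrArg (fun x : Additive Qbˣ => ((x.toMul : Qbˣ) : Qb)) h
    exact this
  · intro h
    have : g • a.toMul = a.toMul := Units.ext h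
    exact congrArg Additive.ofMul this

/-! ### Hilbert 90 -/

/-- Hilbert 90 for `Gal(ℚ̄/E)` at any level containing `Gal(ℚ̄/E) ⊓ Gal(ℚ̄/F)`, `F/ℚ` finite. -/
theorem h90On_fixingSubgroup (E F : IntermediateField ℚ Qb) [FiniteDimensional ℚ F]
    (N₀ : Subgroup GQ) (hN₀ : E.fixingSubgroup ⊓ F.fixingSubgroup ≤ N₀) :
    H90On (Additive Qbˣ) E.fixingSubgroup N₀ := by
  intro u hu hr
  obtain ⟨b, hb⟩ := Kummer.hilbert90_units E (fun g => (u g).toMul)
    (fun g hg h hh => by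
      have := congrArg Additive.toMul (hu g hg h hh)
      rw [toMul_add, toMul_smul, mul_comm] at this
      exact this) F
    (fun g hg s hs hsF => congrArg Additive.toMul (hr g hg s (hN₀ ⟨hs, hsF⟩)))
  refine ⟨Additive.ofMul b, fun n hn => ?_⟩
  have := congrArg Additive.ofMul (hb n hn)
  rw [ofMul_toMul] at this
  rw [this]
  rfl

/-- A subgroup lying between `Δ ⊓ Gal(ℚ̄/F)` (`F/ℚ` finite) and a closed subgroup `Δ` is
closed. -/
theorem isClosed_of_between {Δ M : Subgroup GQ} (hΔ : IsClosed (Δ : Set GQ)) (hM : M ≤ Δ)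
    (F : IntermediateField ℚ Qb) [FiniteDimensional ℚ F] (hF : Δ ⊓ F.fixingSubgroup ≤ M) :
    IsClosed (M : Set GQ) := by
  rw [← isOpen_compl_iff, isOpen_iff_mem_nhds]
  intro x hx
  by_cases hxΔ : x ∈ Δ
  · have hopen : IsOpen (F.fixingSubgroup : Set GQ) := F.fixingSubgroup_isOpen
    have h1 : (F.fixingSubgroup : Set GQ) ∈ nhds (x⁻¹ * x) := by
      rw [inv_mul_cancel]
      exact hopen.mem_nhds (one_mem _)
    have h2 : (fun y : GQ => x⁻¹ * y) ⁻¹' (F.fixingSubgroup : Set GQ) ∈ nhds x :=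
      (continuous_const_mul x⁻¹).continuousAt.preimage_mem_nhds h1
    filter_upwards [h2] with y hy hyM
    have h3 : x⁻¹ * y ∈ Δ := Δ.mul_mem (Δ.inv_mem hxΔ) (hM hyM)
    have h4 : x⁻¹ * y ∈ M := hF ⟨h3, hy⟩
    apply hx
    have : x = y * (x⁻¹ * y)⁻¹ := by group
    show x ∈ M
    rw [this]
    exact M.mul_mem hyM (M.inv_mem h4)
  · have : ((Δ : Set GQ))ᶜ ∈ nhds x := hΔ.isOpen_compl.mem_nhds hxΔ
    filter_upwards [this] with y hy hyM
    exact hy (hM hyM)

/-- Galois correspondence for closed subgroups. -/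
theorem fixingSubgroup_fixedField_of_isClosed {M : Subgroup GQ} (hM : IsClosed (M : Set GQ)) :
    (IntermediateField.fixedField M).fixingSubgroup = M :=
  InfiniteGalois.fixingSubgroup_fixedField (⟨M, hM⟩ : ClosedSubgroup GQ)

/-- Hilbert 90 for a closed subgroup `M` at any level containing `M ⊓ Gal(ℚ̄/F)`. -/
theorem h90On_of_isClosed {M : Subgroup GQ} (hM : IsClosed (M : Set GQ))
    (F : IntermediateField ℚ Qb) [FiniteDimensional ℚ F] (N₀ : Subgroup GQ)
    (hN₀ : M ⊓ F.fixingSubgroup ≤ N₀) : H90On (Additive Qbˣ) M N₀ := by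
  have h := h90On_fixingSubgroup (IntermediateField.fixedField M) F N₀
    (by rw [fixingSubgroup_fixedField_of_isClosed hM]; exact hN₀)
  rwa [fixingSubgroup_fixedField_of_isClosed hM] at h

/-! ### Levels -/

/-- The ambient levels of `levD Δ` are the subgroups `Δ ⊓ Gal(ℚ̄/F)`, `F/ℚ` finite Galois. -/
theorem isLev_levD_iff (Δ N : Subgroup GQ) :
    IsLev Δ (levD Δ) N ↔ ∃ F : IntermediateField ℚ Qb, FiniteDimensional ℚ F ∧ Normal ℚ F ∧
      N = Δ ⊓ F.fixingSubgroup := by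
  constructor
  · rintro ⟨hle, F, hF, hFn, he⟩
    refine ⟨F, hF, hFn, ?_⟩
    ext x
    constructor
    · intro hx
      have h1 : (⟨x, hle hx⟩ : Δ) ∈ N.subgroupOf Δ := Subgroup.mem_subgroupOf.2 hx
      rw [← he] at h1
      exact ⟨hle hx, Subgroup.mem_subgroupOf.1 h1⟩
    · rintro ⟨hxΔ, hxF⟩
      have h1 : (⟨x, hxΔ⟩ : Δ) ∈ F.fixingSubgroup.subgroupOf Δ := Subgroup.mem_subgroupOf.2 hxF
      rw [he] at h1
      exact Subgroup.mem_subgroupOf.1 h1
  · rintro ⟨F, hF, hFn, rfl⟩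
    exact ⟨inf_le_left, F, hF, hFn, (Subgroup.inf_subgroupOf_left _ _).symm⟩

lemma isLev_inf_fixingSubgroup (Δ : Subgroup GQ) (F : IntermediateField ℚ Qb)
    [hF : FiniteDimensional ℚ F] (hFn : Normal ℚ F) : IsLev Δ (levD Δ) (Δ ⊓ F.fixingSubgroup) :=
  (isLev_levD_iff Δ _).2 ⟨F, hF, hFn, rfl⟩

/-- Every finite `F/ℚ` gives an ambient level inside `Δ ⊓ Gal(ℚ̄/F)`. -/
theorem exists_isLev_le (Δ : Subgroup GQ) (F : IntermediateField ℚ Qb) [FiniteDimensional ℚ F] :
    ∃ N, IsLev Δ (levD Δ) N ∧ N ≤ Δ ⊓ F.fixingSubgroup := by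
  obtain ⟨N', hN', hle⟩ := exists_mem_levD_le Δ F
  refine ⟨N'.map Δ.subtype, isLev_map hN', ?_⟩
  rintro _ ⟨y, hy, rfl⟩
  exact ⟨y.2, Subgroup.mem_subgroupOf.1 (hle hy)⟩

/-- Hilbert 90 for a closed `Δ` at every ambient level. -/
theorem h90On_isLev {Δ : Subgroup GQ} (hΔ : IsClosed (Δ : Set GQ)) (N : Subgroup GQ)
    (hN : IsLev Δ (levD Δ) N) : H90On (Additive Qbˣ) Δ N := by
  obtain ⟨F, hF, -, rfl⟩ := (isLev_levD_iff Δ N).1 hN
  exact h90On_of_isClosed hΔ F _ le_rfl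

/-! ### Divisibility -/

/-- `ℚ̄ˣ` is `p`-divisible, and the root is fixed by a level. -/
theorem exists_root_level (Δ : Subgroup GQ) (p : ℕ) (hp : 0 < p) (β : Additive Qbˣ) :
    ∃ (γ : Additive Qbˣ) (N : Subgroup GQ), p • γ = β ∧ IsLev Δ (levD Δ) N ∧
      ∀ n ∈ N, n • γ = γ := by
  obtain ⟨c, hc⟩ := IsAlgClosed.exists_pow_nat_eq ((β.toMul : Qbˣ) : Qb) hp
  have hc0 : c ≠ 0 := by
    rintro rfl
    rw [zero_pow hp.ne'] at hc
    exact (β.toMul).ne_zero hc.symm
  have hint : IsIntegral ℚ c := Algebra.IsIntegral.isIntegral c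
  have : FiniteDimensional ℚ (IntermediateField.adjoin ℚ {c}) :=
    IntermediateField.adjoin.finiteDimensional hint
  obtain ⟨N, hN, hle⟩ := exists_isLev_le Δ (IntermediateField.adjoin ℚ {c})
  refine ⟨Additive.ofMul (Units.mk0 c hc0), N, ?_, hN, fun n hn => ?_⟩
  · have : (Units.mk0 c hc0) ^ p = β.toMul := Units.ext (by simpa using hc)
    rw [← ofMul_pow, this, ofMul_toMul]
  · rw [smul_eq_iff]
    have h1 := (hle hn).2
    exact (IntermediateField.mem_fixingSubgroup_iff _ n).1 h1 c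
      (IntermediateField.mem_adjoin_simple_self ℚ c)

/-! ### The hypotheses of the lines theorem for the concrete instance -/

/-- The ambient level set of `Δ ≤ G_ℚ`: the subgroups `Δ ⊓ Gal(ℚ̄/F)`, `F/ℚ` finite Galois. -/
def levSet (Δ : Subgroup GQ) : Set (Subgroup GQ) := {N | IsLev Δ (levD Δ) N}

lemma mem_levSet_iff (Δ N : Subgroup GQ) : N ∈ levSet Δ ↔ ∃ F : IntermediateField ℚ Qb,
    FiniteDimensional ℚ F ∧ Normal ℚ F ∧ N = Δ ⊓ F.fixingSubgroup := isLev_levD_iff Δ N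

/-- TARGET (local arithmetic): the norm index of every cyclic step of degree `p` between open
subgroups of `Δ` is `p` (`LineHyp.normIdx` for the concrete instance). -/
def NormIdxHyp (p : ℕ) (Δ : Subgroup GQ) : Prop :=
  ∀ (U V : Subgroup GQ) (σ : GQ) (e : GQ → ℕ), U ≤ Δ → (∃ N ∈ levSet Δ, N ≤ V) →
    CycData U V p σ e →
    ∃ a₀ ∈ fixG (Additive Qbˣ) U, a₀ ∉ normG (Additive Qbˣ) σ p V ∧
      fixG (Additive Qbˣ) U ≤ AddSubgroup.zmultiples a₀ ⊔ normG (Additive Qbˣ) σ p V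

/-- TARGET (Kummer theory): every element of `(ℚ̄ˣ)^U` which is not a `p`-th power there is a norm
from a cyclic step of degree `p` (`LineHyp.kummer` for the concrete instance). -/
def KummerHyp (p : ℕ) (Δ : Subgroup GQ) : Prop :=
  ∀ U : Subgroup GQ, U ≤ Δ → (∃ N ∈ levSet Δ, N ≤ U) → ∀ a ∈ fixG (Additive Qbˣ) U,
    (∀ b ∈ fixG (Additive Qbˣ) U, a ≠ p • b) →
    ∃ (V : Subgroup GQ) (σ : GQ) (e : GQ → ℕ), (∃ N ∈ levSet Δ, N ≤ V) ∧ CycData U V p σ e ∧
      a ∈ normG (Additive Qbˣ) σ p V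

/-- TARGET (local arithmetic): some element of `(ℚ̄ˣ)^Δ` is not a `p`-th power there. -/
def NonPowHyp (p : ℕ) (Δ : Subgroup GQ) : Prop :=
  ∃ a ∈ fixG (Additive Qbˣ) Δ, ∀ b ∈ fixG (Additive Qbˣ) Δ, a ≠ p • b

/-- The hypotheses of the lines theorem for a closed subgroup `Δ ≤ G_ℚ`, from the norm index
and Kummer statements. -/
theorem lineHyp_of {p : ℕ} {Δ : Subgroup GQ} (hΔ : IsClosed (Δ : Set GQ))
    (hN : NormIdxHyp p Δ) (hK : KummerHyp p Δ) :
    LineHyp (Additive Qbˣ) p Δ (levSet Δ) where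
  normal N hN := IsLev.normalIn hN
  fin N hN := by
    have := (levD Δ).finiteIndex _ hN.2
    exact this.index_ne_zero
  directed N hN N' hN' := by
    obtain ⟨N'', h, h1, h2⟩ := IsLev.exists_le hN hN'
    exact ⟨N'', h, le_inf h1 h2⟩
  h90 N hN U hNU hUΔ := by
    obtain ⟨F, hF, -, rfl⟩ := (isLev_levD_iff Δ N).1 hN
    have hU : IsClosed (U : Set GQ) := isClosed_of_between hΔ hUΔ F hNU
    refine h90On_of_isClosed hU F _ ?_
    exact le_inf (inf_le_left.trans hUΔ) inf_le_right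
  normIdx := hN
  kummer := hK

end Fermat.Agent.PT.Br.Conc
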