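/-
PT / BR layer: local `H²` is one-dimensional, concrete form (targets (B3), (B3T) of
`PT/Base/Interfaces.lean`).

* `zetaHom` : `ℤ/p → Additive ℚ̄ˣ`, `c ↦ ζ ^ c`; injective, onto the `p`-torsion, equivariant for
  the mod `p` cyclotomic character.
* `finrank_H2_of` : for a closed subgroup `Δ ≤ G_ℚ`, `H²` of the all-levels complex of
  `𝔽_p(χ_cyc)` on `Δ` is one-dimensional, given the "lines" dependence on `Δ` and one cyclic step
  of degree `p` with a non-norm.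
* `hLines_of_lineHyp` : the dependence from `LineHyp`.
* `finrank_CV_H2` : (B3) for `Δ = Gal(ℚ̄/K) ⊓ D_A`, `μ_p ⊂ K`, from `NormIdxHyp`, `KummerHyp`,
  `NonPowHyp`.
-/
import Fermat.Agent.PT.Br.Concrete
import Fermat.Agent.PT.Base.Interfaces

set_option autoImplicit false
set_option linter.unusedSectionVars false

namespace Fermat.Agent.PT.Br.Conc

open Fermat.Agent.PT Fermat.Agent.PT.Bridge Fermat.Agent.PT.Br ExtCitation

local notation "Qb" => AlgebraicClosure ℚ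
local notation "GQ" => (AlgebraicClosure ℚ ≃ₐ[ℚ] AlgebraicClosure ℚ)

attribute [local instance] MulBridge.additiveAction
attribute [local instance] Fermat.Agent.Lib.GalQbar.isAlgClosure_rat
  Fermat.Agent.Lib.GalQbar.isGalois_rat Fermat.Agent.Lib.GalQbar.isAlgebraic_rat

/-! ### `μ_p` as a module -/

section zeta

variable (p : ℕ) [Fact p.Prime] {ζ : Qb} (hζ : IsPrimitiveRoot ζ p)

/-- a primitive `p`-th root of unity as a unit -/
noncomputable def zetaUnit : Qbˣ := Units.mk0 ζ (hζ.ne_zero (Fact.out : p.Prime).ne_zero)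

lemma zetaUnit_val : ((zetaUnit p hζ : Qbˣ) : Qb) = ζ := rfl

lemma zetaUnit_pow : zetaUnit p hζ ^ p = 1 :=
  Units.ext (by rw [Units.val_pow_eq_pow_val, zetaUnit_val, hζ.pow_eq_one]; rfl)

/-- `c ↦ ζ ^ c`, as an additive map `ℤ/p → Additive ℚ̄ˣ`. -/
noncomputable def zetaHom : ZMod p →+ Additive Qbˣ :=
  ZMod.lift p ⟨zmultiplesHom (Additive Qbˣ) (Additive.ofMul (zetaUnit p hζ)), by
    rw [zmultiplesHom_apply, natCast_zsmul, ← ofMul_pow, zetaUnit_pow, ofMul_one]⟩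

lemma zetaHom_intCast (k : ℤ) :
    zetaHom p hζ (k : ZMod p) = k • Additive.ofMul (zetaUnit p hζ) := by
  rw [zetaHom, ZMod.lift_coe]
  rfl

lemma zetaHom_natCast (k : ℕ) :
    zetaHom p hζ (k : ZMod p) = k • Additive.ofMul (zetaUnit p hζ) := by
  have := zetaHom_intCast p hζ (k : ℤ)
  rwa [Int.cast_natCast, natCast_zsmul] at this

lemma zetaHom_injective : Function.Injective (zetaHom p hζ) := by
  have : NeZero p := ⟨(Fact.out : p.Prime).ne_zero⟩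
  rw [injective_iff_map_eq_zero]
  intro c hc
  obtain ⟨k, rfl⟩ := ZMod.natCast_zmod_surjective c
  rw [zetaHom_natCast, ← ofMul_pow] at hc
  have h1 : zetaUnit p hζ ^ k = 1 := hc
  have h2 : ζ ^ k = 1 := by
    have := congrArg Units.val h1
    rwa [Units.val_pow_eq_pow_val, zetaUnit_val] at this
  exact (ZMod.natCast_eq_zero_iff k p).2 ((hζ.pow_eq_one_iff_dvd k).1 h2)

lemma zetaHom_surj (a : Additive Qbˣ) (ha : p • a = 0) : ∃ c, zetaHom p hζ c = a := by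
  have : NeZero p := ⟨(Fact.out : p.Prime).ne_zero⟩
  have h1 : (a.toMul : Qbˣ) ^ p = 1 := by
    have := congrArg Additive.toMul ha
    rwa [toMul_nsmul] at this
  have h2 : ((a.toMul : Qbˣ) : Qb) ^ p = 1 := by
    have := congrArg Units.val h1
    rwa [Units.val_pow_eq_pow_val] at this
  obtain ⟨i, -, hi⟩ := hζ.eq_pow_of_pow_eq_one h2
  refine ⟨(i : ZMod p), ?_⟩
  rw [zetaHom_natCast, ← ofMul_pow]
  have : zetaUnit p hζ ^ i = a.toMul :=
    Units.ext (by rw [Units.val_pow_eq_pow_val, zetaUnit_val, hi])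
  rw [this, ofMul_toMul]

/-- `zetaHom` is equivariant for the mod `p` cyclotomic character. -/
lemma smul_zetaHom (g : GQ) (c : ZMod p) :
    g • zetaHom p hζ c = zetaHom p hζ (((cycloChar p g : (ZMod p)ˣ) : ZMod p) * c) := by
  have : NeZero p := ⟨(Fact.out : p.Prime).ne_zero⟩
  obtain ⟨k, rfl⟩ := ZMod.natCast_zmod_surjective c
  have hg : g • zetaUnit p hζ =
      zetaUnit p hζ ^ ((cycloChar p g : (ZMod p)ˣ) : ZMod p).val :=
    Units.ext (by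
      rw [Units.val_pow_eq_pow_val]
      exact Fermat.Agent.CFT.Red.CycloExp.chi_spec p g hζ.pow_eq_one)
  have h2 : ((cycloChar p g : (ZMod p)ˣ) : ZMod p) * (k : ZMod p) =
      ((((cycloChar p g : (ZMod p)ˣ) : ZMod p).val * k : ℕ) : ZMod p) := by
    rw [Nat.cast_mul, ZMod.natCast_zmod_val]
  rw [h2, zetaHom_natCast, zetaHom_natCast, smul_comm g k, smul_ofMul, hg, ofMul_pow,
    ← mul_smul, mul_comm]

end zeta

/-! ### The assembly -/

section assembly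

variable (p : ℕ) [Fact p.Prime]

/-- The "lines" dependence statement on `Δ` (the hypothesis `hLines` of
`Br.finrank_H2_eq_one` for the concrete instance). -/
def LinesOn (Δ : Subgroup GQ) : Prop :=
  ∀ (z₁ z₂ : GQ × GQ → Additive Qbˣ) (N₀ : Subgroup GQ), N₀ ∈ levSet Δ → CocOn₂ Δ z₁ →
    CocOn₂ Δ z₂ → InflOn₂ Δ N₀ z₁ → InflOn₂ Δ N₀ z₂ →
    (∀ g ∈ Δ, ∀ h ∈ Δ, p • z₁ (g, h) = 0) → (∀ g ∈ Δ, ∀ h ∈ Δ, p • z₂ (g, h) = 0) →
    ∃ c₁ c₂ : ℤ, ¬ ((p : ℤ) ∣ c₁ ∧ (p : ℤ) ∣ c₂) ∧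
      ∃ N ∈ levSet Δ, CobOn₂ Δ N (c₁ • z₁ + c₂ • z₂)

/-- A cyclic step of degree `p` of `Δ` (kernel containing a level) with a non-norm. -/
def StepOn (Δ : Subgroup GQ) : Prop :=
  ∃ (V : Subgroup GQ) (σ : GQ) (e : GQ → ℕ), (∃ N ∈ levSet Δ, N ≤ V) ∧ CycData Δ V p σ e ∧
    ∃ a₀ ∈ fixG (Additive Qbˣ) Δ, a₀ ∉ normG (Additive Qbˣ) σ p V

variable {p}

/-- The dependence statement from the hypotheses of the lines theorem. -/
theorem linesOn_of_lineHyp {Δ : Subgroup GQ} (H : LineHyp (Additive Qbˣ) p Δ (levSet Δ)) :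
    LinesOn p Δ := by
  intro z₁ z₂ N₀ hN₀ hc₁ hc₂ hi₁ hi₂ ht₁ ht₂
  have hN₀Δ : N₀ ≤ Δ := hN₀.1
  have hz : ∀ z : GQ × GQ → Additive Qbˣ, (∀ g ∈ Δ, ∀ h ∈ Δ, p • z (g, h) = 0) →
      LevCob (levSet Δ) Δ ((p : ℤ) • z) := fun z ht =>
    ⟨N₀, hN₀, hN₀Δ, (cobOn₂_zero Δ N₀).congr fun g hg k hk => by
      rw [Pi.smul_apply, natCast_zsmul, ht g hg k hk]; rfl⟩
  obtain ⟨c₁, c₂, h, N, hN, -, hcob⟩ := H.lines_main (Fact.out : p.Prime) le_rfl hc₁ hc₂
    ⟨N₀, hN₀, hN₀Δ, hi₁⟩ ⟨N₀, hN₀, hN₀Δ, hi₂⟩ (hz z₁ ht₁) (hz z₂ ht₂)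
  exact ⟨c₁, c₂, h, N, hN, hcob⟩

/-- **Local `H²` is one-dimensional.**  `Δ ≤ G_ℚ` closed, `ρ` the action of `Δ` on `𝔽_p` through
the mod `p` cyclotomic character. -/
theorem finrank_H2_of {Δ : Subgroup GQ} (hΔ : IsClosed (Δ : Set GQ))
    (ρ : Representation (ZMod p) Δ (ZMod p)) (hρ : (levD Δ).IsSmooth ρ)
    (hρeq : ∀ (g : Δ) (t : ZMod p), ρ g t = ((cycloChar p (g : GQ) : (ZMod p)ˣ) : ZMod p) * t)
    (hLines : LinesOn p Δ) (hstep : StepOn p Δ) :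
    Module.finrank (ZMod p) (((levD Δ).cx ρ hρ).H 2) = 1 := by
  obtain ⟨ζ, hζ⟩ := Fermat.Agent.CFT.Red.CycloExp.exists_primitiveRoot p
  have hpos : 0 < p := (Fact.out : p.Prime).pos
  refine finrank_H2_eq_one p ρ hρ (zetaHom p hζ) (fun g t => by rw [hρeq, smul_zetaHom])
    (zetaHom_injective p hζ) (zetaHom_surj p hζ) (h90On_isLev hΔ) (exists_root_level Δ p hpos)
    hLines ?_
  obtain ⟨V, σ, e, ⟨N, hN, hNV⟩, hcyc, a₀, ha₀, hnn⟩ := hstep
  obtain ⟨α, N₁, hα, hN₁, hfix⟩ := exists_root_level Δ p hpos a₀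
  obtain ⟨N₂, hN₂, h21, h2N⟩ := IsLev.exists_le hN₁ hN
  have hαfix : ∀ g ∈ Δ, g • (p • α) = p • α := by rw [hα]; exact ha₀
  refine ⟨cupCoc e α, N₂, hN₂, cocOn₂_cupCoc hcyc hαfix,
    inflOn₂_cupCoc hcyc hN₂.normalIn (h2N.trans hNV) hαfix (fun n hn => hfix n (h21 hn)),
    fun g hg h hh => smul_cupCoc_eq_zero hαfix hg hh, ?_⟩
  intro N₃ hN₃ hcob
  obtain ⟨N₄, hN₄, h43, h42⟩ := IsLev.exists_le hN₃ hN₂
  obtain ⟨F, hF, -, rfl⟩ := (isLev_levD_iff Δ N).1 hN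
  have hV : IsClosed (V : Set GQ) := isClosed_of_between hΔ hcyc.normal.le F hNV
  obtain ⟨F₄, hF₄, -, rfl⟩ := (isLev_levD_iff Δ N₄).1 hN₄
  have hH : H90On (Additive Qbˣ) V (Δ ⊓ F₄.fixingSubgroup) :=
    h90On_of_isClosed hV F₄ _ (le_inf (inf_le_left.trans hcyc.normal.le) inf_le_right)
  have h4V : Δ ⊓ F₄.fixingSubgroup ≤ V := h42.trans (h2N.trans hNV)
  have := (cobOn₂_cupCoc_iff hcyc hN₄.normalIn h4V hH hαfix
    (fun n hn => hfix n (h21 (h42 hn)))).1 (hcob.mono h43)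
  rw [hα] at this
  exact hnn (mem_normG.2 this)

/-- **(B3) for one pair `(K, A)`**: `h²(Gal(ℚ̄/K) ⊓ D_A; 𝔽_p) = 1` when `μ_p ⊂ K`, from the norm
index, Kummer and non-`p`-th-power statements. -/
theorem finrank_CV_H2 (K : IntermediateField ℚ Qb)
    (hK : ∀ s ∈ K.fixingSubgroup, cycloChar p s = 1) (A : ValuationSubring Qb)
    (hNI : NormIdxHyp p (K.fixingSubgroup ⊓ A.decompositionSubgroup ℚ))
    (hKum : KummerHyp p (K.fixingSubgroup ⊓ A.decompositionSubgroup ℚ))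
    (hNP : NonPowHyp p (K.fixingSubgroup ⊓ A.decompositionSubgroup ℚ)) :
    Module.finrank (ZMod p) ((Base.CV p (K.fixingSubgroup ⊓ Base.decomp A)).H 2) = 1 := by
  have hΔ : IsClosed ((K.fixingSubgroup ⊓ A.decompositionSubgroup ℚ : Subgroup GQ) : Set GQ) := by
    rw [Subgroup.coe_inf]
    exact (InfiniteGalois.fixingSubgroup_isClosed K).inter
      (G.isClosed_decompositionSubgroup A)
  have hstep : StepOn p (K.fixingSubgroup ⊓ A.decompositionSubgroup ℚ) := by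
    obtain ⟨a, ha, hnp⟩ := hNP
    obtain ⟨N₀, hN₀, -⟩ := exists_isLev_le (K.fixingSubgroup ⊓ A.decompositionSubgroup ℚ) ⊥
    obtain ⟨V, σ, e, hV, hcyc, -⟩ := hKum _ le_rfl ⟨N₀, hN₀, hN₀.1⟩ a ha hnp
    obtain ⟨a₀, ha₀, hnn, -⟩ := hNI _ V σ e le_rfl hV hcyc
    exact ⟨V, σ, e, hV, hcyc, a₀, ha₀, hnn⟩
  exact finrank_H2_of hΔ (Representation.trivial (ZMod p) _ (ZMod p))
    (levD (K.fixingSubgroup ⊓ A.decompositionSubgroup ℚ)).isSmooth_trivial (fun g t => by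
    rw [hK g g.2.1]
    simp) (linesOn_of_lineHyp (lineHyp_of hΔ hNI hKum)) hstep

/-- **(B3)** from the three local statements. -/
theorem b3_of (S : Finset Nat.Primes)
    (h : ∀ K : IntermediateField ℚ Qb, FiniteDimensional ℚ K →
      (∀ s ∈ K.fixingSubgroup, cycloChar p s = 1) → ∀ q ∈ S, ∀ A : ValuationSubring Qb,
      A.LiesOverPrime (q : ℕ) →
      NormIdxHyp p (K.fixingSubgroup ⊓ A.decompositionSubgroup ℚ) ∧
      KummerHyp p (K.fixingSubgroup ⊓ A.decompositionSubgroup ℚ) ∧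
      NonPowHyp p (K.fixingSubgroup ⊓ A.decompositionSubgroup ℚ)) : Base.B3 p S := by
  intro K hKf hK q hq A hA
  obtain ⟨h1, h2, h3⟩ := h K hKf hK q hq A hA
  exact finrank_CV_H2 K hK A h1 h2 h3

end assembly

end Fermat.Agent.PT.Br.Conc
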