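/-
PT / BR layer: local `H²` with coefficients `T = 𝔽_p(χ_cyc)` over the full decomposition group
(target (B3T) of `PT/Base/Interfaces.lean`).

* `linesOn_of_sub` : the "lines" dependence passes from `Gal(ℚ̄/F) ⊓ Δ` to `Δ` when the index is
  prime to `p` (Sylow / corestriction, `cobOn₂_of_res_of_coprime`).
* `stepOn_decomp` : a cyclic step of degree `p` of `D_A` (the unramified one, from an auxiliary
  prime `ℓ` with `ord_ℓ(q)` a power of `p`) with a non-norm.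
* `finrank_H2_decomp`, `b3T_of` : `h²(D_q; T) = 1`.
-/
import Fermat.Agent.PT.Br.B3
import Fermat.Agent.PT.G.CycloField
import Fermat.Agent.PT.G.AuxPrime
import Fermat.Agent.PT.G.KumLocal

set_option autoImplicit false
set_option linter.unusedSectionVars false

namespace Fermat.Agent.PT.Br.Conc

open Fermat.Agent.PT Fermat.Agent.PT.Bridge Fermat.Agent.PT.Br ExtCitation

local notation "Qb" => AlgebraicClosure ℚ
local notation "GQ" => (AlgebraicClosure ℚ ≃ₐ[ℚ] AlgebraicClosure ℚ)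

attribute [local instance] MulBridge.additiveAction
attribute [local instance] Fermat.Agent.Lib.GalQbar.isAlgClosure_rat
  Fermat.Agent.Lib.GalQbar.isGalois_rat Fermat.Agent.Lib.GalQbar.isAlgebraic_rat

variable {p : ℕ} [Fact p.Prime]

/-- The "lines" dependence passes from `Gal(ℚ̄/F) ⊓ Δ` to `Δ` when the index is prime to `p`. -/
theorem linesOn_of_sub {Δ : Subgroup GQ} (F : IntermediateField ℚ Qb) [FiniteDimensional ℚ F]
    (hcop : Nat.Coprime p ((F.fixingSubgroup ⊓ Δ).relIndex Δ))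
    (h : LinesOn p (F.fixingSubgroup ⊓ Δ)) : LinesOn p Δ := by
  intro z₁ z₂ N₀ hN₀ hc₁ hc₂ hi₁ hi₂ ht₁ ht₂
  have hle : F.fixingSubgroup ⊓ Δ ≤ Δ := inf_le_right
  obtain ⟨F₀, hF₀, hF₀n, rfl⟩ := (isLev_levD_iff Δ N₀).1 hN₀
  have hN₀' : (F.fixingSubgroup ⊓ Δ) ⊓ F₀.fixingSubgroup ∈ levSet (F.fixingSubgroup ⊓ Δ) :=
    isLev_inf_fixingSubgroup _ F₀ hF₀n
  have hle₀ : (F.fixingSubgroup ⊓ Δ) ⊓ F₀.fixingSubgroup ≤ Δ ⊓ F₀.fixingSubgroup :=
    inf_le_inf_right _ hle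
  obtain ⟨c₁, c₂, hcc, N', hN', hcob⟩ := h z₁ z₂ _ hN₀' (hc₁.mono hle) (hc₂.mono hle)
    ((hi₁.mono_left hle).mono hle₀) ((hi₂.mono_left hle).mono hle₀)
    (fun g hg k hk => ht₁ g (hle hg) k (hle hk)) (fun g hg k hk => ht₂ g (hle hg) k (hle hk))
  refine ⟨c₁, c₂, hcc, ?_⟩
  obtain ⟨F₁, hF₁, -, rfl⟩ := (isLev_levD_iff _ N').1 hN'
  have := IntermediateField.finiteDimensional_sup F F₁
  obtain ⟨N₁, hN₁, hN₁le⟩ := exists_isLev_le Δ (F ⊔ F₁)
  obtain ⟨N, hN, hNN₁, hNN₀⟩ := IsLev.exists_le hN₁ hN₀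
  have hNΔ' : N ≤ F.fixingSubgroup ⊓ Δ := fun x hx =>
    ⟨IntermediateField.fixingSubgroup_antitone le_sup_left (hN₁le (hNN₁ hx)).2,
      (hN₁le (hNN₁ hx)).1⟩
  have hNN' : N ≤ (F.fixingSubgroup ⊓ Δ) ⊓ F₁.fixingSubgroup := fun x hx =>
    ⟨hNΔ' hx, IntermediateField.fixingSubgroup_antitone le_sup_right (hN₁le (hNN₁ hx)).2⟩
  have hw : CocOn₂ Δ (c₁ • z₁ + c₂ • z₂) := (hc₁.zsmul c₁).add (hc₂.zsmul c₂)
  have hiw : InflOn₂ Δ N (c₁ • z₁ + c₂ • z₂) := ((hi₁.zsmul c₁).add (hi₂.zsmul c₂)).mono hNN₀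
  have hpw : CobOn₂ Δ N ((p : ℤ) • (c₁ • z₁ + c₂ • z₂)) :=
    (cobOn₂_zero Δ N).congr fun g hg k hk => by
      have e1 : (p : ℤ) • (c₁ • z₁ (g, k)) = 0 := by
        rw [← mul_zsmul, mul_comm, mul_zsmul, natCast_zsmul, ht₁ g hg k hk, zsmul_zero]
      have e2 : (p : ℤ) • (c₂ • z₂ (g, k)) = 0 := by
        rw [← mul_zsmul, mul_comm, mul_zsmul, natCast_zsmul, ht₂ g hg k hk, zsmul_zero]
      rw [Pi.smul_apply, Pi.add_apply, Pi.smul_apply, Pi.smul_apply, zsmul_add, e1, e2,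
        add_zero]
      rfl
  exact ⟨N, hN, cobOn₂_of_res_of_coprime hN.normalIn hNΔ' hle hw hiw (hcob.mono hNN') p hpw hcop⟩

/-- The index of `Gal(ℚ̄/ℚ(ζ_p)) ⊓ Δ` in `Δ` is prime to `p`. -/
theorem coprime_relIndex_cyclo (Δ : Subgroup GQ) :
    Nat.Coprime p (((G.cycloField p ⊥).fixingSubgroup ⊓ Δ).relIndex Δ) := by
  have hp : p.Prime := Fact.out
  have : NeZero p := ⟨hp.ne_zero⟩
  rw [G.fixingSubgroup_cycloField, MonoidHom.comap_bot, Subgroup.inf_relIndex_right]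
  have h1 : (cycloChar p).ker.relIndex Δ ∣ (cycloChar p).ker.index :=
    Subgroup.relIndex_dvd_index_of_normal _ _
  have h2 : (cycloChar p).ker.index ∣ p - 1 := by
    rw [Subgroup.index_ker]
    have h3 := Subgroup.card_subgroup_dvd_card (cycloChar p).range
    have h4 : Nat.card (ZMod p)ˣ = p - 1 := by
      rw [Nat.card_eq_fintype_card, ZMod.card_units_eq_totient, Nat.totient_prime hp]
    rwa [h4] at h3
  have h4 := h1.trans h2
  rw [Nat.Prime.coprime_iff_not_dvd hp]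
  intro h5
  have h6 : p ≤ p - 1 := Nat.le_of_dvd (by have := hp.two_le; omega) (h5.trans h4)
  have := hp.two_le
  omega

/-- **The unramified cyclic step.**  For `p` odd and `A` over a prime `q`, the decomposition
group `D_A` has a cyclic step of degree `p` whose kernel contains a level. -/
theorem exists_cycData_decomp (hp2 : p ≠ 2) (A : ValuationSubring Qb) {q : ℕ} (hq : q.Prime)
    (hA : A.LiesOverPrime q) :
    ∃ (V : Subgroup GQ) (σ : GQ) (e : GQ → ℕ),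
      (∃ N ∈ levSet (A.decompositionSubgroup ℚ), N ≤ V) ∧
      CycData (A.decompositionSubgroup ℚ) V p σ e := by
  have hp : p.Prime := Fact.out
  obtain ⟨ℓ, b, hℓ, hℓT, -, -, hb, hord⟩ :=
    G.exists_prime_orderOf_eq_pow hp2 hq.two_le 1 {q}
  have hqℓ : q ≠ ℓ := fun h => hℓT (by rw [h]; exact Finset.mem_singleton_self _)
  have : Fact ℓ.Prime := ⟨hℓ⟩
  obtain ⟨φ, hφ, hφq, hall⟩ := G.exists_frobenius_cycloChar ℓ hq hqℓ A hA
  set u : (ZMod ℓ)ˣ := cycloChar ℓ φ with hu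
  have hou : orderOf u = p ^ b := by
    rw [← orderOf_units, hφq, hord]
  have hpu : (p : ℤ) ∣ (orderOf u : ℤ) := by
    rw [hou]
    exact_mod_cast dvd_pow_self p (by omega : b ≠ 0)
  obtain ⟨V, hV⟩ : ∃ V : Subgroup GQ, V =
      A.decompositionSubgroup ℚ ⊓ (Subgroup.zpowers (u ^ p)).comap (cycloChar ℓ) := ⟨_, rfl⟩
  have hmem : ∀ x : GQ, x ∈ V ↔
      x ∈ A.decompositionSubgroup ℚ ∧ cycloChar ℓ x ∈ Subgroup.zpowers (u ^ p) := by
    intro x
    rw [hV, Subgroup.mem_inf, Subgroup.mem_comap]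
  have hVn : NormalIn V (A.decompositionSubgroup ℚ) := by
    refine ⟨fun x hx => ((hmem x).1 hx).1, fun g hg n hn => (hmem _).2 ⟨?_, ?_⟩⟩
    · exact mul_mem (mul_mem hg ((hmem n).1 hn).1) (inv_mem hg)
    · have h1 : cycloChar ℓ (g * n * g⁻¹) = cycloChar ℓ n := by
        rw [map_mul, map_mul, map_inv, mul_comm, inv_mul_cancel_left]
      rw [h1]
      exact ((hmem n).1 hn).2
  have hgen : ∀ g ∈ A.decompositionSubgroup ℚ, ∃ i : ℕ, (φ ^ i)⁻¹ * g ∈ V := by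
    intro g hg
    have h1 := hall g hg
    rw [← (isOfFinOrder_of_finite u).mem_powers_iff_mem_zpowers] at h1
    obtain ⟨i, hi⟩ := h1
    have hi' : u ^ i = cycloChar ℓ g := hi
    refine ⟨i, (hmem _).2 ⟨mul_mem (inv_mem (pow_mem hφ i)) hg, ?_⟩⟩
    rw [map_mul, map_inv, map_pow, ← hu, hi', inv_mul_cancel]
    exact one_mem _
  have hordσ : ∀ i : ℕ, φ ^ i ∈ V ↔ p ∣ i := by
    intro i
    rw [hmem]
    constructor
    · rintro ⟨-, h2⟩
      rw [map_pow, ← hu, Subgroup.mem_zpowers_iff] at h2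
      obtain ⟨k, hk⟩ := h2
      have h3 : u ^ ((i : ℤ) - p * k) = 1 := by
        rw [zpow_sub, zpow_natCast, zpow_mul, zpow_natCast, hk, mul_inv_cancel]
      have h4 : (orderOf u : ℤ) ∣ (i : ℤ) - p * k := orderOf_dvd_iff_zpow_eq_one.2 h3
      have h5 : (p : ℤ) ∣ (i : ℤ) := by
        have := (hpu.trans h4).add (dvd_mul_right (p : ℤ) k)
        simpa using this
      exact_mod_cast h5
    · rintro ⟨j, rfl⟩
      refine ⟨pow_mem hφ _, ?_⟩
      rw [map_pow, ← hu, pow_mul]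
      exact Subgroup.pow_mem _ (Subgroup.mem_zpowers _) j
  obtain ⟨e, he⟩ := CycData.exists_of_gen hVn hφ hp.one_lt hgen hordσ
  refine ⟨V, φ, e, ⟨_, isLev_inf_fixingSubgroup (A.decompositionSubgroup ℚ)
    (G.cycloField ℓ ⊥) (G.normal_cycloField ℓ ⊥), ?_⟩, he⟩
  intro x hx
  obtain ⟨hx1, hx2⟩ := Subgroup.mem_inf.1 hx
  refine (hmem x).2 ⟨hx1, ?_⟩
  rw [G.mem_fixingSubgroup_cycloField_iff, Subgroup.mem_bot] at hx2
  rw [hx2]
  exact one_mem _

/-- A cyclic step of degree `p` of `D_A` with a non-norm. -/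
theorem stepOn_decomp (hp2 : p ≠ 2) (A : ValuationSubring Qb) {q : ℕ} (hq : q.Prime)
    (hA : A.LiesOverPrime q) (hNI : NormIdxHyp p (A.decompositionSubgroup ℚ)) :
    StepOn p (A.decompositionSubgroup ℚ) := by
  obtain ⟨V, σ, e, hV, hcyc⟩ := exists_cycData_decomp hp2 A hq hA
  obtain ⟨a₀, ha₀, hnn, -⟩ := hNI _ V σ e le_rfl hV hcyc
  exact ⟨V, σ, e, hV, hcyc, a₀, ha₀, hnn⟩

/-- **`h²(D_A; 𝔽_p(χ_cyc)) = 1`** for `p` odd and `A` over a prime `q`, from the norm index on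
`D_A` and the norm index and Kummer statements on `Gal(ℚ̄/ℚ(ζ_p)) ⊓ D_A`. -/
theorem finrank_H2_decomp (hp2 : p ≠ 2) (A : ValuationSubring Qb) {q : ℕ} (hq : q.Prime)
    (hA : A.LiesOverPrime q) (hNI : NormIdxHyp p (A.decompositionSubgroup ℚ))
    (hNI' : NormIdxHyp p ((G.cycloField p ⊥).fixingSubgroup ⊓ A.decompositionSubgroup ℚ))
    (hKum' : KummerHyp p ((G.cycloField p ⊥).fixingSubgroup ⊓ A.decompositionSubgroup ℚ))
    (ρ : Representation (ZMod p) (A.decompositionSubgroup ℚ) (ZMod p))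
    (hρ : (levD (A.decompositionSubgroup ℚ)).IsSmooth ρ)
    (hρeq : ∀ (g : A.decompositionSubgroup ℚ) (t : ZMod p),
      ρ g t = ((cycloChar p (g : GQ) : (ZMod p)ˣ) : ZMod p) * t) :
    Module.finrank (ZMod p) (((levD (A.decompositionSubgroup ℚ)).cx ρ hρ).H 2) = 1 := by
  have hΔ' : IsClosed (((G.cycloField p ⊥).fixingSubgroup ⊓ A.decompositionSubgroup ℚ :
      Subgroup GQ) : Set GQ) := by
    rw [Subgroup.coe_inf]
    exact (InfiniteGalois.fixingSubgroup_isClosed _).inter (G.isClosed_decompositionSubgroup A)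
  exact finrank_H2_of (G.isClosed_decompositionSubgroup A) ρ hρ hρeq
    (linesOn_of_sub (G.cycloField p ⊥) (coprime_relIndex_cyclo _)
      (linesOn_of_lineHyp (lineHyp_of hΔ' hNI' hKum')))
    (stepOn_decomp hp2 A hq hA hNI)

/-- **(B3T)** from the norm index and Kummer statements. -/
theorem b3T_of (hp2 : p ≠ 2) (S : Finset Nat.Primes) (hpS : pPrime p ∈ S)
    (hNI : ∀ K : IntermediateField ℚ Qb, FiniteDimensional ℚ K → ∀ q ∈ S,
      ∀ A : ValuationSubring Qb, A.LiesOverPrime (q : ℕ) →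
      NormIdxHyp p (K.fixingSubgroup ⊓ A.decompositionSubgroup ℚ))
    (hKum : ∀ K : IntermediateField ℚ Qb, FiniteDimensional ℚ K →
      (∀ s ∈ K.fixingSubgroup, cycloChar p s = 1) → ∀ q ∈ S, ∀ A : ValuationSubring Qb,
      A.LiesOverPrime (q : ℕ) → KummerHyp p (K.fixingSubgroup ⊓ A.decompositionSubgroup ℚ)) :
    Base.B3T p S hpS := by
  intro q
  have : Fact (q.1 : ℕ).Prime := ⟨q.1.2⟩
  have hA : (primeLocalPlace q.1).LiesOverPrime (q.1 : ℕ) :=
    Kummer.liesOverPrime_padicPlace (q.1 : ℕ)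
  have h1 : NormIdxHyp p ((primeLocalPlace q.1).decompositionSubgroup ℚ) := by
    have := hNI ⊥ inferInstance q.1 q.2 _ hA
    rwa [IntermediateField.fixingSubgroup_bot, top_inf_eq] at this
  have hcyc : ∀ s ∈ (G.cycloField p ⊥).fixingSubgroup, cycloChar p s = 1 := by
    intro s hs
    rw [G.mem_fixingSubgroup_cycloField_iff, Subgroup.mem_bot] at hs
    exact hs
  exact finrank_H2_decomp hp2 _ q.1.2 hA h1
    (hNI _ inferInstance q.1 q.2 _ hA) (hKum _ inferInstance hcyc q.1 q.2 _ hA) _ _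
    (fun g t => rfl)

end Fermat.Agent.PT.Br.Conc
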