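/-
PT / BR layer: the Kummer hypothesis of the lines theorem for the concrete instance
(`Conc.KummerHyp`), target (T-KUM).

For `Δ = Gal(ℚ̄/K) ⊓ D_A` with `μ_p ⊂ K` and `p` odd: if `U ≤ Δ` contains a level and
`a ∈ (ℚ̄ˣ)^U` is not a `p`-th power there, then with `α ^ p = a`, `V := U ⊓ Stab(α)` is the kernel
of the Kummer character of `α` on `U`, `U/V` is cyclic of order `p`, and
`a = ∏_{i<p} σ^i α` is a norm from `(ℚ̄ˣ)^V`.
-/
import Fermat.Agent.PT.Br.Concrete

set_option autoImplicit false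
set_option linter.unusedSectionVars false

namespace Fermat.Agent.PT.Br.Inst

open Fermat.Agent.PT Fermat.Agent.PT.Bridge Fermat.Agent.PT.Br ExtCitation

local notation "Qb" => AlgebraicClosure ℚ
local notation "GQ" => (AlgebraicClosure ℚ ≃ₐ[ℚ] AlgebraicClosure ℚ)

attribute [local instance] MulBridge.additiveAction
attribute [local instance] Fermat.Agent.Lib.GalQbar.isAlgClosure_rat
  Fermat.Agent.Lib.GalQbar.isGalois_rat Fermat.Agent.Lib.GalQbar.isAlgebraic_rat

variable {p : ℕ} [Fact p.Prime]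

/-- For `p` odd, `p ∣ ∑_{i<p} i`. -/
lemma dvd_sum_range_id (hp2 : p ≠ 2) : p ∣ ∑ i ∈ Finset.range p, i := by
  have hp : p.Prime := Fact.out
  have h1 : (∑ i ∈ Finset.range p, i) * 2 = p * (p - 1) := Finset.sum_range_id_mul_two p
  have h2 : p ∣ (∑ i ∈ Finset.range p, i) * 2 := ⟨p - 1, h1⟩
  rcases (Nat.Prime.dvd_mul hp).1 h2 with h | h
  · exact h
  · exact absurd ((Nat.prime_dvd_prime_iff_eq hp Nat.prime_two).1 h) hp2

/-- The abstract Kummer step: a closed subgroup `U` whose fixed field contains `ζ_p`, and an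
element `a` of `(ℚ̄ˣ)^U` which is not a `p`-th power there. -/
theorem exists_cycData_norm (hp2 : p ≠ 2) {U : Subgroup GQ} (hU : IsClosed (U : Set GQ))
    (hcyc : ∀ s ∈ U, cycloChar p s = 1) (a : Additive Qbˣ) (ha : a ∈ fixG (Additive Qbˣ) U)
    (hnp : ∀ b ∈ fixG (Additive Qbˣ) U, a ≠ p • b) :
    ∃ (α : Qb) (σ : GQ) (e : GQ → ℕ),
      CycData U (U ⊓ MulAction.stabilizer GQ α) p σ e ∧
      a ∈ normG (Additive Qbˣ) σ p (U ⊓ MulAction.stabilizer GQ α) := by
  have hp : p.Prime := Fact.out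
  have : NeZero p := ⟨hp.ne_zero⟩
  have : Fact (1 < p) := ⟨hp.one_lt⟩
  obtain ⟨ζ, hζ⟩ := Fermat.Agent.CFT.Red.CycloExp.exists_primitiveRoot p
  set E : IntermediateField ℚ Qb := IntermediateField.fixedField U with hE
  have hEU : E.fixingSubgroup = U := Conc.fixingSubgroup_fixedField_of_isClosed hU
  -- `ζ` is fixed by `U`
  have hUζ : ∀ g ∈ U, g ζ = ζ := by
    intro g hg
    have h1 := Fermat.Agent.CFT.Red.CycloExp.chi_spec p g hζ.pow_eq_one
    have h2 : Fermat.Agent.CFT.Red.CycloExp.chi p g = 1 := hcyc g hg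
    rw [h2] at h1
    rw [h1, Units.val_one, ZMod.val_one, pow_one]
  have hζE : ζ ∈ E := by
    rw [hE, IntermediateField.mem_fixedField_iff]
    exact hUζ
  -- the element `a`
  have ha' : ∀ g ∈ U, g ((a.toMul : Qbˣ) : Qb) = ((a.toMul : Qbˣ) : Qb) := fun g hg =>
    (Conc.smul_eq_iff g a).1 (ha g hg)
  obtain ⟨α, hα⟩ := IsAlgClosed.exists_pow_nat_eq ((a.toMul : Qbˣ) : Qb) hp.pos
  have hα0 : α ≠ 0 := by
    rintro rfl
    rw [zero_pow hp.ne_zero] at hα
    exact (a.toMul).ne_zero hα.symm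
  have hαE : α ^ p ∈ E := by
    rw [hα, hE, IntermediateField.mem_fixedField_iff]
    exact ha'
  -- `α ∉ E`
  have hαnot : α ∉ E := by
    intro hin
    have hfix : ∀ g ∈ U, g α = α := by
      rw [hE, IntermediateField.mem_fixedField_iff] at hin
      exact hin
    refine hnp (Additive.ofMul (Units.mk0 α hα0)) (fun g hg => ?_) ?_
    · rw [Conc.smul_eq_iff]
      exact hfix g hg
    · have : (Units.mk0 α hα0) ^ p = a.toMul := Units.ext (by simpa using hα)
      rw [← ofMul_pow, this, ofMul_toMul]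
  obtain ⟨χ, hχ, hχadd, hχstab⟩ := Kummer.exists_character_of_root p E hζ hζE hα0 hαE
  rw [hEU] at hχ hχadd
  -- the kernel of `χ` on `U` is the stabiliser of `α`
  have hker : ∀ g ∈ U, g α = α ↔ χ g = 0 := by
    intro g hg
    constructor
    · intro h
      have h1 := hχ g hg
      rw [h] at h1
      have h2 : ζ ^ (χ g).val = ζ ^ (0 : ZMod p).val := by
        rw [ZMod.val_zero, pow_zero]
        have h3 : (ζ ^ (χ g).val - 1) * α = 0 := by
          rw [sub_mul, one_mul, ← h1, sub_self]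
        rcases mul_eq_zero.1 h3 with h4 | h4
        · exact sub_eq_zero.1 h4
        · exact absurd h4 hα0
      exact Kummer.zeta_pow_val_injective p hζ h2
    · intro h
      rw [hχ g hg, h, ZMod.val_zero, pow_zero, one_mul]
  have hstab : ∀ g : GQ, g ∈ MulAction.stabilizer GQ α ↔ g α = α := fun g =>
    MulAction.mem_stabilizer_iff
  have hV : ∀ g : GQ, g ∈ U ⊓ MulAction.stabilizer GQ α ↔
      g ∈ U ∧ χ g = 0 := by
    intro g
    constructor
    · rintro ⟨h1, h2⟩
      exact ⟨h1, (hker g h1).1 ((hstab g).1 h2)⟩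
    · rintro ⟨h1, h2⟩
      exact ⟨h1, (hstab g).2 ((hker g h1).2 h2)⟩
  -- additivity consequences
  have hχ1 : χ 1 = 0 := by
    have := hχadd 1 U.one_mem 1 U.one_mem
    rw [mul_one] at this
    exact (add_eq_left.1 this.symm)
  have hχinv : ∀ g ∈ U, χ g⁻¹ = - χ g := by
    intro g hg
    have := hχadd g hg g⁻¹ (U.inv_mem hg)
    rw [mul_inv_cancel, hχ1] at this
    exact eq_neg_of_add_eq_zero_right this.symm
  have hχpow : ∀ g ∈ U, ∀ n : ℕ, χ (g ^ n) = n • χ g := by
    intro g hg n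
    induction n with
    | zero => simp [hχ1]
    | succ n ih => rw [pow_succ, hχadd _ (U.pow_mem hg n) g hg, ih, succ_nsmul]
  -- a generator
  obtain ⟨g₀, hg₀, hg₀α⟩ : ∃ g ∈ U, g α ≠ α := by
    by_contra hcon
    push Not at hcon
    apply hαnot
    rw [hE, IntermediateField.mem_fixedField_iff]
    exact hcon
  have hc : χ g₀ ≠ 0 := fun h => hg₀α ((hker g₀ hg₀).2 h)
  set σ : GQ := g₀ ^ ((χ g₀)⁻¹).val with hσ
  have hσU : σ ∈ U := U.pow_mem hg₀ _
  have hχσ : χ σ = 1 := by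
    rw [hσ, hχpow g₀ hg₀, nsmul_eq_mul, ZMod.natCast_zmod_val]
    exact inv_mul_cancel₀ hc
  have hσα : σ α = ζ * α := by
    rw [hχ σ hσU, hχσ, ZMod.val_one, pow_one]
  have hσpow : ∀ i : ℕ, (σ ^ i) α = ζ ^ i * α := by
    intro i
    induction i with
    | zero => simp
    | succ i ih =>
      rw [pow_succ, AlgEquiv.mul_apply, hσα, map_mul, ih, hUζ _ (U.pow_mem hσU i)]
      ring
  refine ⟨α, σ, fun g => (χ g).val, ?_, ?_⟩
  · refine ⟨⟨inf_le_left, fun g hg n hn => ?_⟩, hp.one_lt, hσU, fun g _ => ZMod.val_lt _,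
      fun g hg => ?_, fun g hg h hh => ?_, ?_, fun n hn => ?_⟩
    · rw [hV] at hn ⊢
      refine ⟨U.mul_mem (U.mul_mem hg hn.1) (U.inv_mem hg), ?_⟩
      rw [hχadd _ (U.mul_mem hg hn.1) _ (U.inv_mem hg), hχadd g hg n hn.1, hn.2, hχinv g hg]
      ring
    · rw [hV]
      refine ⟨U.mul_mem (U.inv_mem (U.pow_mem hσU _)) hg, ?_⟩
      rw [hχadd _ (U.inv_mem (U.pow_mem hσU _)) g hg, hχinv _ (U.pow_mem hσU _),
        hχpow σ hσU, hχσ, nsmul_eq_mul, mul_one, ZMod.natCast_zmod_val]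
      ring
    · show (χ (g * h)).val = ((χ g).val + (χ h).val) % p
      rw [hχadd g hg h hh, ZMod.val_add]
    · show (χ σ).val = 1
      rw [hχσ, ZMod.val_one]
    · show (χ n).val = 0
      rw [((hV n).1 hn).2, ZMod.val_zero]
  · rw [mem_normG]
    refine ⟨Additive.ofMul (Units.mk0 α hα0), fun n hn => ?_, ?_⟩
    · rw [Conc.smul_eq_iff]
      exact (hstab n).1 hn.2
    · have h1 : ((partialNm σ p (Additive.ofMul (Units.mk0 α hα0) : Additive Qbˣ)).toMul : Qbˣ)
          = ∏ i ∈ Finset.range p, (σ ^ i) • Units.mk0 α hα0 := by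
        rw [partialNm, toMul_sum]
        rfl
      have h2 : (((partialNm σ p (Additive.ofMul (Units.mk0 α hα0) : Additive Qbˣ)).toMul
          : Qbˣ) : Qb) = ((a.toMul : Qbˣ) : Qb) := by
        rw [h1, Units.coe_prod]
        have h3 : ∀ i ∈ Finset.range p, (((σ ^ i) • Units.mk0 α hα0 : Qbˣ) : Qb) = ζ ^ i * α :=
          fun i _ => hσpow i
        rw [Finset.prod_congr rfl h3, Finset.prod_mul_distrib, Finset.prod_pow_eq_pow_sum,
          Finset.prod_const, Finset.card_range, hα]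
        obtain ⟨k, hk⟩ := dvd_sum_range_id (p := p) hp2
        rw [hk, pow_mul, hζ.pow_eq_one, one_pow, one_mul]
      have h4 : (partialNm σ p (Additive.ofMul (Units.mk0 α hα0) : Additive Qbˣ)).toMul
          = a.toMul := Units.ext h2
      exact (congrArg Additive.ofMul h4).symm

/-- **(T-KUM)** The Kummer hypothesis of the lines theorem for `Δ = Gal(ℚ̄/K) ⊓ D_A`, `μ_p ⊂ K`,
`p` odd. -/
theorem kummerHyp (hp2 : p ≠ 2) (K : IntermediateField ℚ Qb) [FiniteDimensional ℚ K]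
    (hK : ∀ s ∈ K.fixingSubgroup, cycloChar p s = 1) (A : ValuationSubring Qb) :
    Conc.KummerHyp p (K.fixingSubgroup ⊓ A.decompositionSubgroup ℚ) := by
  intro U hUΔ hlev a ha hnp
  have hΔ : IsClosed ((K.fixingSubgroup ⊓ A.decompositionSubgroup ℚ : Subgroup GQ) : Set GQ) := by
    rw [Subgroup.coe_inf]
    exact (InfiniteGalois.fixingSubgroup_isClosed K).inter
      (G.isClosed_decompositionSubgroup A)
  obtain ⟨N, hN, hNU⟩ := hlev
  obtain ⟨F, hF, -, rfl⟩ := (Conc.mem_levSet_iff _ N).1 hN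
  have hU : IsClosed (U : Set GQ) := Conc.isClosed_of_between hΔ hUΔ F hNU
  obtain ⟨α, σ, e, hcyc, hnorm⟩ := exists_cycData_norm hp2 hU
    (fun s hs => hK s (hUΔ hs).1) a ha hnp
  refine ⟨_, σ, e, ?_, hcyc, hnorm⟩
  have hint : IsIntegral ℚ α := Algebra.IsIntegral.isIntegral α
  have : FiniteDimensional ℚ (IntermediateField.adjoin ℚ {α}) :=
    IntermediateField.adjoin.finiteDimensional hint
  obtain ⟨N', hN', hle⟩ := Conc.exists_isLev_le (K.fixingSubgroup ⊓ A.decompositionSubgroup ℚ)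
    (IntermediateField.adjoin ℚ {α})
  obtain ⟨N'', h, h1, h2⟩ := IsLev.exists_le hN hN'
  refine ⟨N'', h, le_inf (h1.trans hNU) fun g hg => ?_⟩
  rw [MulAction.mem_stabilizer_iff]
  exact (IntermediateField.mem_fixingSubgroup_iff _ g).1 (hle (h2 hg)).2 α
    (IntermediateField.mem_adjoin_simple_self ℚ α)

end Fermat.Agent.PT.Br.Inst
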