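import Fermat.Agent.PT.Br.Concrete
import Fermat.Agent.PT.Local.NormIndexHens
import Fermat.Agent.PT.Local.UnramModel
import Fermat.Agent.PT.G.KumLocal

/-!
# PT / BR layer: the concrete norm index (`Conc.NormIdxHyp`) and `Conc.NonPowHyp`

`Δ = G_K ⊓ D_A` the local group of a number field `K` at a valuation subring `A` of `ℚ̄` over a
prime `q`.  For every cyclic step `U ⊇ V` of prime degree `p` between open subgroups of `Δ`, the
norm group `{∏_{i<p} σ^i b | b ∈ (ℚ̄ˣ)^V}` has index `p` in `(ℚ̄ˣ)^U`.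

* `CycStep.galois` : (Artin) `Ω^N / Ω^M` is cyclic Galois of degree `m`, with norm `∏_{i<m} σ^i`;
* `exists_finite_dense` : an open subgroup of `D_A` is of the form `D_A ⊓ G_{K₁}` up to closure,
  with `K₁` a number field;
* `normIdxHyp`, `nonPowHyp` : the targets of `Br/Concrete.lean`.
-/

set_option autoImplicit false
set_option linter.style.haveILetI false
set_option linter.unusedSectionVars false

namespace Fermat.Agent.PT.Br.Inst

open IntermediateField Fermat.Agent.PT.Local

section Galois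

variable {K Ω : Type*} [Field K] [Field Ω] [Algebra K Ω]

/-- A cyclic step `M ⊇ N` of degree `m` in a Galois group, generated by `σ`, with `N` "closed". -/
structure CycStep (M N : Subgroup (Ω ≃ₐ[K] Ω)) (σ : Ω ≃ₐ[K] Ω) (m : ℕ) : Prop where
  le : N ≤ M
  norm : ∀ g ∈ M, ∀ n ∈ N, g⁻¹ * n * g ∈ N
  closed : ∀ g ∈ M, (∀ x ∈ fixedField N, g x = x) → g ∈ N
  mem : σ ∈ M
  pos : 0 < m
  gen : ∀ g ∈ M, ∃ i : ℕ, (σ ^ i)⁻¹ * g ∈ N
  ord : ∀ i : ℕ, σ ^ i ∈ N ↔ m ∣ i

variable {M N : Subgroup (Ω ≃ₐ[K] Ω)} {σ : Ω ≃ₐ[K] Ω} {m : ℕ}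

lemma CycStep.fixedField_le (h : CycStep M N σ m) : fixedField M ≤ fixedField N := by
  intro x hx
  rw [mem_fixedField_iff] at hx ⊢
  exact fun n hn => hx n (h.le hn)

/-- an element of `Ω` fixed by `N` and by `σ` is fixed by `M` -/
lemma CycStep.mem_fixedField (h : CycStep M N σ m) {y : Ω} (hy : y ∈ fixedField N)
    (hσ : σ y = y) : y ∈ fixedField M := by
  rw [mem_fixedField_iff]
  intro g hg
  obtain ⟨i, hi⟩ := h.gen g hg
  have hpow : ∀ j : ℕ, (σ ^ j) y = y := by
    intro j
    induction j with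
    | zero => rfl
    | succ j ih => rw [pow_succ, AlgEquiv.mul_apply, hσ, ih]
  have e1 : g = σ ^ i * ((σ ^ i)⁻¹ * g) := by group
  rw [e1, AlgEquiv.mul_apply, (mem_fixedField_iff N _).1 hy _ hi, hpow]

/-- **Artin.**  For a cyclic step `M ⊇ N` of degree `m` the extension `Ω^N / Ω^M` is Galois of
degree `m`, its automorphisms are the restrictions of the `σ^i`, and its norm is
`b ↦ ∏_{i<m} σ^i b`. -/
theorem CycStep.galois (h : CycStep M N σ m) [Algebra (fixedField M) (fixedField N)]
    (halg : ∀ x : fixedField M,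
      ((algebraMap (fixedField M) (fixedField N) x : fixedField N) : Ω) = (x : Ω)) :
    IsGalois (fixedField M) (fixedField N) ∧ Module.finrank (fixedField M) (fixedField N) = m ∧
    (∀ τ : fixedField N ≃ₐ[fixedField M] fixedField N, ∃ i : ℕ, ∀ y : fixedField N,
      ((τ y : fixedField N) : Ω) = (σ ^ i) (y : Ω)) ∧
    (∀ b : fixedField N, ((algebraMap (fixedField M) (fixedField N)
      (Algebra.norm (fixedField M) b) : fixedField N) : Ω) =
        ∏ i ∈ Finset.range m, (σ ^ i) (b : Ω)) := by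
  classical
  let s : RingAut (fixedField N) := resFixed M N h.norm ⟨σ, h.mem⟩
  have hs_pow : ∀ (i : ℕ) (y : fixedField N), (((s ^ i) y : fixedField N) : Ω) = (σ ^ i) (y : Ω) := by
    intro i y
    have e1 : s ^ i = resFixed M N h.norm (⟨σ, h.mem⟩ ^ i) := (map_pow _ _ _).symm
    rw [e1, resFixed_apply]
    rfl
  have hs_one : ∀ i : ℕ, s ^ i = 1 ↔ m ∣ i := by
    intro i
    rw [← h.ord i]
    constructor
    · intro h1
      refine h.closed _ (M.pow_mem h.mem i) (fun x hx => ?_)
      have e2 := hs_pow i ⟨x, hx⟩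
      rw [h1] at e2
      exact e2.symm
    · intro h1
      ext y
      rw [hs_pow]
      exact (mem_fixedField_iff N _).1 y.2 _ h1
  have hord : orderOf s = m := by
    apply Nat.dvd_antisymm
    · exact orderOf_dvd_of_pow_eq_one ((hs_one m).2 dvd_rfl)
    · exact (hs_one _).1 (pow_orderOf_eq_one s)
  have hcardG : Nat.card (Subgroup.zpowers s) = m := by rw [Nat.card_zpowers, hord]
  haveI : Finite (Subgroup.zpowers s) :=
    Nat.finite_of_card_ne_zero (by rw [hcardG]; exact h.pos.ne')
  letI : Fintype (Subgroup.zpowers s) := Fintype.ofFinite _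
  -- elements of `Ω^M` are fixed by `s`
  have hsfix : ∀ x : fixedField M, s (algebraMap (fixedField M) (fixedField N) x) =
      algebraMap (fixedField M) (fixedField N) x := by
    intro x
    apply Subtype.ext
    have e1 := hs_pow 1 (algebraMap (fixedField M) (fixedField N) x)
    rw [pow_one, pow_one] at e1
    rw [e1, halg]
    exact (mem_fixedField_iff M _).1 x.2 _ h.mem
  have hGfix : ∀ (x : fixedField M) (g : Subgroup.zpowers s),
      g • algebraMap (fixedField M) (fixedField N) x =
        algebraMap (fixedField M) (fixedField N) x := by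
    intro x g
    have hle : Subgroup.zpowers s ≤ MulAction.stabilizer (RingAut (fixedField N))
        (algebraMap (fixedField M) (fixedField N) x) :=
      (Subgroup.zpowers_le).2 (hsfix x)
    exact hle g.2
  -- the identification of `Ω^M` with the fixed subfield
  let ψ : fixedField M →+* FixedPoints.subfield (Subgroup.zpowers s) (fixedField N) :=
    (algebraMap (fixedField M) (fixedField N)).codRestrict _ (fun x g => hGfix x g)
  have hψ : Function.Bijective ψ := by
    constructor
    · exact ψ.injective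
    · intro y
      have hsy : s (y : fixedField N) = (y : fixedField N) :=
        y.2 ⟨s, Subgroup.mem_zpowers s⟩
      have hσy : σ ((y : fixedField N) : Ω) = ((y : fixedField N) : Ω) := by
        have e1 := hs_pow 1 (y : fixedField N)
        rw [pow_one, pow_one, hsy] at e1
        exact e1.symm
      refine ⟨⟨((y : fixedField N) : Ω), h.mem_fixedField (y : fixedField N).2 hσy⟩, ?_⟩
      apply Subtype.ext
      apply Subtype.ext
      exact halg _
  let φ : fixedField M ≃+* FixedPoints.subfield (Subgroup.zpowers s) (fixedField N) :=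
    RingEquiv.ofBijective ψ hψ
  have hφ : ∀ x : fixedField M, ((φ x : FixedPoints.subfield (Subgroup.zpowers s) (fixedField N)) :
      fixedField N) = algebraMap (fixedField M) (fixedField N) x := fun x => rfl
  have hcomp : (algebraMap (fixedField M) (fixedField N)).comp (φ.symm : _ →+* fixedField M) =
      ((RingEquiv.refl (fixedField N) : fixedField N ≃+* fixedField N) :
        fixedField N →+* fixedField N).comp
        (algebraMap (FixedPoints.subfield (Subgroup.zpowers s) (fixedField N)) (fixedField N)) := by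
    ext z
    have e1 := hφ (φ.symm z)
    rw [RingEquiv.apply_symm_apply] at e1
    exact congrArg Subtype.val e1.symm
  haveI hgal : IsGalois (fixedField M) (fixedField N) :=
    IsGalois.of_equiv_equiv (F := FixedPoints.subfield (Subgroup.zpowers s) (fixedField N))
      (E := fixedField N) (f := φ.symm) (g := RingEquiv.refl (fixedField N)) hcomp
  have hrank : Module.finrank (fixedField M) (fixedField N) = m := by
    have e1 := Algebra.finrank_eq_of_equiv_equiv φ.symm (RingEquiv.refl (fixedField N)) hcomp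
    rw [← e1, FixedPoints.finrank_eq_card, ← Nat.card_eq_fintype_card, hcardG]
  haveI : FiniteDimensional (fixedField M) (fixedField N) :=
    Module.finite_of_finrank_pos (by rw [hrank]; exact h.pos)
  -- the automorphisms `s^i`
  have hcomm : ∀ (i : ℕ) (x : fixedField M), (s ^ i) (algebraMap (fixedField M) (fixedField N) x) =
      algebraMap (fixedField M) (fixedField N) x := by
    intro i x
    induction i with
    | zero => rfl
    | succ i ih => rw [pow_succ, RingAut.mul_apply, hsfix, ih]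
  let τ : ℕ → (fixedField N ≃ₐ[fixedField M] fixedField N) := fun i =>
    AlgEquiv.ofRingEquiv (f := s ^ i) (hcomm i)
  have hτ : ∀ (i : ℕ) (y : fixedField N), τ i y = (s ^ i) y := fun i y => rfl
  have hinj : Function.Injective (fun i : Fin m => τ i) := by
    intro i j hij
    have h1 : s ^ (i : ℕ) = s ^ (j : ℕ) := by
      ext y
      have := congrArg (fun t : fixedField N ≃ₐ[fixedField M] fixedField N => t y) hij
      exact congrArg Subtype.val this
    have h2 := pow_injOn_Iio_orderOf (x := s) (by rw [hord]; exact i.2) (by rw [hord]; exact j.2) h1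
    exact Fin.ext h2
  have hcardGal : Fintype.card (fixedField N ≃ₐ[fixedField M] fixedField N) = Fintype.card (Fin m) := by
    rw [Fintype.card_fin, ← Nat.card_eq_fintype_card, IsGalois.card_aut_eq_finrank, hrank]
  have hbij : Function.Bijective (fun i : Fin m => τ i) :=
    (Fintype.bijective_iff_injective_and_card _).2 ⟨hinj, hcardGal.symm⟩
  refine ⟨hgal, hrank, fun t => ?_, fun b => ?_⟩
  · obtain ⟨i, rfl⟩ := hbij.2 t
    exact ⟨i, fun y => by rw [hτ, hs_pow]⟩
  · rw [Algebra.norm_eq_prod_automorphisms, ← Fintype.prod_bijective _ hbij _ _ (fun i => rfl),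
      Fin.prod_univ_eq_prod_range (fun i => τ i b) m]
    have e3 : ((∏ i ∈ Finset.range m, τ i b : fixedField N) : Ω) =
        ∏ i ∈ Finset.range m, ((τ i b : fixedField N) : Ω) :=
      map_prod (fixedField N).val _ _
    rw [e3]
    exact Finset.prod_congr rfl fun i _ => by rw [hτ, hs_pow]

end Galois

section QbSec

open Fermat.Agent.PT Fermat.Agent.PT.Br Fermat.Agent.PT.Kummer

local notation "Qb" => AlgebraicClosure ℚ
local notation "GQ" => (AlgebraicClosure ℚ ≃ₐ[ℚ] AlgebraicClosure ℚ)

attribute [local instance] MulBridge.additiveAction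
attribute [local instance] Fermat.Agent.Lib.GalQbar.isAlgClosure_rat
  Fermat.Agent.Lib.GalQbar.isGalois_rat Fermat.Agent.Lib.GalQbar.isAlgebraic_rat

/-- An open subgroup `U` of `D_A` contains `D_A ⊓ G_{K₁}` for a number field `K₁ ⊆ ℚ̄^U`. -/
theorem exists_finite_le (A : ValuationSubring Qb) {U : Subgroup GQ}
    (hU : U ≤ A.decompositionSubgroup ℚ) (F : IntermediateField ℚ Qb) [FiniteDimensional ℚ F]
    [Normal ℚ F] (hF : A.decompositionSubgroup ℚ ⊓ F.fixingSubgroup ≤ U) :
    ∃ K₁ : IntermediateField ℚ Qb, FiniteDimensional ℚ K₁ ∧ K₁ ≤ fixedField U ∧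
      A.decompositionSubgroup ℚ ⊓ K₁.fixingSubgroup ≤ U := by
  refine ⟨fixedField U ⊓ F, ?_, inf_le_left, ?_⟩
  · have hle : fixedField U ⊓ F ≤ F := inf_le_right
    exact FiniteDimensional.of_injective (IntermediateField.inclusion hle).toLinearMap
      (IntermediateField.inclusion_injective hle)
  · intro g hg
    obtain ⟨hgD, hgK⟩ := Subgroup.mem_inf.mp hg
    let H : Subgroup (F ≃ₐ[ℚ] F) := U.map (AlgEquiv.restrictNormalHom F)
    have h1 : AlgEquiv.restrictNormalHom F g ∈ (fixedField H).fixingSubgroup := by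
      rw [IntermediateField.mem_fixingSubgroup_iff]
      intro y hy
      have hyK : (y : Qb) ∈ fixedField U ⊓ F := by
        refine ⟨?_, y.2⟩
        rw [SetLike.mem_coe, mem_fixedField_iff]
        intro u hu
        have e1 := (mem_fixedField_iff H y).1 hy _ ⟨u, hu, rfl⟩
        have e2 := AlgEquiv.restrictNormal_commutes u F y
        exact e2.symm.trans (congrArg (algebraMap F Qb) e1)
      have e3 := AlgEquiv.restrictNormal_commutes g F y
      apply Subtype.ext
      exact e3.trans ((IntermediateField.mem_fixingSubgroup_iff _ _).1 hgK _ hyK)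
    rw [IntermediateField.fixingSubgroup_fixedField] at h1
    obtain ⟨u, huU, hu⟩ := h1
    have h2 : u⁻¹ * g ∈ F.fixingSubgroup := by
      rw [IntermediateField.mem_fixingSubgroup_iff]
      intro x hx
      have e4 : AlgEquiv.restrictNormalHom F (u⁻¹ * g) = 1 := by
        rw [map_mul, map_inv, hu, inv_mul_cancel]
      have e5 := AlgEquiv.restrictNormal_commutes (u⁻¹ * g) F ⟨x, hx⟩
      have e6 : (u⁻¹ * g).restrictNormal F = 1 := e4
      rw [e6] at e5
      exact e5.symm
    have h3 : u⁻¹ * g ∈ U := hF (Subgroup.mem_inf.mpr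
      ⟨(A.decompositionSubgroup ℚ).mul_mem ((A.decompositionSubgroup ℚ).inv_mem (hU huU)) hgD, h2⟩)
    have e7 : g = u * (u⁻¹ * g) := by group
    rw [e7]
    exact U.mul_mem huU h3

/-- The valuation ring `A ∩ ℚ̄^U` of the fixed field of an open subgroup `U` of `D_A` is a
henselian discrete valuation ring with finite residue field. -/
theorem localRing_data {q : ℕ} (hq : q.Prime) (A : ValuationSubring Qb) (hA : A.LiesOverPrime q)
    {U : Subgroup GQ} (hU : U ≤ A.decompositionSubgroup ℚ) (F : IntermediateField ℚ Qb)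
    [FiniteDimensional ℚ F] [Normal ℚ F]
    (hF : A.decompositionSubgroup ℚ ⊓ F.fixingSubgroup ≤ U) :
    HenselianLocalRing (A.comap (algebraMap (fixedField U) Qb)) ∧
    IsDiscreteValuationRing (A.comap (algebraMap (fixedField U) Qb)) ∧
    Finite (IsLocalRing.ResidueField (A.comap (algebraMap (fixedField U) Qb))) := by
  obtain ⟨K₁, hfin, hK₁U, hK₁⟩ := exists_finite_le A hU F hF
  haveI : NumberField K₁ := { to_charZero := inferInstance, to_finiteDimensional := hfin }
  have hdense : ∀ x ∈ fixedField U, ∀ c : ℕ, ∃ y ∈ K₁, (x - y) / (q : Qb) ^ c ∈ A := by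
    intro x hx c
    exact exists_mem_sub_div_mem K₁ hq A hA x
      (fun g hg => (mem_fixedField_iff U x).1 hx g (hK₁ hg)) c
  exact ⟨henselianLocalRing_fixedField A U hU,
    isDiscreteValuationRing_comap hq hA K₁ (fixedField U) hK₁U hdense,
    finite_residueField_comap hq hA K₁ (fixedField U) hK₁U hdense⟩

lemma toMul_partialNm_val (σ : GQ) (k : ℕ) (b : Additive Qbˣ) :
    (((partialNm σ k b).toMul : Qbˣ) : Qb) =
      ∏ i ∈ Finset.range k, (σ ^ i) ((b.toMul : Qbˣ) : Qb) := by
  unfold partialNm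
  rw [toMul_sum, Units.coe_prod]
  rfl

lemma mem_fixG_iff (U : Subgroup GQ) (a : Additive Qbˣ) :
    a ∈ fixG (Additive Qbˣ) U ↔ ((a.toMul : Qbˣ) : Qb) ∈ fixedField U := by
  rw [mem_fixG, mem_fixedField_iff]
  exact forall₂_congr fun g _ => Conc.smul_eq_iff g a

/-- **The concrete norm index**: for a cyclic step `U ⊇ V` of prime degree `p` between open
subgroups of `D_A`, the norm group of `V` has index `p` in `(ℚ̄ˣ)^U`. -/
theorem normIdx_of_cycData {p : ℕ} (hp : p.Prime) {q : ℕ} (hq : q.Prime)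
    (A : ValuationSubring Qb) (hA : A.LiesOverPrime q) {U V : Subgroup GQ} {σ : GQ} {e : GQ → ℕ}
    (hU : U ≤ A.decompositionSubgroup ℚ) (F : IntermediateField ℚ Qb) [FiniteDimensional ℚ F]
    [Normal ℚ F] (hF : A.decompositionSubgroup ℚ ⊓ F.fixingSubgroup ≤ V)
    (h : CycData U V p σ e) :
    ∃ a₀ ∈ fixG (Additive Qbˣ) U, a₀ ∉ normG (Additive Qbˣ) σ p V ∧
      fixG (Additive Qbˣ) U ≤ AddSubgroup.zmultiples a₀ ⊔ normG (Additive Qbˣ) σ p V := by
  classical
  haveI : Fact p.Prime := ⟨hp⟩
  have hVU := h.normal.le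
  have hV : V ≤ A.decompositionSubgroup ℚ := hVU.trans hU
  have hVcl : IsClosed (V : Set GQ) :=
    Conc.isClosed_of_between (G.isClosed_decompositionSubgroup A) hV F hF
  have cs : CycStep U V σ p :=
    { le := hVU
      norm := fun g hg n hn => h.normal.conj' hg hn
      closed := fun g _ hg => by
        rw [← Conc.fixingSubgroup_fixedField_of_isClosed hVcl,
          IntermediateField.mem_fixingSubgroup_iff]
        exact hg
      mem := h.σ_mem
      pos := hp.pos
      gen := fun g hg => ⟨e g, h.e_spec g hg⟩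
      ord := fun i => by
        rw [h.mem_iff (h.pow_mem i), h.e_pow, Nat.dvd_iff_mod_eq_zero] }
  letI alg : Algebra (fixedField U) (fixedField V) :=
    (IntermediateField.inclusion cs.fixedField_le).toRingHom.toAlgebra
  have halg : ∀ x : fixedField U,
      ((algebraMap (fixedField U) (fixedField V) x : fixedField V) : Qb) = (x : Qb) := fun x => rfl
  obtain ⟨hgal, hrank, hτ, hnorm⟩ := cs.galois halg
  haveI := hgal
  haveI : FiniteDimensional (fixedField U) (fixedField V) :=
    Module.finite_of_finrank_pos (by rw [hrank]; exact hp.pos)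
  obtain ⟨i1, i2, i3⟩ := localRing_data hq A hA hU F (hF.trans hVU)
  obtain ⟨j1, j2, j3⟩ := localRing_data hq A hA hV F hF
  haveI := i1
  haveI := i2
  haveI := i3
  haveI := j1
  haveI := j2
  haveI := j3
  have hR : A.comap (algebraMap (fixedField U) Qb) =
      (A.comap (algebraMap (fixedField V) Qb)).comap (algebraMap (fixedField U) (fixedField V)) := by
    ext x
    rfl
  have hB : ∀ τ : fixedField V ≃ₐ[fixedField U] fixedField V,
      ∀ x ∈ A.comap (algebraMap (fixedField V) Qb), τ x ∈ A.comap (algebraMap (fixedField V) Qb) := by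
    intro τ x hx
    obtain ⟨i, hi⟩ := hτ τ
    show ((τ x : fixedField V) : Qb) ∈ A
    rw [hi, G.apply_mem_iff_of_mem_decomp (hU (U.pow_mem h.σ_mem i))]
    exact hx
  have hp0 : ((p : ℕ) : fixedField U) ≠ 0 := Nat.cast_ne_zero.mpr hp.ne_zero
  have hidx := norm_index_of_henselian p hrank (A.comap (algebraMap (fixedField U) Qb))
    (A.comap (algebraMap (fixedField V) Qb)) hR hB hp0
  set Nm : (fixedField V)ˣ →* (fixedField U)ˣ :=
    Units.map (Algebra.norm (fixedField U) : fixedField V →* fixedField U) with hNm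
  have hNmval : ∀ b : (fixedField V)ˣ, (((Nm b : (fixedField U)ˣ) : fixedField U) : Qb) =
      ∏ i ∈ Finset.range p, (σ ^ i) (((b : (fixedField V)ˣ) : fixedField V) : Qb) := by
    intro b
    have e1 := hnorm (b : fixedField V)
    rw [halg] at e1
    exact e1
  have hHne : Nm.range ≠ ⊤ := by
    intro htop
    rw [htop, Subgroup.index_top] at hidx
    exact hp.one_lt.ne hidx
  obtain ⟨u₀, hu₀⟩ : ∃ u₀ : (fixedField U)ˣ, u₀ ∉ Nm.range := by
    by_contra hcon
    push Not at hcon
    exact hHne (eq_top_iff.mpr fun x _ => hcon x)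
  have hgen : ∀ u : (fixedField U)ˣ, ∃ k : ℤ, ∃ b : (fixedField V)ˣ, u = u₀ ^ k * Nm b := by
    intro u
    have hcard : Nat.card ((fixedField U)ˣ ⧸ Nm.range) = p := hidx
    have hne1 : (QuotientGroup.mk u₀ : (fixedField U)ˣ ⧸ Nm.range) ≠ 1 :=
      fun h1 => hu₀ ((QuotientGroup.eq_one_iff _).mp h1)
    have htop := zpowers_eq_top_of_prime_card hcard hne1
    have hmem : (QuotientGroup.mk u : (fixedField U)ˣ ⧸ Nm.range) ∈
        Subgroup.zpowers (QuotientGroup.mk u₀ : (fixedField U)ˣ ⧸ Nm.range) := by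
      rw [htop]
      trivial
    obtain ⟨k, hk⟩ := Subgroup.mem_zpowers_iff.mp hmem
    have h2 : (QuotientGroup.mk (u₀ ^ k) : (fixedField U)ˣ ⧸ Nm.range) = QuotientGroup.mk u := by
      rw [QuotientGroup.mk_zpow]
      exact hk
    obtain ⟨b, hb⟩ := QuotientGroup.eq.mp h2
    exact ⟨k, b, by rw [hb]; group⟩
  -- the element `a₀`
  have hu₀0 : ((u₀ : fixedField U) : Qb) ≠ 0 := fun h0 => u₀.ne_zero (Subtype.ext h0)
  refine ⟨Additive.ofMul (Units.mk0 ((u₀ : fixedField U) : Qb) hu₀0), ?_, ?_, ?_⟩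
  · rw [mem_fixG_iff]
    exact (u₀ : fixedField U).2
  · intro hmem
    obtain ⟨β, hβ, hEq⟩ := mem_normG.mp hmem
    have hβV : ((β.toMul : Qbˣ) : Qb) ∈ fixedField V := (mem_fixG_iff V β).1 hβ
    have hβ0 : (⟨((β.toMul : Qbˣ) : Qb), hβV⟩ : fixedField V) ≠ 0 :=
      fun h0 => (β.toMul).ne_zero (congrArg Subtype.val h0)
    apply hu₀
    refine ⟨Units.mk0 _ hβ0, ?_⟩
    apply Units.ext
    apply Subtype.ext
    rw [hNmval]
    have e2 := congrArg (fun x : Additive Qbˣ => ((x.toMul : Qbˣ) : Qb)) hEq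
    simp only [toMul_partialNm_val] at e2
    exact e2.symm
  · intro a ha
    have haU : ((a.toMul : Qbˣ) : Qb) ∈ fixedField U := (mem_fixG_iff U a).1 ha
    have ha0 : (⟨((a.toMul : Qbˣ) : Qb), haU⟩ : fixedField U) ≠ 0 :=
      fun h0 => (a.toMul).ne_zero (congrArg Subtype.val h0)
    obtain ⟨k, b, hkb⟩ := hgen (Units.mk0 _ ha0)
    have hb0 : (((b : (fixedField V)ˣ) : fixedField V) : Qb) ≠ 0 :=
      fun h0 => b.ne_zero (Subtype.ext h0)
    refine AddSubgroup.mem_sup.mpr ⟨k • Additive.ofMul (Units.mk0 ((u₀ : fixedField U) : Qb) hu₀0),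
      zsmul_mem (AddSubgroup.mem_zmultiples _) k,
      partialNm σ p (Additive.ofMul (Units.mk0 _ hb0)),
      mem_normG.mpr ⟨Additive.ofMul (Units.mk0 _ hb0), ?_, rfl⟩, ?_⟩
    · exact (mem_fixG_iff V _).2 (b : fixedField V).2
    · apply Additive.toMul.injective
      apply Units.ext
      rw [toMul_add, Units.val_mul, toMul_zsmul, Units.val_zpow_eq_zpow_val, toMul_partialNm_val]
      have e2 := congrArg (fun x : (fixedField U)ˣ => (((x : fixedField U)) : Qb)) hkb
      simp only [Units.val_mul, Units.val_zpow_eq_zpow_val, Units.val_mk0] at e2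
      rw [IntermediateField.coe_mul, hNmval] at e2
      have e3 : (((u₀ : fixedField U) ^ k : fixedField U) : Qb) = ((u₀ : fixedField U) : Qb) ^ k :=
        map_zpow₀ (algebraMap (fixedField U) Qb) _ k
      rw [e2, e3]
      rfl

/-- **(T-NI)** The norm index hypothesis of the lines theorem for `Δ = Gal(ℚ̄/K) ⊓ D_A`, `K` any
number field, `A` over a prime `q`. -/
theorem normIdxHyp {p : ℕ} [Fact p.Prime] (K : IntermediateField ℚ Qb) [FiniteDimensional ℚ K]
    (A : ValuationSubring Qb) {q : ℕ} (hq : q.Prime) (hA : A.LiesOverPrime q) :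
    Conc.NormIdxHyp p (K.fixingSubgroup ⊓ A.decompositionSubgroup ℚ) := by
  intro U V σ e hUΔ hlev h
  obtain ⟨N, hN, hNV⟩ := hlev
  obtain ⟨F, hFfin, hFnorm, rfl⟩ := (Conc.mem_levSet_iff _ N).1 hN
  haveI := hFfin
  haveI := hFnorm
  -- a finite Galois extension containing `K` and `F`
  haveI : FiniteDimensional ℚ (K ⊔ F : IntermediateField ℚ Qb) := inferInstance
  have hle : (K ⊔ F : IntermediateField ℚ Qb) ≤
      IntermediateField.normalClosure ℚ (K ⊔ F : IntermediateField ℚ Qb) Qb :=
    IntermediateField.le_normalClosure _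
  have hfix : (IntermediateField.normalClosure ℚ (K ⊔ F : IntermediateField ℚ Qb) Qb).fixingSubgroup
      ≤ K.fixingSubgroup ⊓ F.fixingSubgroup :=
    le_inf (IntermediateField.fixingSubgroup_le (le_sup_left.trans hle))
      (IntermediateField.fixingSubgroup_le (le_sup_right.trans hle))
  haveI : Normal ℚ (IntermediateField.normalClosure ℚ (K ⊔ F : IntermediateField ℚ Qb) Qb) :=
    normalClosure.normal ℚ _ Qb
  refine normIdx_of_cycData (Fact.out : p.Prime) hq A hA (hUΔ.trans inf_le_right)
    (IntermediateField.normalClosure ℚ (K ⊔ F : IntermediateField ℚ Qb) Qb) ?_ h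
  refine le_trans ?_ hNV
  intro g hg
  obtain ⟨hgD, hgF⟩ := Subgroup.mem_inf.mp hg
  obtain ⟨hgK, hgF'⟩ := Subgroup.mem_inf.mp (hfix hgF)
  exact Subgroup.mem_inf.mpr ⟨Subgroup.mem_inf.mpr ⟨hgK, hgD⟩, hgF'⟩

/-- **(T-NP)** Some element of `(ℚ̄ˣ)^Δ` is not a `p`-th power there, `Δ = Gal(ℚ̄/K) ⊓ D_A`. -/
theorem nonPowHyp {p : ℕ} [Fact p.Prime] (K : IntermediateField ℚ Qb) [FiniteDimensional ℚ K]
    (A : ValuationSubring Qb) {q : ℕ} (hq : q.Prime) (hA : A.LiesOverPrime q) :
    Conc.NonPowHyp p (K.fixingSubgroup ⊓ A.decompositionSubgroup ℚ) := by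
  have hp : p.Prime := Fact.out
  haveI : Normal ℚ (IntermediateField.normalClosure ℚ K Qb) := normalClosure.normal ℚ _ Qb
  have hF : A.decompositionSubgroup ℚ ⊓ (IntermediateField.normalClosure ℚ K Qb).fixingSubgroup ≤
      K.fixingSubgroup ⊓ A.decompositionSubgroup ℚ := by
    intro g hg
    obtain ⟨hgD, hgF⟩ := Subgroup.mem_inf.mp hg
    exact Subgroup.mem_inf.mpr
      ⟨IntermediateField.fixingSubgroup_le (IntermediateField.le_normalClosure K) hgF, hgD⟩
  obtain ⟨i1, i2, i3⟩ := localRing_data hq A hA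
    (inf_le_right : K.fixingSubgroup ⊓ A.decompositionSubgroup ℚ ≤ A.decompositionSubgroup ℚ)
    (IntermediateField.normalClosure ℚ K Qb) hF
  haveI := i1
  haveI := i2
  haveI := i3
  set Δ : Subgroup GQ := K.fixingSubgroup ⊓ A.decompositionSubgroup ℚ with hΔ
  have hpR : ((p : ℕ) : A.comap (algebraMap (fixedField Δ) Qb)) ≠ 0 := by
    intro h0
    have h1 := congrArg (fun x : A.comap (algebraMap (fixedField Δ) Qb) =>
      (((x : fixedField Δ)) : Qb)) h0
    have h2 : ((p : ℕ) : Qb) = 0 := by simpa using h1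
    exact hp.ne_zero (Nat.cast_eq_zero.mp h2)
  have hcard := card_fracUnits_quot_pow (A.comap (algebraMap (fixedField Δ) Qb)) (fixedField Δ) p hpR
  have hne : (powMonoidHom p : (fixedField Δ)ˣ →* (fixedField Δ)ˣ).range ≠ ⊤ := by
    intro htop
    have h1 : Nat.card ((fixedField Δ)ˣ ⧸ (powMonoidHom p : (fixedField Δ)ˣ →* (fixedField Δ)ˣ).range)
        = 1 := by
      rw [htop]
      exact Subgroup.index_top
    rw [hcard, mul_assoc] at h1
    exact hp.one_lt.ne' (Nat.dvd_one.mp (Dvd.intro _ h1))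
  obtain ⟨u, hu⟩ : ∃ u : (fixedField Δ)ˣ,
      u ∉ (powMonoidHom p : (fixedField Δ)ˣ →* (fixedField Δ)ˣ).range := by
    by_contra hcon
    push Not at hcon
    exact hne (eq_top_iff.mpr fun x _ => hcon x)
  have hu0 : ((u : fixedField Δ) : Qb) ≠ 0 := fun h0 => u.ne_zero (Subtype.ext h0)
  refine ⟨Additive.ofMul (Units.mk0 ((u : fixedField Δ) : Qb) hu0), ?_, ?_⟩
  · rw [mem_fixG_iff]
    exact (u : fixedField Δ).2
  · intro b hb hab
    have hbΔ : ((b.toMul : Qbˣ) : Qb) ∈ fixedField Δ := (mem_fixG_iff Δ b).1 hb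
    have hb0 : (⟨((b.toMul : Qbˣ) : Qb), hbΔ⟩ : fixedField Δ) ≠ 0 :=
      fun h0 => (b.toMul).ne_zero (congrArg Subtype.val h0)
    apply hu
    refine ⟨Units.mk0 _ hb0, ?_⟩
    apply Units.ext
    apply Subtype.ext
    have e2 := congrArg (fun x : Additive Qbˣ => ((x.toMul : Qbˣ) : Qb)) hab
    simp only [toMul_nsmul, Units.val_pow_eq_pow_val, toMul_ofMul, Units.val_mk0] at e2
    rw [e2]
    rfl

end QbSec

end Fermat.Agent.PT.Br.Inst
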