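import Fermat.Agent.PT.Br.B3
import Fermat.Agent.PT.Br.B3T
import Fermat.Agent.PT.Br.InstHyp
import Fermat.Agent.PT.Br.NormIdxQb

/-!
# PT / BR layer: the local targets (B3) and (B3T) of `PT/Base/Interfaces.lean`, closed

`h²(Gal(ℚ̄/K) ⊓ D_A; 𝔽_p) = 1` for every number field `K ⊇ μ_p` and every valuation subring `A`
of `ℚ̄` over a prime of `S`, and `h²(D_q; 𝔽_p(χ_cyc)) = 1` for `q ∈ S` (`p` odd):
the lines theorem (`Br/Lines`) + Kummer (`Br/InstHyp`) + the local norm index (`Br/NormIdxQb`)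
fed into the assemblies `Conc.b3_of`, `Conc.b3T_of`.
-/

set_option autoImplicit false

namespace Fermat.Agent.PT.Br.Inst

open Fermat.Agent.PT Fermat.Agent.PT.Br Fermat.Agent.PT.Br.Conc ExtCitation

/-- **(B3)**: local `H²` with `𝔽_p`-coefficients is one-dimensional (`μ_p ⊂ K`, `p` odd). -/
theorem b3_holds (p : ℕ) [Fact p.Prime] (hp2 : p ≠ 2) (S : Finset Nat.Primes) : Base.B3 p S :=
  b3_of S (fun K hKf hK q _ A hA => by
    have := hKf
    exact ⟨normIdxHyp K A q.2 hA, kummerHyp hp2 K hK A, nonPowHyp K A q.2 hA⟩)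

/-- **(B3T)**: `h²(D_q; 𝔽_p(χ_cyc)) = 1` for `q ∈ S` (`p` odd). -/
theorem b3T_holds (p : ℕ) [Fact p.Prime] (hp2 : p ≠ 2) (S : Finset Nat.Primes)
    (hpS : pPrime p ∈ S) : Base.B3T p S hpS :=
  b3T_of hp2 S hpS (fun K hKf q _ A hA => by have := hKf; exact normIdxHyp K A q.2 hA)
    (fun K hKf hK q _ A _ => by have := hKf; exact kummerHyp hp2 K hK A)

end Fermat.Agent.PT.Br.Inst
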