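import Fermat.Agent.PT.Br.Transfer

/-!
# PT / BR layer: more on cyclic quotients

* the character `χ g = (e g : ZMod m)` of a `CycData`, commutators, `g ^ m ∈ N`;
* restriction of a `CycData M N₂` to a subgroup `N₁ ∋ σ₂`;
* change of generator (`CycData.exists_of_not_mem`), two distinct cyclic steps are incomparable;
* fixed points `fixG U`, norm groups `normG σ m N`, independence of the generator;
* a cyclic step from a normal subgroup of prime index (`exists_cycData_of_relIndex_prime`).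
-/

set_option autoImplicit false
set_option linter.style.haveILetI false

namespace Fermat.Agent.PT.Br

open Finset

variable {Γ A : Type*} [Group Γ] [AddCommGroup A] [DistribMulAction Γ A]

namespace CycData

variable {M N : Subgroup Γ} {m : ℕ} {σ : Γ} {e : Γ → ℕ}

lemma neZero (h : CycData M N m σ e) : NeZero m := ⟨by have := h.one_lt; omega⟩

/-- the character `M → ZMod m` of a cyclic step -/
lemma chi_mul (h : CycData M N m σ e) {g k : Γ} (hg : g ∈ M) (hk : k ∈ M) :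
    ((e (g * k) : ℕ) : ZMod m) = (e g : ZMod m) + (e k : ZMod m) := by
  rw [h.e_mul g hg k hk, ZMod.natCast_mod, Nat.cast_add]

lemma chi_one (h : CycData M N m σ e) : ((e 1 : ℕ) : ZMod m) = 0 := by
  rw [h.e_one, Nat.cast_zero]

lemma chi_inv (h : CycData M N m σ e) {g : Γ} (hg : g ∈ M) :
    ((e g⁻¹ : ℕ) : ZMod m) = - (e g : ZMod m) := by
  have h1 := h.chi_mul hg (M.inv_mem hg)
  rw [mul_inv_cancel, h.chi_one] at h1
  exact eq_neg_of_add_eq_zero_right h1.symm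

lemma chi_pow (h : CycData M N m σ e) {g : Γ} (hg : g ∈ M) (k : ℕ) :
    ((e (g ^ k) : ℕ) : ZMod m) = (k : ZMod m) * (e g : ZMod m) := by
  induction k with
  | zero => rw [pow_zero, h.chi_one, Nat.cast_zero, zero_mul]
  | succ k ih =>
    rw [pow_succ, h.chi_mul (M.pow_mem hg k) hg, ih, Nat.cast_succ]
    ring

lemma e_eq_zero_of_chi (h : CycData M N m σ e) {g : Γ} (hg : g ∈ M)
    (h0 : ((e g : ℕ) : ZMod m) = 0) : e g = 0 := by
  rw [ZMod.natCast_eq_zero_iff] at h0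
  exact Nat.eq_zero_of_dvd_of_lt h0 (h.e_lt g hg)

lemma mem_iff (h : CycData M N m σ e) {g : Γ} (hg : g ∈ M) : g ∈ N ↔ e g = 0 := by
  constructor
  · exact h.e_N g
  · intro h0
    have := h.e_spec g hg
    rw [h0] at this
    simpa using this

lemma mem_iff_chi (h : CycData M N m σ e) {g : Γ} (hg : g ∈ M) :
    g ∈ N ↔ ((e g : ℕ) : ZMod m) = 0 := by
  rw [h.mem_iff hg]
  constructor
  · intro h0
    rw [h0, Nat.cast_zero]
  · exact h.e_eq_zero_of_chi hg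

/-- `M/N` is abelian. -/
lemma comm_mem (h : CycData M N m σ e) {g k : Γ} (hg : g ∈ M) (hk : k ∈ M) :
    (k * g)⁻¹ * (g * k) ∈ N := by
  have hkg := M.mul_mem hk hg
  have hgk := M.mul_mem hg hk
  rw [h.mem_iff_chi (M.mul_mem (M.inv_mem hkg) hgk), h.chi_mul (M.inv_mem hkg) hgk,
    h.chi_inv hkg, h.chi_mul hk hg, h.chi_mul hg hk]
  ring

/-- `M/N` has exponent `m`. -/
lemma pow_mem_N (h : CycData M N m σ e) {g : Γ} (hg : g ∈ M) : g ^ m ∈ N := by
  rw [h.mem_iff_chi (M.pow_mem hg m), h.chi_pow hg, ZMod.natCast_self, zero_mul]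

lemma e_left (h : CycData M N m σ e) {g n : Γ} (hg : g ∈ M) (hn : n ∈ N) :
    e (n * g) = e g := by
  rw [h.e_mul n (h.normal.le hn) g hg, h.e_N n hn, zero_add, Nat.mod_eq_of_lt (h.e_lt g hg)]

lemma σ_not_mem (h : CycData M N m σ e) : σ ∉ N := by
  intro hσ
  have := h.e_N σ hσ
  rw [h.e_σ] at this
  exact one_ne_zero this

/-- Restriction of a cyclic step `M ⊇ N₂` to a subgroup `N₁` containing the generator. -/
lemma restrict {N₂ : Subgroup Γ} {σ₂ : Γ} {e₂ : Γ → ℕ} (h₂ : CycData M N₂ m σ₂ e₂)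
    (N₁ : Subgroup Γ) (hN₁ : N₁ ≤ M) (hσ : σ₂ ∈ N₁) : CycData N₁ (N₁ ⊓ N₂) m σ₂ e₂ where
  normal := ⟨inf_le_left, fun g hg n hn =>
    ⟨N₁.mul_mem (N₁.mul_mem hg hn.1) (N₁.inv_mem hg), h₂.normal.conj g (hN₁ hg) n hn.2⟩⟩
  one_lt := h₂.one_lt
  σ_mem := hσ
  e_lt := fun g hg => h₂.e_lt g (hN₁ hg)
  e_spec := fun g hg =>
    ⟨N₁.mul_mem (N₁.inv_mem (N₁.pow_mem hσ _)) hg, h₂.e_spec g (hN₁ hg)⟩
  e_mul := fun g hg k hk => h₂.e_mul g (hN₁ hg) k (hN₁ hk)
  e_σ := h₂.e_σ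
  e_N := fun n hn => h₂.e_N n hn.2

/-- Change of generator: any `τ ∈ M ∖ N` generates `M/N` when `m` is prime. -/
lemma exists_of_not_mem (h : CycData M N m σ e) (hm : m.Prime) {τ : Γ} (hτM : τ ∈ M)
    (hτ : τ ∉ N) : ∃ e' : Γ → ℕ, CycData M N m τ e' := by
  haveI : Fact m.Prime := ⟨hm⟩
  haveI := h.neZero
  have hu : ((e τ : ℕ) : ZMod m) ≠ 0 := fun h0 => hτ ((h.mem_iff_chi hτM).mpr h0)
  set u : ZMod m := (e τ : ZMod m) with hu_def
  refine ⟨fun g => ((e g : ZMod m) * u⁻¹).val, ?_⟩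
  refine
    { normal := h.normal
      one_lt := h.one_lt
      σ_mem := hτM
      e_lt := fun g _ => ZMod.val_lt _
      e_spec := ?_
      e_mul := ?_
      e_σ := ?_
      e_N := ?_ }
  · intro g hg
    have hpm := M.pow_mem hτM (((e g : ZMod m) * u⁻¹).val)
    rw [h.mem_iff_chi (M.mul_mem (M.inv_mem hpm) hg), h.chi_mul (M.inv_mem hpm) hg,
      h.chi_inv hpm, h.chi_pow hτM, ZMod.natCast_zmod_val, ← hu_def, mul_assoc,
      inv_mul_cancel₀ hu, mul_one, neg_add_cancel]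
  · intro g hg k hk
    show ((e (g * k) : ZMod m) * u⁻¹).val = (((e g : ZMod m) * u⁻¹).val +
      ((e k : ZMod m) * u⁻¹).val) % m
    rw [h.chi_mul hg hk, add_mul, ZMod.val_add]
  · show ((e τ : ZMod m) * u⁻¹).val = 1
    rw [← hu_def, mul_inv_cancel₀ hu, ZMod.val_one_eq_one_mod, Nat.mod_eq_of_lt h.one_lt]
  · intro n hn
    show ((e n : ZMod m) * u⁻¹).val = 0
    rw [h.e_N n hn, Nat.cast_zero, zero_mul, ZMod.val_zero]

/-- Two distinct cyclic steps of prime degree are incomparable. -/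
lemma exists_mem_not_mem {N₁ N₂ : Subgroup Γ} {σ₁ σ₂ : Γ} {e₁ e₂ : Γ → ℕ}
    (h₁ : CycData M N₁ m σ₁ e₁) (h₂ : CycData M N₂ m σ₂ e₂) (hm : m.Prime) (hne : N₁ ≠ N₂) :
    ∃ τ ∈ N₂, τ ∉ N₁ := by
  haveI : Fact m.Prime := ⟨hm⟩
  by_contra hcon
  push Not at hcon
  -- `N₂ ≤ N₁`
  have hle : N₂ ≤ N₁ := hcon
  apply hne
  refine le_antisymm (fun g hg => ?_) hle
  have hgM := h₁.normal.le hg
  by_contra hg2
  -- then `σ₂ ∈ N₁`
  have hj : ((e₂ g : ℕ) : ZMod m) ≠ 0 := fun h0 => hg2 ((h₂.mem_iff_chi hgM).mpr h0)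
  have hpow : σ₂ ^ e₂ g ∈ N₁ := by
    have h1 := hle (h₂.e_spec g hgM)
    have h2 : σ₂ ^ e₂ g = g * ((σ₂ ^ e₂ g)⁻¹ * g)⁻¹ := by group
    rw [h2]
    exact N₁.mul_mem hg (N₁.inv_mem h1)
  have hσ₂ : σ₂ ∈ N₁ := by
    rw [h₁.mem_iff_chi (h₂.pow_mem _), h₁.chi_pow h₂.σ_mem] at hpow
    rw [h₁.mem_iff_chi h₂.σ_mem]
    exact (mul_eq_zero.mp hpow).resolve_left hj
  -- hence `M ≤ N₁`, contradicting `σ₁ ∉ N₁`
  apply h₁.σ_not_mem
  have h1 := hle (h₂.e_spec σ₁ h₁.σ_mem)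
  have h2 : σ₁ = σ₂ ^ e₂ σ₁ * ((σ₂ ^ e₂ σ₁)⁻¹ * σ₁) := by group
  rw [h2]
  exact N₁.mul_mem (N₁.pow_mem hσ₂ _) h1

end CycData

/-! ### Fixed points and norm groups -/

/-- the fixed points of a subgroup -/
def fixG (A : Type*) [AddCommGroup A] [DistribMulAction Γ A] (U : Subgroup Γ) : AddSubgroup A where
  carrier := {a | ∀ g ∈ U, g • a = a}
  add_mem' := fun ha hb g hg => by rw [smul_add, ha g hg, hb g hg]
  zero_mem' := fun g _ => smul_zero g
  neg_mem' := fun ha g hg => by rw [smul_neg, ha g hg]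

lemma mem_fixG {U : Subgroup Γ} {a : A} : a ∈ fixG A U ↔ ∀ g ∈ U, g • a = a := Iff.rfl

lemma fixG_anti {U V : Subgroup Γ} (h : V ≤ U) : fixG A U ≤ fixG A V :=
  fun _ ha g hg => ha g (h hg)

/-- `partialNm σ k` as an additive map -/
def partialNmHom (σ : Γ) (k : ℕ) : A →+ A where
  toFun := partialNm σ k
  map_zero' := by simp [partialNm]
  map_add' := fun x y => partialNm_add_elt σ k x y

@[simp] lemma partialNmHom_apply (σ : Γ) (k : ℕ) (x : A) : partialNmHom σ k x = partialNm σ k x :=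
  rfl

/-- the norm group of a cyclic step: `{∑_{i<m} σ^i • b | b ∈ A^N}` -/
def normG (A : Type*) [AddCommGroup A] [DistribMulAction Γ A] (σ : Γ) (m : ℕ) (N : Subgroup Γ) :
    AddSubgroup A :=
  (fixG A N).map (partialNmHom σ m)

lemma mem_normG {σ : Γ} {m : ℕ} {N : Subgroup Γ} {a : A} :
    a ∈ normG A σ m N ↔ ∃ b : A, (∀ n ∈ N, n • b = b) ∧ a = partialNm σ m b := by
  constructor
  · rintro ⟨b, hb, rfl⟩
    exact ⟨b, hb, rfl⟩
  · rintro ⟨b, hb, rfl⟩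
    exact ⟨b, hb, rfl⟩

lemma partialNm_of_fixed (σ : Γ) (k : ℕ) {a : A} (ha : σ • a = a) : partialNm σ k a = k • a := by
  have h : ∀ i : ℕ, σ ^ i • a = a := by
    intro i
    induction i with
    | zero => simp
    | succ i ih => rw [pow_succ, mul_smul, ha, ih]
  simp [partialNm, h]

namespace CycData

variable {M N : Subgroup Γ} {m : ℕ} {σ : Γ} {e : Γ → ℕ}

lemma normG_le_fixG (h : CycData M N m σ e) : normG A σ m N ≤ fixG A M := by
  rintro _ ⟨b, hb, rfl⟩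
  exact h.fix_Nm hb

/-- `m • A^M` consists of norms. -/
lemma nsmul_mem_normG (h : CycData M N m σ e) {a : A} (ha : a ∈ fixG A M) :
    m • a ∈ normG A σ m N := by
  refine mem_normG.mpr ⟨a, fun n hn => ha n (h.normal.le hn), ?_⟩
  rw [partialNm_of_fixed σ m (ha σ h.σ_mem)]

end CycData

lemma sum_range_eq_sum_zmod {B : Type*} [AddCommMonoid B] (m : ℕ) [NeZero m] (G : ℕ → B) :
    ∑ i ∈ range m, G i = ∑ x : ZMod m, G x.val := by
  cases m with
  | zero => exact absurd rfl (NeZero.ne 0)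
  | succ n => exact (Fin.sum_univ_eq_sum_range G (n + 1)).symm

namespace CycData

variable {M N : Subgroup Γ} {m : ℕ} {σ σ' : Γ} {e e' : Γ → ℕ}

/-- The norm of an `N`-fixed element does not depend on the generator. -/
lemma partialNm_indep (h : CycData M N m σ e) (h' : CycData M N m σ' e') (hm : m.Prime) {b : A}
    (hb : ∀ n ∈ N, n • b = b) : partialNm σ' m b = partialNm σ m b := by
  haveI : Fact m.Prime := ⟨hm⟩
  haveI := h.neZero
  have hu : ((e σ' : ℕ) : ZMod m) ≠ 0 :=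
    fun h0 => h'.σ_not_mem ((h.mem_iff_chi h'.σ_mem).mpr h0)
  have h1 : ∀ i : ℕ, σ' ^ i • b = σ ^ (((i : ZMod m) * (e σ' : ZMod m)).val) • b := by
    intro i
    rw [h.smul_eq hb (h'.pow_mem i)]
    congr 2
    have h2 := h.chi_pow h'.σ_mem i
    have h3 : e (σ' ^ i) = ((e (σ' ^ i) : ℕ) : ZMod m).val := by
      rw [ZMod.val_natCast, Nat.mod_eq_of_lt (h.e_lt _ (h'.pow_mem i))]
    rw [h3, h2]
  unfold partialNm
  rw [Finset.sum_congr rfl (fun i _ => h1 i),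
    sum_range_eq_sum_zmod m (fun i => σ ^ (((i : ZMod m) * (e σ' : ZMod m)).val) • b),
    sum_range_eq_sum_zmod m (fun i => σ ^ i • b)]
  have h4 : ∀ x : ZMod m, σ ^ ((((x.val : ℕ) : ZMod m) * (e σ' : ZMod m)).val) • b =
      σ ^ ((Equiv.mulRight₀ (e σ' : ZMod m) hu) x).val • b := by
    intro x
    rw [ZMod.natCast_zmod_val]
    rfl
  rw [Finset.sum_congr rfl (fun x _ => h4 x)]
  exact Equiv.sum_comp (Equiv.mulRight₀ (e σ' : ZMod m) hu) (fun x : ZMod m => σ ^ x.val • b)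

lemma normG_indep (h : CycData M N m σ e) (h' : CycData M N m σ' e') (hm : m.Prime) :
    normG A σ' m N = normG A σ m N := by
  ext a
  rw [mem_normG, mem_normG]
  constructor
  · rintro ⟨b, hb, rfl⟩
    exact ⟨b, hb, h.partialNm_indep h' hm hb⟩
  · rintro ⟨b, hb, rfl⟩
    exact ⟨b, hb, (h.partialNm_indep h' hm hb).symm⟩

end CycData

/-- Maximality of a subgroup `𝒩` of "index `p`" in `B`. -/
lemma inf_le_of_index_prime {B 𝒩 X : AddSubgroup A} {p : ℕ} (hp : p.Prime) {a₀ : A}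
    (hpB : ∀ a ∈ B, p • a ∈ 𝒩) (ha₀ : a₀ ∈ B) (hB : B ≤ AddSubgroup.zmultiples a₀ ⊔ 𝒩)
    (h𝒩X : 𝒩 ≤ X) (hX : ¬ B ≤ X) : X ⊓ B ≤ 𝒩 := by
  rintro x ⟨hxX, hxB⟩
  obtain ⟨y, hy, n, hn, rfl⟩ := AddSubgroup.mem_sup.mp (hB hxB)
  obtain ⟨k, rfl⟩ := AddSubgroup.mem_zmultiples_iff.mp hy
  by_cases hk : (p : ℤ) ∣ k
  · obtain ⟨k', rfl⟩ := hk
    have h1 : ((p : ℤ) * k') • a₀ = k' • (p • a₀) := by
      rw [mul_comm, mul_smul, natCast_zsmul]
    rw [h1]
    exact 𝒩.add_mem (𝒩.zsmul_mem (hpB a₀ ha₀) k') hn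
  · exfalso
    apply hX
    have hcop : IsCoprime k (p : ℤ) := by
      rw [isCoprime_comm]
      exact (Nat.prime_iff_prime_int.mp hp).coprime_iff_not_dvd.mpr hk
    obtain ⟨u, v, huv⟩ := hcop
    have hka : k • a₀ ∈ X := by
      have : k • a₀ = (k • a₀ + n) - n := by abel
      rw [this]
      exact X.sub_mem hxX (h𝒩X hn)
    have ha₀X : a₀ ∈ X := by
      have h2 : a₀ = u • (k • a₀) + v • (p • a₀) := by
        rw [← mul_smul, ← natCast_zsmul, ← mul_smul, ← add_smul, huv, one_smul]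
      rw [h2]
      exact X.add_mem (X.zsmul_mem hka u) (X.zsmul_mem (h𝒩X (hpB a₀ ha₀)) v)
    refine hB.trans (sup_le ?_ h𝒩X)
    rw [AddSubgroup.zmultiples_le]
    exact ha₀X

/-- A subgroup `V`, normal of prime index `p` in `U`, is a cyclic step. -/
theorem exists_cycData_of_relIndex_prime {U V : Subgroup Γ} (hVU : NormalIn V U) {p : ℕ}
    (hp : p.Prime) (hidx : V.relIndex U = p) : ∃ σ e, CycData U V p σ e := by
  classical
  haveI : Fact p.Prime := ⟨hp⟩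
  haveI := hVU.subgroupOf_normal
  have hcard : Nat.card (↥U ⧸ V.subgroupOf U) = p := hidx
  haveI : IsCyclic (↥U ⧸ V.subgroupOf U) := isCyclic_of_prime_card hcard
  obtain ⟨q₀, hq₀⟩ := IsCyclic.exists_generator (α := ↥U ⧸ V.subgroupOf U)
  have hord : orderOf q₀ = p := by
    rw [orderOf_eq_card_of_forall_mem_zpowers hq₀, hcard]
  obtain ⟨σ', rfl⟩ := QuotientGroup.mk_surjective q₀
  have hex : ∀ x : ↥U ⧸ V.subgroupOf U, ∃ k : ℕ, k < p ∧
      (σ' : ↥U ⧸ V.subgroupOf U) ^ k = x := by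
    intro x
    obtain ⟨z, rfl⟩ := Subgroup.mem_zpowers_iff.mp (hq₀ x)
    have hp0 : (0 : ℤ) < p := by exact_mod_cast hp.pos
    refine ⟨(z % (p : ℤ)).toNat, ?_, ?_⟩
    · have := Int.emod_lt_of_pos z hp0
      omega
    · rw [← zpow_natCast, Int.toNat_of_nonneg (Int.emod_nonneg z hp0.ne'), ← hord,
        zpow_mod_orderOf]
  choose kf hkf1 hkf2 using hex
  set e : Γ → ℕ := fun g => if hg : g ∈ U then kf ((⟨g, hg⟩ : ↥U) : ↥U ⧸ V.subgroupOf U) else 0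
    with he_def
  have he : ∀ (g : Γ) (hg : g ∈ U), e g = kf ((⟨g, hg⟩ : ↥U) : ↥U ⧸ V.subgroupOf U) :=
    fun g hg => dif_pos hg
  have hpow : ∀ (g : Γ) (hg : g ∈ U),
      (σ' : ↥U ⧸ V.subgroupOf U) ^ e g = ((⟨g, hg⟩ : ↥U) : ↥U ⧸ V.subgroupOf U) := by
    intro g hg
    rw [he g hg]
    exact hkf2 _
  have helt : ∀ g ∈ U, e g < p := by
    intro g hg
    rw [he g hg]
    exact hkf1 _
  have huniq : ∀ (g : Γ) (hg : g ∈ U) (k : ℕ),
      (σ' : ↥U ⧸ V.subgroupOf U) ^ k = ((⟨g, hg⟩ : ↥U) : ↥U ⧸ V.subgroupOf U) →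
      e g = k % p := by
    intro g hg k hk
    have h1 : (σ' : ↥U ⧸ V.subgroupOf U) ^ e g = (σ' : ↥U ⧸ V.subgroupOf U) ^ k := by
      rw [hpow g hg, hk]
    rw [pow_eq_pow_iff_modEq, hord] at h1
    have h2 : e g % p = k % p := h1
    rwa [Nat.mod_eq_of_lt (helt g hg)] at h2
  refine ⟨(σ' : Γ), e,
    { normal := hVU
      one_lt := hp.one_lt
      σ_mem := σ'.2
      e_lt := helt
      e_spec := ?_
      e_mul := ?_
      e_σ := ?_
      e_N := ?_ }⟩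
  · intro g hg
    have h1 : (((⟨(σ' : Γ) ^ e g, U.pow_mem σ'.2 _⟩ : ↥U)⁻¹ * ⟨g, hg⟩ : ↥U) :
        ↥U ⧸ V.subgroupOf U) = 1 := by
      rw [QuotientGroup.mk_mul, QuotientGroup.mk_inv]
      have h2 : ((⟨(σ' : Γ) ^ e g, U.pow_mem σ'.2 _⟩ : ↥U) : ↥U ⧸ V.subgroupOf U) =
          (σ' : ↥U ⧸ V.subgroupOf U) ^ e g := by
        rw [← QuotientGroup.mk_pow]
        rfl
      rw [h2, hpow g hg, inv_mul_cancel]
    have h3 := (QuotientGroup.eq_one_iff _).mp h1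
    rw [Subgroup.mem_subgroupOf] at h3
    exact h3
  · intro g hg k hk
    apply huniq (g * k) (U.mul_mem hg hk) (e g + e k)
    rw [pow_add, hpow g hg, hpow k hk, ← QuotientGroup.mk_mul]
    rfl
  · have h1 := huniq (σ' : Γ) σ'.2 1 (by rw [pow_one])
    rw [h1, Nat.mod_eq_of_lt hp.one_lt]
  · intro n hn
    have hnU := hVU.le hn
    have h1 := huniq n hnU 0 (by
      rw [pow_zero]
      exact ((QuotientGroup.eq_one_iff _).mpr (Subgroup.mem_subgroupOf.mpr hn)).symm)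
    rw [h1, Nat.zero_mod]

end Fermat.Agent.PT.Br
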