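import Fermat.Agent.PT.Br.CycAux

/-!
# PT / BR layer: the key lemma of the "lines" argument

`M ⊇ N₁, N₂` two cyclic steps of degree `p` (generators `σ₁ ∈ N₂`, `σ₂ ∈ N₁`).  A `p`-torsion
2-class of `M` which is split by `N₁ ⊓ N₂` is split by `N₁`, provided an element of `A^{N₁}` whose
norm to `A^M` is a norm from `N₂` is itself a norm from `N₁ ⊓ N₂`
(`cobOn₂_of_split_inf`); that proviso follows from "norm index `p`" as soon as the norm groups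
of `N₁` and `N₂` differ (`norm_descent`).
-/

set_option autoImplicit false
set_option linter.style.haveILetI false

namespace Fermat.Agent.PT.Br

open Finset

variable {Γ A : Type*} [Group Γ] [AddCommGroup A] [DistribMulAction Γ A]

/-- **Key lemma.** -/
theorem cobOn₂_of_split_inf {M N₁ N₂ N₀ : Subgroup Γ} {p : ℕ} {σ₁ σ₂ : Γ} {e₁ e₂ : Γ → ℕ}
    (h₁ : CycData M N₁ p σ₁ e₁) (h₂ : CycData M N₂ p σ₂ e₂) (hσ₁ : σ₁ ∈ N₂) (hσ₂ : σ₂ ∈ N₁)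
    (hN₀ : NormalIn N₀ M) (h0 : N₀ ≤ N₁ ⊓ N₂)
    (hH : H90On A (N₁ ⊓ N₂) N₀) (hH₂ : H90On A N₂ N₀)
    (hNorm : ∀ a₁ : A, a₁ ∈ fixG A N₁ → partialNm σ₁ p a₁ ∈ normG A σ₂ p N₂ →
      a₁ ∈ normG A σ₂ p (N₁ ⊓ N₂))
    {z : Γ × Γ → A} (hz : CocOn₂ M z) (hi : InflOn₂ M N₀ z)
    (hres : CobOn₂ (N₁ ⊓ N₂) N₀ z) (hpz : CobOn₂ M N₀ ((p : ℤ) • z)) :
    CobOn₂ N₁ N₀ z := by
  classical
  have hN₁₂ : NormalIn (N₁ ⊓ N₂) M := h₁.normal.inf h₂.normal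
  have hN₁M := h₁.normal.le
  obtain ⟨h, hh, hinf, hcoc⟩ := exists_inflOn₂_sub_d1 hN₁₂ hN₀ h0 hH hz hi hres
  have hc : CycData N₁ (N₁ ⊓ N₂) p σ₂ e₂ := h₂.restrict N₁ hN₁M hσ₂
  obtain ⟨a₁, ha₁, f, hf, hfe⟩ :=
    hc.exists_carryCoc_cohomologous (hcoc.mono hN₁M) (hinf.mono_left hN₁M)
  -- extend `f` by zero outside `N₁`
  set F₀ : Γ → A := fun g => if g ∈ N₁ then f g else 0 with hF₀def
  have hF₀N : ∀ g ∈ N₁, F₀ g = f g := fun g hg => by simp [hF₀def, hg]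
  have hF₀ : InflOn₁ M (N₁ ⊓ N₂) F₀ := by
    refine ⟨fun g hg s hs => ?_, fun g hg s hs => ?_⟩
    · have hiff : g * s ∈ N₁ ↔ g ∈ N₁ := by
        constructor
        · intro h'
          simpa using N₁.mul_mem h' (N₁.inv_mem hs.1)
        · intro h'
          exact N₁.mul_mem h' hs.1
      by_cases hgN : g ∈ N₁
      · simp only [hF₀def, hiff, hgN, if_true]
        exact hf.1 g hgN s hs
      · simp only [hF₀def, hiff, hgN, if_false]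
    · by_cases hgN : g ∈ N₁
      · simp only [hF₀def, hgN, if_true]
        exact hf.2 g hgN s hs
      · simp only [hF₀def, hgN, if_false, smul_zero]
  have hz'' : CocOn₂ M (z - d1 h - d1 F₀) := hcoc.sub (cocOn₂_d1 M F₀)
  have hi'' : InflOn₂ M (N₁ ⊓ N₂) (z - d1 h - d1 F₀) := hinf.sub (hF₀.d1 hN₁₂)
  have hz''N : ∀ g ∈ N₁, ∀ k ∈ N₁, (z - d1 h - d1 F₀) (g, k) = carryCoc p e₂ a₁ (g, k) := by
    intro g hg k hk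
    have e1 := hfe g hg k hk
    simp only [Pi.sub_apply, d1_apply, hF₀N g hg, hF₀N k hk, hF₀N _ (N₁.mul_mem hg hk)] at e1 ⊢
    linear_combination (norm := abel) e1
  -- the transfer identity
  have hσp : σ₁ ^ p ∈ N₁ ⊓ N₂ := ⟨h₁.pow_m_mem, h₂.pow_mem_N h₁.σ_mem⟩
  have hab : ∀ g ∈ M, ∀ k ∈ M, (k * g)⁻¹ * (g * k) ∈ N₁ ⊓ N₂ :=
    fun g hg k hk => ⟨h₁.comm_mem hg hk, h₂.comm_mem hg hk⟩
  have T := transfer_on hN₁₂ h₁.σ_mem hσp hab e₁ h₁.e_mul hz'' hi''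
  set β : Γ → A := fun g => ∑ i ∈ range p,
    ((z - d1 h - d1 F₀) (σ₁ ^ i, (σ₁ ^ e₁ g)⁻¹ * g) - (z - d1 h - d1 F₀) (g, σ₁ ^ i)) with hβdef
  have hπN₁ : ∀ g ∈ M, (σ₁ ^ e₁ g)⁻¹ * g ∈ N₁ := fun g hg => h₁.e_spec g hg
  have hπe₂ : ∀ g ∈ M, e₂ ((σ₁ ^ e₁ g)⁻¹ * g) = e₂ g := fun g hg =>
    h₂.e_left hg (N₂.inv_mem (N₂.pow_mem hσ₁ _))
  have hW : ∀ g₁ ∈ M, ∀ g₂ ∈ M,
      ∑ i ∈ range p, σ₁ ^ i • (z - d1 h - d1 F₀) ((σ₁ ^ e₁ g₁)⁻¹ * g₁, (σ₁ ^ e₁ g₂)⁻¹ * g₂) =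
        carryCoc p e₂ (partialNm σ₁ p a₁) (g₁, g₂) := by
    intro g₁ hg₁ g₂ hg₂
    rw [hz''N _ (hπN₁ g₁ hg₁) _ (hπN₁ g₂ hg₂)]
    simp only [carryCoc_apply, carry, hπe₂ g₁ hg₁, hπe₂ g₂ hg₂, partialNm, smul_sum]
    exact Finset.sum_congr rfl fun i _ => smul_comm _ _ _
  have hβ : InflOn₁ M (N₁ ⊓ N₂) β := by
    refine ⟨fun g hg s hs => ?_, fun g hg s hs => ?_⟩
    · simp only [hβdef]
      refine Finset.sum_congr rfl fun i _ => ?_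
      have e1 : e₁ (g * s) = e₁ g := h₁.e_mul_right hg hs.1
      have e2 : (σ₁ ^ e₁ g)⁻¹ * (g * s) = (σ₁ ^ e₁ g)⁻¹ * g * s := by group
      rw [e1, e2, hi''.right₂ (h₁.pow_mem i) (hN₁M (hπN₁ g hg)) hs,
        hi''.right₁ hg (h₁.pow_mem i) hs]
    · simp only [hβdef, smul_sum, smul_sub]
      refine Finset.sum_congr rfl fun i _ => ?_
      rw [hi''.2 _ (h₁.pow_mem i) _ (hN₁M (hπN₁ g hg)) s hs, hi''.2 _ hg _ (h₁.pow_mem i) s hs]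
  -- the carry cocycle of `Nm₁ a₁` is a coboundary on `M`
  have hcob : CobOn₂ M N₀ (carryCoc p e₂ (partialNm σ₁ p a₁)) := by
    have c1 : CobOn₂ M N₀ (d1 β) := ⟨β, hβ.mono h0, fun _ _ _ _ => rfl⟩
    have c2' : CobOn₂ M N₀ (d1 h) := ⟨h, hh, fun _ _ _ _ => rfl⟩
    have c2 : CobOn₂ M N₀ ((p : ℤ) • d1 h) := c2'.zsmul _
    have c3' : CobOn₂ M N₀ (d1 F₀) := ⟨F₀, hF₀.mono h0, fun _ _ _ _ => rfl⟩
    have c3 : CobOn₂ M N₀ ((p : ℤ) • d1 F₀) := c3'.zsmul _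
    refine (((c1.add hpz).sub c2).sub c3).congr fun g hg k hk => ?_
    have e1 := T g hg k hk
    rw [hW g hg k hk] at e1
    simp only [Pi.sub_apply, Pi.add_apply, Pi.smul_apply, natCast_zsmul] at e1 ⊢
    rw [e1]
    simp only [smul_sub]
    abel
  have hNm : partialNm σ₁ p a₁ ∈ normG A σ₂ p N₂ :=
    mem_normG.mpr ((h₂.cobOn₂_carryCoc_iff (h0.trans inf_le_right) hH₂ (h₁.fix_Nm ha₁)).mp hcob)
  obtain ⟨b', hb', rfl⟩ := mem_normG.mp (hNorm a₁ ha₁ hNm)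
  have h5 : CobOn₂ N₁ N₀ (carryCoc p e₂ (partialNm σ₂ p b')) := (hc.cobOn₂_carryCoc_Nm hb').mono h0
  have c2 : CobOn₂ N₁ N₀ (d1 h) := ⟨h, hh.mono_left hN₁M, fun _ _ _ _ => rfl⟩
  have c3 : CobOn₂ N₁ N₀ (d1 F₀) := ⟨F₀, (hF₀.mono h0).mono_left hN₁M, fun _ _ _ _ => rfl⟩
  refine ((h5.add c2).add c3).congr fun g hg k hk => ?_
  have e1 := hz''N g hg k hk
  simp only [Pi.sub_apply, Pi.add_apply] at e1 ⊢
  rw [← e1]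
  abel

/-- The two norms of a bicyclic step commute on `A^{N₁ ⊓ N₂}`. -/
lemma partialNm_comm {M N₁ N₂ : Subgroup Γ} {p : ℕ} {σ₁ σ₂ : Γ} {e₁ e₂ : Γ → ℕ}
    (h₁ : CycData M N₁ p σ₁ e₁) (h₂ : CycData M N₂ p σ₂ e₂) {b : A}
    (hb : ∀ n ∈ N₁ ⊓ N₂, n • b = b) (k l : ℕ) :
    partialNm σ₁ k (partialNm σ₂ l b) = partialNm σ₂ l (partialNm σ₁ k b) := by
  simp only [partialNm, smul_sum]
  rw [Finset.sum_comm]
  refine Finset.sum_congr rfl fun j _ => Finset.sum_congr rfl fun i _ => ?_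
  have hi := h₁.pow_mem i
  have hj := h₂.pow_mem j
  have hc : (σ₂ ^ j * σ₁ ^ i)⁻¹ * (σ₁ ^ i * σ₂ ^ j) ∈ N₁ ⊓ N₂ :=
    ⟨h₁.comm_mem hi hj, h₂.comm_mem hi hj⟩
  have e1 : σ₁ ^ i * σ₂ ^ j = σ₂ ^ j * σ₁ ^ i * ((σ₂ ^ j * σ₁ ^ i)⁻¹ * (σ₁ ^ i * σ₂ ^ j)) := by
    group
  rw [← mul_smul, ← mul_smul, e1, mul_smul (σ₂ ^ j * σ₁ ^ i), hb _ hc]

/-- **Norm descent.**  If the step `N₁ ⊇ N₁ ⊓ N₂` has norm index `p` and the norm group of `N₁`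
is not contained in that of `N₂`, then an element of `A^{N₁}` whose norm to `A^M` is a norm from
`N₂` is a norm from `N₁ ⊓ N₂`. -/
theorem norm_descent {M N₁ N₂ : Subgroup Γ} {p : ℕ} (hp : p.Prime) {σ₁ σ₂ : Γ} {e₁ e₂ : Γ → ℕ}
    (h₁ : CycData M N₁ p σ₁ e₁) (h₂ : CycData M N₂ p σ₂ e₂) (hσ₁ : σ₁ ∈ N₂) (hσ₂ : σ₂ ∈ N₁)
    {a₀ : A} (ha₀ : a₀ ∈ fixG A N₁)
    (hI : fixG A N₁ ≤ AddSubgroup.zmultiples a₀ ⊔ normG A σ₂ p (N₁ ⊓ N₂))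
    (hne : ¬ normG A σ₁ p N₁ ≤ normG A σ₂ p N₂) :
    ∀ a₁ : A, a₁ ∈ fixG A N₁ → partialNm σ₁ p a₁ ∈ normG A σ₂ p N₂ →
      a₁ ∈ normG A σ₂ p (N₁ ⊓ N₂) := by
  intro a₁ ha₁ hNm
  have hc : CycData N₁ (N₁ ⊓ N₂) p σ₂ e₂ := h₂.restrict N₁ h₁.normal.le hσ₂
  have hc' : CycData N₂ (N₂ ⊓ N₁) p σ₁ e₁ := h₁.restrict N₂ h₂.normal.le hσ₁
  have key := inf_le_of_index_prime (B := fixG A N₁) (𝒩 := normG A σ₂ p (N₁ ⊓ N₂))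
    (X := (normG A σ₂ p N₂).comap (partialNmHom σ₁ p)) hp
    (fun a ha => hc.nsmul_mem_normG ha) ha₀ hI ?_ ?_
  · exact key ⟨hNm, ha₁⟩
  · rintro _ ⟨b', hb', rfl⟩
    show partialNm σ₁ p (partialNm σ₂ p b') ∈ normG A σ₂ p N₂
    rw [partialNm_comm h₁ h₂ hb']
    refine mem_normG.mpr ⟨partialNm σ₁ p b', ?_, rfl⟩
    have hb'' : ∀ n ∈ N₂ ⊓ N₁, n • b' = b' := fun n hn => hb' n ⟨hn.2, hn.1⟩
    exact hc'.fix_Nm hb''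
  · intro hle
    apply hne
    rintro _ ⟨c, hc1, rfl⟩
    exact hle hc1

end Fermat.Agent.PT.Br
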