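/-
PT / BR layer: every `p`-torsion level 2-cocycle of `Δ` dies on every cyclic step of degree `p`.

`Δ ≤ G_ℚ` closed, with the "lines" dependence `LinesOn p Δ` and the norm index statement
`NormIdxHyp p Δ`.

* `not_cobOn₂_cupCoc` : the cup cocycle of a cyclic step with a non-norm is not a level coboundary.
* `cobOn₂_of_cycData` : a pointwise `p`-torsion level 2-cocycle of `Δ` restricts to a level
  coboundary on the kernel `V` of every cyclic step of degree `p` of `Δ`.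
* `linesOn_decomp`, `cobOn₂_decomp_of_cycData` : the same for `Δ = D_A`, with the arithmetic
  hypotheses (norm index on `D_A`; norm index and Kummer on `Gal(ℚ̄/ℚ(ζ_p)) ⊓ D_A`) explicit.
-/
import Fermat.Agent.PT.Br.B3T

set_option autoImplicit false
set_option linter.unusedSectionVars false

namespace Fermat.Agent.PT.Br.Conc

open Fermat.Agent.PT Fermat.Agent.PT.Bridge Fermat.Agent.PT.Br ExtCitation

local notation "Qb" => AlgebraicClosure ℚ
local notation "GQ" => (AlgebraicClosure ℚ ≃ₐ[ℚ] AlgebraicClosure ℚ)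

attribute [local instance] MulBridge.additiveAction
attribute [local instance] Fermat.Agent.Lib.GalQbar.isAlgClosure_rat
  Fermat.Agent.Lib.GalQbar.isGalois_rat Fermat.Agent.Lib.GalQbar.isAlgebraic_rat

variable {p : ℕ} [Fact p.Prime]

/-- If `p ∤ c`, multiplication by `c` is invertible on elements killed by `p`. -/
lemma exists_zsmul_eq_of_not_dvd {c : ℤ} (hc : ¬ (p : ℤ) ∣ c) :
    ∃ u : ℤ, ∀ {X : Type} [AddCommGroup X] (x : X), p • x = 0 → u • (c • x) = x := by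
  have hp : Prime (p : ℤ) := Nat.prime_iff_prime_int.1 (Fact.out : p.Prime)
  obtain ⟨a, b, hab⟩ := (hp.coprime_iff_not_dvd.2 hc)
  refine ⟨b, fun {X} _ x hx => ?_⟩
  have h1 : (a * (p : ℤ) + b * c) • x = x := by rw [hab, one_zsmul]
  rw [add_zsmul, mul_zsmul, mul_zsmul, natCast_zsmul, hx, zsmul_zero, zero_add] at h1
  exact h1

/-- The cup cocycle of a cyclic step with a non-norm is not a level coboundary. -/
lemma not_cobOn₂_cupCoc {Δ : Subgroup GQ} (hΔ : IsClosed (Δ : Set GQ)) {V : Subgroup GQ}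
    {σ : GQ} {e : GQ → ℕ} (h : CycData Δ V p σ e) {NV : Subgroup GQ} (hNV : NV ∈ levSet Δ)
    (hNVle : NV ≤ V) {α : Additive Qbˣ} (ha₀ : p • α ∈ fixG (Additive Qbˣ) Δ)
    (hnn : p • α ∉ normG (Additive Qbˣ) σ p V) {N₂ : Subgroup GQ} (hN₂ : IsLev Δ (levD Δ) N₂)
    (hfix : ∀ n ∈ N₂, n • α = α) (N₃ : Subgroup GQ) (hN₃ : IsLev Δ (levD Δ) N₃) :
    ¬ CobOn₂ Δ N₃ (cupCoc e α) := by
  intro hcob
  obtain ⟨N₄', hN₄', h43, h42⟩ := IsLev.exists_le hN₃ hN₂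
  obtain ⟨N₄, hN₄, h44, h4V⟩ := IsLev.exists_le hN₄' hNV
  obtain ⟨F, hF, -, rfl⟩ := (isLev_levD_iff Δ NV).1 hNV
  have hV : IsClosed (V : Set GQ) := isClosed_of_between hΔ h.normal.le F hNVle
  obtain ⟨F₄, hF₄, -, rfl⟩ := (isLev_levD_iff Δ N₄).1 hN₄
  have hH : H90On (Additive Qbˣ) V (Δ ⊓ F₄.fixingSubgroup) :=
    h90On_of_isClosed hV F₄ _ (le_inf (inf_le_left.trans h.normal.le) inf_le_right)
  have := (cobOn₂_cupCoc_iff h hN₄.normalIn (h4V.trans hNVle) hH ha₀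
    (fun n hn => hfix n (h42 (h44 hn)))).1 (hcob.mono (h44.trans h43))
  exact hnn (mem_normG.2 this)

/-- **Every `p`-torsion level 2-cocycle of `Δ` dies on every cyclic step of degree `p`.** -/
theorem cobOn₂_of_cycData {Δ : Subgroup GQ} (hΔ : IsClosed (Δ : Set GQ)) (hL : LinesOn p Δ)
    (hNI : NormIdxHyp p Δ) {V : Subgroup GQ} {σ : GQ} {e : GQ → ℕ}
    (hV : ∃ N ∈ levSet Δ, N ≤ V) (h : CycData Δ V p σ e) {z : GQ × GQ → Additive Qbˣ}
    (hz : CocOn₂ Δ z) {N₀ : Subgroup GQ} (hN₀ : N₀ ∈ levSet Δ) (hi : InflOn₂ Δ N₀ z)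
    (ht : ∀ g ∈ Δ, ∀ k ∈ Δ, p • z (g, k) = 0) :
    ∃ N ∈ levSet Δ, N ≤ V ∧ CobOn₂ V N z := by
  have hpos : 0 < p := (Fact.out : p.Prime).pos
  obtain ⟨a₀, ha₀, hnn, -⟩ := hNI Δ V σ e le_rfl hV h
  obtain ⟨NV, hNV, hNVle⟩ := hV
  obtain ⟨α, N₁, hα, hN₁, hfix⟩ := exists_root_level Δ p hpos a₀
  obtain ⟨N₂, hN₂, h21, h2V'⟩ := IsLev.exists_le hN₁ hNV
  obtain ⟨N₃, hN₃, h32, h30⟩ := IsLev.exists_le hN₂ hN₀
  have hαfix : ∀ g ∈ Δ, g • (p • α) = p • α := by rw [hα]; exact ha₀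
  have h3V : N₃ ≤ V := h32.trans (h2V'.trans hNVle)
  have hfix2 : ∀ n ∈ N₂, n • α = α := fun n hn => hfix n (h21 hn)
  have hcc : CocOn₂ Δ (cupCoc e α) := cocOn₂_cupCoc h hαfix
  have hci : InflOn₂ Δ N₃ (cupCoc e α) :=
    inflOn₂_cupCoc h hN₃.normalIn h3V hαfix (fun n hn => hfix2 n (h32 hn))
  have hct : ∀ g ∈ Δ, ∀ k ∈ Δ, p • cupCoc e α (g, k) = 0 :=
    fun g hg k hk => smul_cupCoc_eq_zero hαfix hg hk
  have hnc : ∀ N, IsLev Δ (levD Δ) N → ¬ CobOn₂ Δ N (cupCoc e α) :=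
    fun N hN => not_cobOn₂_cupCoc hΔ h hNV hNVle (by rw [hα]; exact ha₀) (by rw [hα]; exact hnn)
      hN₂ hfix2 N hN
  obtain ⟨c₁, c₂, hcc', N, hN, hcob⟩ :=
    hL z (cupCoc e α) N₃ hN₃ hz hcc (hi.mono h30) hci ht hct
  have hc₁ : ¬ (p : ℤ) ∣ c₁ := by
    intro hd
    have hc₂ : ¬ (p : ℤ) ∣ c₂ := fun h2 => hcc' ⟨hd, h2⟩
    obtain ⟨u, hu⟩ := exists_zsmul_eq_of_not_dvd hc₂
    apply hnc N hN
    refine (hcob.zsmul u).congr fun g hg k hk => ?_
    obtain ⟨j, rfl⟩ := hd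
    rw [Pi.smul_apply, Pi.add_apply, Pi.smul_apply, Pi.smul_apply, mul_comm, mul_zsmul,
      natCast_zsmul, ht g hg k hk, zsmul_zero, zero_add, hu _ (hct g hg k hk)]
  obtain ⟨u, hu⟩ := exists_zsmul_eq_of_not_dvd hc₁
  obtain ⟨N₄, hN₄, h4N, h43⟩ := IsLev.exists_le hN hN₃
  refine ⟨N₄, hN₄, h43.trans h3V, ?_⟩
  refine (((hcob.mono h4N).mono_left h.normal.le).zsmul u).congr fun g hg k hk => ?_
  rw [Pi.smul_apply, Pi.add_apply, Pi.smul_apply, Pi.smul_apply, cupCoc_apply, h.e_N g hg,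
    zero_smul, smul_zero, add_zero, hu _ (ht g (h.normal.le hg) k (h.normal.le hk))]

/-- The "lines" dependence on a full decomposition group, for `p` odd. -/
theorem linesOn_decomp (A : ValuationSubring Qb)
    (hNI' : NormIdxHyp p ((G.cycloField p ⊥).fixingSubgroup ⊓ A.decompositionSubgroup ℚ))
    (hKum' : KummerHyp p ((G.cycloField p ⊥).fixingSubgroup ⊓ A.decompositionSubgroup ℚ)) :
    LinesOn p (A.decompositionSubgroup ℚ) := by
  have hΔ' : IsClosed (((G.cycloField p ⊥).fixingSubgroup ⊓ A.decompositionSubgroup ℚ :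
      Subgroup GQ) : Set GQ) := by
    rw [Subgroup.coe_inf]
    exact (InfiniteGalois.fixingSubgroup_isClosed _).inter (G.isClosed_decompositionSubgroup A)
  exact linesOn_of_sub (G.cycloField p ⊥) (coprime_relIndex_cyclo _)
    (linesOn_of_lineHyp (lineHyp_of hΔ' hNI' hKum'))

/-- Every pointwise `p`-torsion level 2-cocycle of `D_A` dies on every cyclic step of degree `p`
of `D_A`. -/
theorem cobOn₂_decomp_of_cycData (A : ValuationSubring Qb)
    (hNI : NormIdxHyp p (A.decompositionSubgroup ℚ))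
    (hNI' : NormIdxHyp p ((G.cycloField p ⊥).fixingSubgroup ⊓ A.decompositionSubgroup ℚ))
    (hKum' : KummerHyp p ((G.cycloField p ⊥).fixingSubgroup ⊓ A.decompositionSubgroup ℚ))
    {V : Subgroup GQ} {σ : GQ} {e : GQ → ℕ}
    (hV : ∃ N ∈ levSet (A.decompositionSubgroup ℚ), N ≤ V)
    (h : CycData (A.decompositionSubgroup ℚ) V p σ e) {z : GQ × GQ → Additive Qbˣ}
    (hz : CocOn₂ (A.decompositionSubgroup ℚ) z) {N₀ : Subgroup GQ}
    (hN₀ : N₀ ∈ levSet (A.decompositionSubgroup ℚ))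
    (hi : InflOn₂ (A.decompositionSubgroup ℚ) N₀ z)
    (ht : ∀ g ∈ A.decompositionSubgroup ℚ, ∀ k ∈ A.decompositionSubgroup ℚ, p • z (g, k) = 0) :
    ∃ N ∈ levSet (A.decompositionSubgroup ℚ), N ≤ V ∧ CobOn₂ V N z :=
  cobOn₂_of_cycData (G.isClosed_decompositionSubgroup A) (linesOn_decomp A hNI' hKum') hNI hV h
    hz hN₀ hi ht

end Fermat.Agent.PT.Br.Conc
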