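import Fermat.Agent.PT.Br.Lines

/-!
# PT / BR layer: every cyclic step of degree `p` splits every `p`-torsion level class

Formal consequence of the "lines" machinery (`LineHyp`): if `M₀ ⊇ V` is a cyclic step of degree
`p` of open subgroups of `D`, every `p`-torsion level 2-class of `M₀` restricts to a level
coboundary on `V` (`LineHyp.levCob_of_cycData`).  (Local class field theory: a `p`-torsion class
of the Brauer group of a local field dies in every cyclic extension of degree `p`.)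

Also: `CycData.relIndex_eq` (a cyclic step of degree `m` has relative index `m`) and
`exists_step_of_hom` (a cyclic step of degree `p` above `D ⊓ ker χ` for a character `χ` into a
finite cyclic group whose restriction to `D` has order divisible by `p`).
-/

set_option autoImplicit false
set_option linter.style.haveILetI false

namespace Fermat.Agent.PT.Br

variable {Γ A : Type*} [Group Γ] [AddCommGroup A] [DistribMulAction Γ A]

namespace CycData

variable {M N : Subgroup Γ} {m : ℕ} {σ : Γ} {e : Γ → ℕ}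

/-- The exponent character of a cyclic step, as a homomorphism `M →* Multiplicative (ZMod m)`. -/
noncomputable def chiHom (h : CycData M N m σ e) : ↥M →* Multiplicative (ZMod m) where
  toFun g := Multiplicative.ofAdd ((e (g : Γ) : ℕ) : ZMod m)
  map_one' := by
    show Multiplicative.ofAdd ((e ((1 : ↥M) : Γ) : ℕ) : ZMod m) = 1
    rw [Subgroup.coe_one, h.chi_one]
    rfl
  map_mul' g k := by
    show Multiplicative.ofAdd ((e ((g * k : ↥M) : Γ) : ℕ) : ZMod m) = _
    rw [Subgroup.coe_mul, h.chi_mul g.2 k.2]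
    rfl

lemma chiHom_apply (h : CycData M N m σ e) (g : ↥M) :
    h.chiHom g = Multiplicative.ofAdd ((e (g : Γ) : ℕ) : ZMod m) := rfl

lemma ker_chiHom (h : CycData M N m σ e) : h.chiHom.ker = N.subgroupOf M := by
  ext g
  rw [MonoidHom.mem_ker, Subgroup.mem_subgroupOf, h.mem_iff_chi g.2, chiHom_apply]
  exact Iff.rfl

lemma chiHom_surjective (h : CycData M N m σ e) : Function.Surjective h.chiHom := by
  haveI := h.neZero
  intro x
  refine ⟨⟨σ ^ (Multiplicative.toAdd x).val, h.pow_mem _⟩, ?_⟩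
  rw [chiHom_apply]
  show Multiplicative.ofAdd ((e (σ ^ (Multiplicative.toAdd x).val) : ℕ) : ZMod m) = x
  rw [h.chi_pow h.σ_mem, h.e_σ, Nat.cast_one, mul_one, ZMod.natCast_zmod_val]
  rfl

/-- A cyclic step of degree `m` has relative index `m`. -/
theorem relIndex_eq (h : CycData M N m σ e) : N.relIndex M = m := by
  haveI := h.neZero
  rw [Subgroup.relIndex, ← h.ker_chiHom, Subgroup.index_ker,
    MonoidHom.range_eq_top.mpr h.chiHom_surjective, Subgroup.card_top,
    Nat.card_congr Multiplicative.toAdd, Nat.card_zmod]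

end CycData

/-- A character `χ` into a finite cyclic group whose restriction to `D` has order divisible by
the prime `p` produces a cyclic step of degree `p` of `D` above `D ⊓ ker χ`. -/
theorem exists_step_of_hom {C : Type*} [CommGroup C] [IsCyclic C] [Finite C] (χ : Γ →* C)
    (D : Subgroup Γ) {p : ℕ} (hp : p.Prime) (hdvd : ∃ g ∈ D, p ∣ orderOf (χ g)) :
    ∃ (V : Subgroup Γ) (σ : Γ) (e : Γ → ℕ), D ⊓ χ.ker ≤ V ∧ CycData D V p σ e := by
  classical
  set f : ↥D →* ↥(D.map χ) := χ.subgroupMap D with hf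
  have hfs : Function.Surjective f := χ.subgroupMap_surjective D
  set K : Subgroup ↥(D.map χ) := (powMonoidHom p : ↥(D.map χ) →* ↥(D.map χ)).range with hK
  have hKidx : K.index = p := by
    rw [hK, IsCyclic.index_powMonoidHom_range]
    obtain ⟨g, hg, hgd⟩ := hdvd
    have h1 : orderOf (χ g) ∣ Nat.card ↥(D.map χ) := by
      have := orderOf_dvd_natCard (⟨χ g, Subgroup.mem_map_of_mem χ hg⟩ : ↥(D.map χ))
      rwa [Subgroup.orderOf_mk] at this
    exact Nat.gcd_eq_right (hgd.trans h1)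
  set V : Subgroup Γ := (K.comap f).map D.subtype with hV
  have hVD : V ≤ D := Subgroup.map_subtype_le _
  have hsub : V.subgroupOf D = K.comap f :=
    Subgroup.comap_map_eq_self_of_injective D.subtype_injective _
  have hidx : V.relIndex D = p := by
    rw [Subgroup.relIndex, hsub, Subgroup.index_comap_of_surjective _ hfs, hKidx]
  have hmem : ∀ (g : Γ) (hg : g ∈ D), g ∈ V ↔ f ⟨g, hg⟩ ∈ K := by
    intro g hg
    have h1 : g ∈ V ↔ (⟨g, hg⟩ : ↥D) ∈ V.subgroupOf D :=
      (Subgroup.mem_subgroupOf (H := V) (K := D) (h := ⟨g, hg⟩)).symm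
    rw [h1, hsub, Subgroup.mem_comap]
  have hnorm : NormalIn V D := by
    refine ⟨hVD, fun g hg n hn => ?_⟩
    have hnD := hVD hn
    have hD : g * n * g⁻¹ ∈ D := D.mul_mem (D.mul_mem hg hnD) (D.inv_mem hg)
    rw [hmem _ hD]
    have e1 : (⟨g * n * g⁻¹, hD⟩ : ↥D) = ⟨g, hg⟩ * ⟨n, hnD⟩ * ⟨g, hg⟩⁻¹ := rfl
    rw [e1, map_mul, map_mul, map_inv, mul_comm (f ⟨g, hg⟩), mul_inv_cancel_right]
    exact (hmem n hnD).mp hn
  obtain ⟨σ, e, h⟩ := exists_cycData_of_relIndex_prime hnorm hp hidx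
  refine ⟨V, σ, e, ?_, h⟩
  intro g hg
  rw [hmem g hg.1]
  have h1 : f ⟨g, hg.1⟩ = 1 := by
    apply Subtype.ext
    show χ g = 1
    exact MonoidHom.mem_ker.mp hg.2
  rw [h1]
  exact K.one_mem

namespace LineHyp

variable {p : ℕ} {D : Subgroup Γ} {lev : Set (Subgroup Γ)}

/-- **Every cyclic step of degree `p` splits every `p`-torsion level class.** -/
theorem levCob_of_cycData (hp : p.Prime) (H : LineHyp A p D lev) {M₀ V : Subgroup Γ}
    (hM₀ : M₀ ≤ D) {σ : Γ} {e : Γ → ℕ} (h : CycData M₀ V p σ e) (hV : ∃ N ∈ lev, N ≤ V)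
    {z : Γ × Γ → A} (hz : CocOn₂ M₀ z) (hi : LevInfl lev M₀ z)
    (hpz : LevCob lev M₀ ((p : ℤ) • z)) : LevCob lev V z := by
  have hVM := h.normal.le
  obtain ⟨Nv, hNv, hNvV⟩ := hV
  obtain ⟨Nz, hNz, hNzM, hiz⟩ := id hi
  obtain ⟨Np, hNp, hNpM, hcp⟩ := id hpz
  obtain ⟨N₀, hN₀, h0v, h0z, h0p⟩ := H.exists_le₃ hNv hNz hNp
  have h0V : N₀ ≤ V := h0v.trans hNvV
  have h0M : N₀ ≤ M₀ := h0V.trans hVM
  have hn0 : NormalIn N₀ M₀ := H.normalIn hN₀ h0M hM₀
  have hfin : N₀.relIndex M₀ ≠ 0 :=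
    fun h0 => H.fin N₀ hN₀ (Subgroup.relIndex_eq_zero_of_le_right hM₀ h0)
  obtain ⟨P, n, h0P, hPM, hPidx, hcop⟩ := exists_sylow_between hn0 hp hfin
  have hPD : P ≤ D := hPM.trans hM₀
  have hlP : ∃ N ∈ lev, N ≤ P := ⟨N₀, hN₀, h0P⟩
  have hVidx : V.relIndex M₀ = p := h.relIndex_eq
  -- `P` is not contained in `V`
  have hPV : ¬ P ≤ V := by
    intro hle
    have h1 := Subgroup.relIndex_mul_relIndex P V M₀ hle hVM
    rw [hVidx] at h1
    have h2 : p ∣ P.relIndex M₀ := ⟨P.relIndex V, by rw [← h1, mul_comm]⟩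
    exact hp.one_lt.ne' (Nat.Coprime.eq_one_of_dvd hcop h2)
  obtain ⟨τ, hτP, hτV⟩ := SetLike.not_le_iff_exists.mp hPV
  obtain ⟨e', h'⟩ := h.exists_of_not_mem hp (hPM hτP) hτV
  have hc : CycData P (P ⊓ V) p τ e' := h'.restrict P hPM hτP
  have hl : ∃ N ∈ lev, N ≤ P ⊓ V := ⟨N₀, hN₀, le_inf h0P h0V⟩
  have hres : LevCob lev N₀ z := ⟨N₀, hN₀, le_rfl, cobOn₂_self_of_inflOn₂ (hiz.mono h0z)⟩
  cases n with
  | zero =>
    rw [pow_zero, Subgroup.relIndex_eq_one] at hPidx
    exact absurd (hPidx.trans h0V) hPV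
  | succ k =>
    obtain ⟨V₁, σ₁, e₁, h0V₁, h₁, hW₁⟩ := H.exists_step hp k hPD hN₀ h0P hPidx (hz.mono hPM)
      (hi.res H hPM hlP) (hpz.res H hPM hlP) hres
    have hs : LevCob lev (P ⊓ V) z :=
      H.step_indep hp hPD h₁ hc hl (hz.mono hPM) (hi.res H hPM hlP) hW₁
    obtain ⟨Ns, hNs, hNsPV, hcs⟩ := hs
    obtain ⟨N', hN', h1, h2⟩ := H.exists_le₂ hNs hN₀
    have hN'PV : N' ≤ P ⊓ V := h1.trans hNsPV
    have hN'V : N' ≤ V := hN'PV.trans inf_le_right
    refine ⟨N', hN', hN'V, ?_⟩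
    have hcop' : Nat.Coprime p ((P ⊓ V).relIndex V) := by
      have e1 := Subgroup.relIndex_mul_relIndex (P ⊓ V) P M₀ inf_le_left hPM
      have e2 := Subgroup.relIndex_mul_relIndex (P ⊓ V) V M₀ inf_le_right hVM
      rw [hc.relIndex_eq] at e1
      rw [hVidx, ← e1, mul_comm] at e2
      have e3 : (P ⊓ V).relIndex V = P.relIndex M₀ := Nat.eq_of_mul_eq_mul_left hp.pos e2
      rw [e3]
      exact hcop
    exact cobOn₂_of_res_of_coprime (H.normalIn hN' hN'V (hVM.trans hM₀)) hN'PV inf_le_right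
      (hz.mono hVM) (((hiz.mono h0z).mono h2).mono_left hVM) (hcs.mono h1) p
      (((hcp.mono h0p).mono h2).mono_left hVM) hcop'

end LineHyp

end Fermat.Agent.PT.Br
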