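import Fermat.Agent.PT.Br.KeyLemma

/-!
# PT / BR layer: restriction to a subgroup of finite index, with levels

`N₀ ≤ P ≤ M`, `N₀` normal in `M`, `[M : P]` finite.  If a 2-cocycle of `M` inflated from `M/N₀`
restricts to a coboundary on `P` (of a cochain inflated from `P/N₀`), then `[M : P] • z` is a
coboundary on `M` (of a cochain inflated from `M/N₀`).  (Explicit averaging over `M/P`, after
helper1's `SylowRes` argument; here the inflation level is tracked.)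
-/

set_option autoImplicit false
set_option linter.style.haveILetI false

namespace Fermat.Agent.PT.Br

open Finset

variable {Γ A : Type*} [Group Γ] [AddCommGroup A] [DistribMulAction Γ A]

theorem cobOn₂_relIndex_smul {M P N₀ : Subgroup Γ} (hN₀ : NormalIn N₀ M) (h0P : N₀ ≤ P)
    (hPM : P ≤ M) (hfin : P.relIndex M ≠ 0) {z : Γ × Γ → A} (hz : CocOn₂ M z)
    (hi : InflOn₂ M N₀ z) (hP : CobOn₂ P N₀ z) :
    CobOn₂ M N₀ ((P.relIndex M : ℤ) • z) := by
  classical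
  obtain ⟨f₀, hf₀, he₀⟩ := hP
  -- Step 0: extend `f₀` by zero
  set b₀ : Γ → A := fun g => if g ∈ P then f₀ g else 0 with hb₀def
  have hb₀P : ∀ g ∈ P, b₀ g = f₀ g := fun g hg => by simp [hb₀def, hg]
  have hb₀ : InflOn₁ M N₀ b₀ := by
    refine ⟨fun g hg s hs => ?_, fun g hg s hs => ?_⟩
    · have hiff : g * s ∈ P ↔ g ∈ P := by
        constructor
        · intro h'
          simpa using P.mul_mem h' (P.inv_mem (h0P hs))
        · intro h'
          exact P.mul_mem h' (h0P hs)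
      by_cases hgP : g ∈ P
      · simp only [hb₀def, hiff, hgP, if_true]
        exact hf₀.1 g hgP s hs
      · simp only [hb₀def, hiff, hgP, if_false]
    · by_cases hgP : g ∈ P
      · simp only [hb₀def, hgP, if_true]
        exact hf₀.2 g hgP s hs
      · simp only [hb₀def, hgP, if_false, smul_zero]
  have hz₁ : CocOn₂ M (z - d1 b₀) := hz.sub (cocOn₂_d1 M b₀)
  have hi₁ : InflOn₂ M N₀ (z - d1 b₀) := hi.sub (hb₀.d1 hN₀)
  have hv₁ : ∀ n ∈ P, ∀ n' ∈ P, (z - d1 b₀) (n, n') = 0 := by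
    intro n hn n' hn'
    simp only [Pi.sub_apply, d1_apply, hb₀P n hn, hb₀P n' hn', hb₀P _ (P.mul_mem hn hn')]
    rw [he₀ n hn n' hn']
    simp
  -- Step 1: kill `z₁ (g, n)`, `n ∈ P`
  obtain ⟨τ, hτ1, hτ2, hτ3⟩ := exists_transversal P
  have hτM : ∀ g ∈ M, τ g ∈ M := by
    intro g hg
    have h1 : τ g = g * ((τ g)⁻¹ * g)⁻¹ := by group
    rw [h1]
    exact M.mul_mem hg (M.inv_mem (hPM (hτ1 g)))
  set b₁ : Γ → A := fun g => (z - d1 b₀) (τ g, (τ g)⁻¹ * g) with hb₁def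
  have hb₁ : InflOn₁ M N₀ b₁ := by
    refine ⟨fun g hg s hs => ?_, fun g hg s hs => ?_⟩
    · simp only [hb₁def]
      rw [hτ2 g s (h0P hs)]
      have e1 : (τ g)⁻¹ * (g * s) = (τ g)⁻¹ * g * s := by group
      rw [e1, hi₁.right₂ (hτM g hg) (hPM (hτ1 g)) hs]
    · simp only [hb₁def]
      exact hi₁.2 _ (hτM g hg) _ (hPM (hτ1 g)) s hs
  have hz₂ : CocOn₂ M (z - d1 b₀ + d1 b₁) := hz₁.add (cocOn₂_d1 M b₁)
  have hi₂ : InflOn₂ M N₀ (z - d1 b₀ + d1 b₁) := hi₁.add (hb₁.d1 hN₀)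
  have hv₂ : ∀ g ∈ M, ∀ n ∈ P, (z - d1 b₀ + d1 b₁) (g, n) = 0 := by
    intro g hg n hn
    have hb₁n : b₁ n = 0 := by
      simp only [hb₁def]
      rw [hτ3 n hn]
      simpa using hv₁ 1 P.one_mem n hn
    have hc := hz₁ (τ g) (hτM g hg) ((τ g)⁻¹ * g) (hPM (hτ1 g)) n (hPM hn)
    rw [hv₁ _ (hτ1 g) n hn, smul_zero, zero_add] at hc
    have e1 : τ g * ((τ g)⁻¹ * g) = g := by group
    have e2 : (τ g)⁻¹ * g * n = (τ (g * n))⁻¹ * (g * n) := by
      rw [hτ2 g n hn]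
      group
    rw [e1] at hc
    have hb₁gn : b₁ (g * n) = (z - d1 b₀) (τ g, (τ g)⁻¹ * g * n) := by
      simp only [hb₁def]
      rw [← e2, hτ2 g n hn]
    show (z - d1 b₀) (g, n) + d1 b₁ (g, n) = 0
    rw [d1_apply, hb₁n, smul_zero, hb₁gn, ← hc]
    simp only [hb₁def]
    abel
  -- right `P`-invariance in the second variable
  have hinv : ∀ g ∈ M, ∀ k ∈ M, ∀ n ∈ P,
      (z - d1 b₀ + d1 b₁) (g, k * n) = (z - d1 b₀ + d1 b₁) (g, k) := by
    intro g hg k hk n hn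
    have hc := hz₂ g hg k hk n (hPM hn)
    rw [hv₂ _ (M.mul_mem hg hk) n hn, hv₂ k hk n hn, smul_zero, zero_add, zero_add] at hc
    exact hc.symm
  -- Step 2: averaging over `M/P`
  haveI : (P.subgroupOf M).FiniteIndex := ⟨hfin⟩
  haveI : Finite (↥M ⧸ P.subgroupOf M) := Subgroup.finite_quotient_of_finiteIndex
  letI : Fintype (↥M ⧸ P.subgroupOf M) := Fintype.ofFinite _
  set β : Γ → A := fun g => ∑ q : ↥M ⧸ P.subgroupOf M,
    (z - d1 b₀ + d1 b₁) (g, ((q.out : ↥M) : Γ)) with hβdef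
  have hβ : InflOn₁ M N₀ β := by
    refine ⟨fun g hg s hs => ?_, fun g hg s hs => ?_⟩
    · simp only [hβdef]
      exact Finset.sum_congr rfl fun q _ => hi₂.right₁ hg q.out.2 hs
    · simp only [hβdef, smul_sum]
      exact Finset.sum_congr rfl fun q _ => hi₂.2 g hg _ q.out.2 s hs
  have hshift : ∀ (g : Γ), g ∈ M → ∀ h' : ↥M,
      ∑ q : ↥M ⧸ P.subgroupOf M, (z - d1 b₀ + d1 b₁) (g, (h' : Γ) * ((q.out : ↥M) : Γ)) = β g := by
    intro g hg h'
    have h1 : ∀ q : ↥M ⧸ P.subgroupOf M,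
        (z - d1 b₀ + d1 b₁) (g, (h' : Γ) * ((q.out : ↥M) : Γ)) =
          (z - d1 b₀ + d1 b₁) (g, (((h' • q).out : ↥M) : Γ)) := by
      intro q
      have h2 : ((h' * q.out : ↥M) : ↥M ⧸ P.subgroupOf M) = (((h' • q).out : ↥M) :
          ↥M ⧸ P.subgroupOf M) := by
        rw [QuotientGroup.out_eq']
        conv_rhs => rw [← QuotientGroup.out_eq' q]
        rfl
      have h3 := QuotientGroup.eq.mp h2
      rw [Subgroup.mem_subgroupOf] at h3
      have e1 : (((h' • q).out : ↥M) : Γ) =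
          (h' : Γ) * ((q.out : ↥M) : Γ) * (((h' * q.out : ↥M)⁻¹ * (h' • q).out : ↥M) : Γ) := by
        simp only [Subgroup.coe_mul, Subgroup.coe_inv]
        group
      rw [e1, hinv g hg _ (M.mul_mem h'.2 q.out.2) _ h3]
    rw [Finset.sum_congr rfl (fun q _ => h1 q)]
    exact Equiv.sum_comp (MulAction.toPerm h')
      (fun q : ↥M ⧸ P.subgroupOf M => (z - d1 b₀ + d1 b₁) (g, ((q.out : ↥M) : Γ)))
  have hcard : Fintype.card (↥M ⧸ P.subgroupOf M) = P.relIndex M := by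
    rw [← Nat.card_eq_fintype_card]
    rfl
  have hmain : ∀ g ∈ M, ∀ k ∈ M,
      ((P.relIndex M : ℤ) • (z - d1 b₀ + d1 b₁)) (g, k) = d1 β (g, k) := by
    intro g hg k hk
    have hsum : ∑ q : ↥M ⧸ P.subgroupOf M,
        ((z - d1 b₀ + d1 b₁) (g * k, ((q.out : ↥M) : Γ)) + (z - d1 b₀ + d1 b₁) (g, k)) =
        ∑ q : ↥M ⧸ P.subgroupOf M,
        (g • (z - d1 b₀ + d1 b₁) (k, ((q.out : ↥M) : Γ)) +
          (z - d1 b₀ + d1 b₁) (g, k * ((q.out : ↥M) : Γ))) :=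
      Finset.sum_congr rfl fun q _ => hz₂ g hg k hk _ q.out.2
    rw [Finset.sum_add_distrib, Finset.sum_add_distrib, Finset.sum_const, Finset.card_univ, hcard,
      ← smul_sum, hshift g hg ⟨k, hk⟩] at hsum
    simp only [Pi.smul_apply, natCast_zsmul, d1_apply]
    have hβgk : β (g * k) = ∑ q : ↥M ⧸ P.subgroupOf M,
        (z - d1 b₀ + d1 b₁) (g * k, ((q.out : ↥M) : Γ)) := rfl
    have hβk : β k = ∑ q : ↥M ⧸ P.subgroupOf M,
        (z - d1 b₀ + d1 b₁) (k, ((q.out : ↥M) : Γ)) := rfl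
    rw [hβgk, hβk]
    linear_combination (norm := abel) hsum
  have c0 : CobOn₂ M N₀ ((P.relIndex M : ℤ) • (z - d1 b₀ + d1 b₁)) := ⟨β, hβ, hmain⟩
  have c1' : CobOn₂ M N₀ (d1 b₀) := ⟨b₀, hb₀, fun _ _ _ _ => rfl⟩
  have c1 : CobOn₂ M N₀ ((P.relIndex M : ℤ) • d1 b₀) := c1'.zsmul _
  have c2' : CobOn₂ M N₀ (d1 b₁) := ⟨b₁, hb₁, fun _ _ _ _ => rfl⟩
  have c2 : CobOn₂ M N₀ ((P.relIndex M : ℤ) • d1 b₁) := c2'.zsmul _
  refine ((c0.add c1).sub c2).congr fun g _ k _ => ?_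
  simp only [Pi.smul_apply, Pi.add_apply, Pi.sub_apply, smul_add, smul_sub]
  abel

/-- If moreover `n • z` is a coboundary with `n` prime to `[M : P]`, then `z` is a coboundary. -/
theorem cobOn₂_of_res_of_coprime {M P N₀ : Subgroup Γ} (hN₀ : NormalIn N₀ M) (h0P : N₀ ≤ P)
    (hPM : P ≤ M) {z : Γ × Γ → A} (hz : CocOn₂ M z)
    (hi : InflOn₂ M N₀ z) (hP : CobOn₂ P N₀ z) (n : ℕ) (hn : CobOn₂ M N₀ ((n : ℤ) • z))
    (hcop : Nat.Coprime n (P.relIndex M)) : CobOn₂ M N₀ z := by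
  by_cases hfin : P.relIndex M = 0
  · rw [hfin, Nat.coprime_zero_right] at hcop
    subst hcop
    refine hn.congr fun g _ k _ => ?_
    simp
  have h1 := cobOn₂_relIndex_smul hN₀ h0P hPM hfin hz hi hP
  have hb : (n : ℤ) * Nat.gcdA n (P.relIndex M) + (P.relIndex M : ℤ) * Nat.gcdB n (P.relIndex M)
      = 1 := by
    have := Nat.gcd_eq_gcd_ab n (P.relIndex M)
    rw [hcop.gcd_eq_one] at this
    exact_mod_cast this.symm
  refine ((hn.zsmul (Nat.gcdA n (P.relIndex M))).add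
    (h1.zsmul (Nat.gcdB n (P.relIndex M)))).congr fun g _ k _ => ?_
  simp only [Pi.add_apply, Pi.smul_apply]
  rw [← mul_smul, ← mul_smul, ← add_smul, mul_comm _ (n : ℤ), mul_comm _ (P.relIndex M : ℤ), hb,
    one_smul]

end Fermat.Agent.PT.Br
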