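import Fermat.Agent.PT.Br.Cyclic

/-!
# PT / BR layer: the transfer identity for a split cyclic quotient

`G` a group, `N` a normal subgroup with `G/N` abelian, `σ ∈ G` with `σ ^ p ∈ N`, and an "exponent"
`e : G → ℕ` additive mod `p`.  Put `π g = σ ^ (-e g) * g`.  For a 2-cocycle `z` of `G` inflated
from `G/N` (right-`N`-invariant in both variables) and
`β g = ∑_{i<p} (z (σ^i, π g) - z (g, σ^i))` we have

`d1 β (g₁, g₂) = ∑_{i<p} σ^i • z (π g₁, π g₂) - p • z (g₁, g₂)`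

(`cor ∘ res = p` for the subgroup `ker e`, with explicit cochains).
-/

set_option autoImplicit false
set_option linter.style.haveILetI false

namespace Fermat.Agent.PT.Br

open Finset

section CommGroupAux

variable {Q : Type*} [CommGroup Q]

lemma cg_shift (s u : Q) (a i : ℕ) : u * s ^ i = s ^ (a + i) * ((s ^ a)⁻¹ * u) := by
  rw [pow_add, mul_comm (s ^ a) (s ^ i), mul_assoc, mul_inv_cancel_left, mul_comm]

lemma cg_period (s u : Q) (j p : ℕ) (hs : s ^ p = 1) : s ^ (j + p) * u = s ^ j * u := by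
  rw [pow_add, hs, mul_one]

lemma cg_mul (s u₁ u₂ : Q) (a b p : ℕ) (hs : s ^ p = 1) :
    (s ^ a)⁻¹ * u₁ * ((s ^ b)⁻¹ * u₂) = (s ^ ((a + b) % p))⁻¹ * (u₁ * u₂) := by
  rw [← pow_eq_pow_mod (a + b) hs, pow_add, mul_inv]
  rw [mul_mul_mul_comm]

end CommGroupAux

section Honest

variable {G A : Type*} [Group G] [AddCommGroup A] [DistribMulAction G A]

/-- **Transfer identity** (honest group form). -/
theorem transfer_identity (N : Subgroup G) [N.Normal] {z : G × G → A}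
    (hz : ∀ g h j : G, z (g * h, j) + z (g, h) = g • z (h, j) + z (g, h * j))
    (hinv : ∀ (g k : G), ∀ n ∈ N, ∀ n' ∈ N, z (g * n, k * n') = z (g, k))
    {p : ℕ} (σ : G) (hσp : σ ^ p ∈ N) (hab : ∀ g k : G, (k * g)⁻¹ * (g * k) ∈ N)
    (e : G → ℕ) (he : ∀ g k, e (g * k) = (e g + e k) % p) (g₁ g₂ : G) :
    g₁ • (∑ i ∈ range p, (z (σ ^ i, (σ ^ e g₂)⁻¹ * g₂) - z (g₂, σ ^ i)))
      - (∑ i ∈ range p, (z (σ ^ i, (σ ^ e (g₁ * g₂))⁻¹ * (g₁ * g₂)) - z (g₁ * g₂, σ ^ i)))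
      + (∑ i ∈ range p, (z (σ ^ i, (σ ^ e g₁)⁻¹ * g₁) - z (g₁, σ ^ i)))
    = ∑ i ∈ range p, σ ^ i • z ((σ ^ e g₁)⁻¹ * g₁, (σ ^ e g₂)⁻¹ * g₂) - p • z (g₁, g₂) := by
  have hq : ∀ g g' k k' : G, (g : G ⧸ N) = g' → (k : G ⧸ N) = k' → z (g, k) = z (g', k') := by
    intro g g' k k' h1 h2
    have e1 : g' = g * (g⁻¹ * g') := by group
    have e2 : k' = k * (k⁻¹ * k') := by group
    rw [e1, e2]
    exact (hinv g k _ (QuotientGroup.eq.mp h1) _ (QuotientGroup.eq.mp h2)).symm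
  have hQc : ∀ a b : G ⧸ N, a * b = b * a := by
    intro a b
    induction a using QuotientGroup.induction_on with
    | H g =>
      induction b using QuotientGroup.induction_on with
      | H k =>
        rw [← QuotientGroup.mk_mul, ← QuotientGroup.mk_mul]
        exact (QuotientGroup.eq.mpr (hab g k)).symm
  letI : CommGroup (G ⧸ N) := { (inferInstance : Group (G ⧸ N)) with mul_comm := hQc }
  have hsp : ((σ : G) : G ⧸ N) ^ p = 1 := by
    rw [← QuotientGroup.mk_pow]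
    exact (QuotientGroup.eq_one_iff _).mpr hσp
  set π₁ := (σ ^ e g₁)⁻¹ * g₁ with hπ₁
  set π₂ := (σ ^ e g₂)⁻¹ * g₂ with hπ₂
  set π₁₂ := (σ ^ e (g₁ * g₂))⁻¹ * (g₁ * g₂) with hπ₁₂
  have S1 : ∀ i, z (g₁ * g₂, σ ^ i) + z (g₁, g₂) = g₁ • z (g₂, σ ^ i) + z (g₁, g₂ * σ ^ i) :=
    fun i => hz _ _ _
  have S3 : ∀ i, z (g₁ * σ ^ i, π₂) + z (g₁, σ ^ i) = g₁ • z (σ ^ i, π₂) + z (g₁, σ ^ i * π₂) :=
    fun i => hz _ _ _
  have S5 : ∀ i, z (σ ^ i * π₁, π₂) + z (σ ^ i, π₁) = σ ^ i • z (π₁, π₂) + z (σ ^ i, π₁ * π₂) :=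
    fun i => hz _ _ _
  have S5' : ∀ i, z (σ ^ i, π₁ * π₂) = z (σ ^ i, π₁₂) := by
    intro i
    refine hq _ _ _ _ rfl ?_
    rw [hπ₁, hπ₂, hπ₁₂, he g₁ g₂]
    simp only [QuotientGroup.mk_mul, QuotientGroup.mk_inv, QuotientGroup.mk_pow]
    exact cg_mul _ _ _ _ _ _ hsp
  have S2 : ∑ i ∈ range p, z (g₁, g₂ * σ ^ i) = ∑ i ∈ range p, z (g₁, σ ^ i * π₂) := by
    have h1 : ∀ i, z (g₁, g₂ * σ ^ i) = z (g₁, σ ^ (e g₂ + i) * π₂) := by
      intro i
      refine hq _ _ _ _ rfl ?_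
      rw [hπ₂]
      simp only [QuotientGroup.mk_mul, QuotientGroup.mk_inv, QuotientGroup.mk_pow]
      exact cg_shift _ _ _ _
    rw [Finset.sum_congr rfl (fun i _ => h1 i)]
    refine CycData.sum_range_shift_periodic (fun j => z (g₁, σ ^ j * π₂)) p (fun l => ?_) (e g₂)
    refine hq _ _ _ _ rfl ?_
    simp only [QuotientGroup.mk_mul, QuotientGroup.mk_pow]
    exact cg_period _ _ _ _ hsp
  have S4 : ∑ i ∈ range p, z (g₁ * σ ^ i, π₂) = ∑ i ∈ range p, z (σ ^ i * π₁, π₂) := by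
    have h1 : ∀ i, z (g₁ * σ ^ i, π₂) = z (σ ^ (e g₁ + i) * π₁, π₂) := by
      intro i
      refine hq _ _ _ _ ?_ rfl
      rw [hπ₁]
      simp only [QuotientGroup.mk_mul, QuotientGroup.mk_inv, QuotientGroup.mk_pow]
      exact cg_shift _ _ _ _
    rw [Finset.sum_congr rfl (fun i _ => h1 i)]
    refine CycData.sum_range_shift_periodic (fun j => z (σ ^ j * π₁, π₂)) p (fun l => ?_) (e g₁)
    refine hq _ _ _ _ ?_ rfl
    simp only [QuotientGroup.mk_mul, QuotientGroup.mk_pow]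
    exact cg_period _ _ _ _ hsp
  have key : ∀ i, g₁ • (z (σ ^ i, π₂) - z (g₂, σ ^ i)) - (z (σ ^ i, π₁₂) - z (g₁ * g₂, σ ^ i))
      + (z (σ ^ i, π₁) - z (g₁, σ ^ i)) =
      (z (g₁ * σ ^ i, π₂) - z (σ ^ i * π₁, π₂)) + (z (g₁, g₂ * σ ^ i) - z (g₁, σ ^ i * π₂))
        + σ ^ i • z (π₁, π₂) - z (g₁, g₂) := by
    intro i
    rw [smul_sub]
    linear_combination (norm := abel) (S1 i) - (S3 i) + (S5 i) + (S5' i)
  rw [smul_sum, ← sum_sub_distrib, ← sum_add_distrib, Finset.sum_congr rfl (fun i _ => key i),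
    sum_sub_distrib, sum_add_distrib, sum_add_distrib, sum_sub_distrib, sum_sub_distrib, S2, S4,
    sub_self, sub_self, zero_add, zero_add, sum_const, card_range]

end Honest

section Ambient

variable {Γ A : Type*} [Group Γ] [AddCommGroup A] [DistribMulAction Γ A]

lemma NormalIn.subgroupOf_normal {N M : Subgroup Γ} (h : NormalIn N M) :
    (N.subgroupOf M).Normal := by
  constructor
  intro n hn g
  rw [Subgroup.mem_subgroupOf] at hn ⊢
  exact h.conj g g.2 n hn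

/-- **Transfer identity** on a subgroup `M` of an ambient group, for cochains inflated from
`M/N'`. -/
theorem transfer_on {M N' : Subgroup Γ} (hN' : NormalIn N' M) {p : ℕ} {σ : Γ} (hσ : σ ∈ M)
    (hσp : σ ^ p ∈ N') (hab : ∀ g ∈ M, ∀ k ∈ M, (k * g)⁻¹ * (g * k) ∈ N') (e : Γ → ℕ)
    (he : ∀ g ∈ M, ∀ k ∈ M, e (g * k) = (e g + e k) % p)
    {z : Γ × Γ → A} (hz : CocOn₂ M z) (hi : InflOn₂ M N' z) :
    ∀ g₁ ∈ M, ∀ g₂ ∈ M,
      d1 (fun g => ∑ i ∈ range p, (z (σ ^ i, (σ ^ e g)⁻¹ * g) - z (g, σ ^ i))) (g₁, g₂)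
        = ∑ i ∈ range p, σ ^ i • z ((σ ^ e g₁)⁻¹ * g₁, (σ ^ e g₂)⁻¹ * g₂) - p • z (g₁, g₂) := by
  intro g₁ h₁ g₂ h₂
  haveI := hN'.subgroupOf_normal
  have key := transfer_identity (G := M) (A := A) (N'.subgroupOf M)
    (z := fun x : M × M => z ((x.1 : Γ), (x.2 : Γ)))
    (fun g h j => hz g g.2 h h.2 j j.2)
    (fun g k n hn n' hn' => hi.1 g g.2 k k.2 n (Subgroup.mem_subgroupOf.mp hn) n'
      (Subgroup.mem_subgroupOf.mp hn'))
    (p := p) ⟨σ, hσ⟩ (Subgroup.mem_subgroupOf.mpr (by simpa using hσp))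
    (fun g k => Subgroup.mem_subgroupOf.mpr (by simpa using hab g g.2 k k.2))
    (fun g => e g) (fun g k => he g g.2 k k.2) ⟨g₁, h₁⟩ ⟨g₂, h₂⟩
  simpa [d1_apply, Subgroup.smul_def] using key

end Ambient

end Fermat.Agent.PT.Br
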